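import Mathlib

/-!
# Ostrowski's theorem for archimedean absolute values

`F` any field, `f : F → ℝ` an absolute value which is not bounded by `1` on `ℕ`.

* `exists_embedding_of_unbounded` : there are an embedding `σ : F → ℂ` and `0 < s ≤ 1` such that
  `f x = |σ x| ^ s` for all `x`.
* `ostrowski_complete` : if moreover `F` is complete, then `σ` is an isomorphism of `F` with `ℝ` or
  with `ℂ`.
-/

set_option autoImplicit false

open Filter Topology

noncomputable section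

namespace Fermat.Agent.Cor.Adele

/-! ### Growth of powers -/

theorem le_of_pow_le_mul_pow {a R : ℝ} (ha : 0 ≤ a) (hR : 0 ≤ R)
    (h : ∀ n : ℕ, a ^ n ≤ (n + 1) * R ^ n) : a ≤ R := by
  by_contra hc
  push Not at hc
  have ha0 : 0 < a := lt_of_le_of_lt hR hc
  set r : ℝ := R / a with hr
  have hr0 : 0 ≤ r := div_nonneg hR ha
  have hr1 : r < 1 := (div_lt_one ha0).mpr hc
  have h2 : Tendsto (fun n : ℕ => (n : ℝ) * r ^ n + r ^ n) atTop (𝓝 0) := by
    have h3 := (tendsto_self_mul_const_pow_of_lt_one hr0 hr1).add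
      (tendsto_pow_atTop_nhds_zero_of_lt_one hr0 hr1)
    rwa [add_zero] at h3
  obtain ⟨n, hn⟩ := (h2.eventually_lt_const one_pos).exists
  have h3 := h n
  have h4 : (n : ℝ) * r ^ n + r ^ n = (n + 1) * R ^ n / a ^ n := by
    rw [hr, div_pow]
    ring
  rw [h4, div_lt_one (pow_pos ha0 n)] at hn
  exact absurd h3 (not_le.mpr hn)

theorem le_of_pow_le_const_mul_pow {a b M : ℝ} (hb : 0 ≤ b)
    (h : ∀ n : ℕ, a ^ n ≤ M * b ^ n) : a ≤ b := by
  by_contra hc
  push Not at hc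
  have ha0 : 0 < a := lt_of_le_of_lt hb hc
  rcases eq_or_lt_of_le hb with h0 | h0
  · have h1 := h 1
    rw [← h0, pow_one, pow_one, mul_zero] at h1
    linarith
  · have h1 : 1 < a / b := (one_lt_div h0).mpr hc
    obtain ⟨n, hn⟩ := pow_unbounded_of_one_lt M h1
    rw [div_pow, lt_div_iff₀ (pow_pos h0 n)] at hn
    exact absurd (h n) (not_le.mpr hn)

/-! ### Reduction to the case where `f` extends the usual absolute value of `ℚ` -/

variable {F : Type*} [Field F]

theorem charZero_of_unbounded {f : AbsoluteValue F ℝ} (hb : ¬ ∀ n : ℕ, f n ≤ 1) : CharZero F := by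
  obtain ⟨p, hp⟩ := CharP.exists F
  rcases CharP.char_is_prime_or_zero F p with hp' | rfl
  · exfalso
    refine hb fun n => ?_
    have : Fact p.Prime := ⟨hp'⟩
    by_cases hn : (n : F) = 0
    · rw [hn, map_zero]
      exact zero_le_one
    · have h1 : (n : ZMod p) ≠ 0 := fun h => hn ((CharP.cast_eq_zero_iff F p n).mpr
        ((ZMod.natCast_eq_zero_iff n p).mp h))
      have h2 := ZMod.pow_card_sub_one_eq_one h1
      have h3 : (n : F) ^ (p - 1) = 1 := by
        have h4 := congrArg (ZMod.castHom (dvd_refl p) F) h2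
        rw [map_pow, map_natCast, map_one] at h4
        exact h4
      have h5 : f n ^ (p - 1) = 1 := by rw [← map_pow, h3, map_one]
      have h6 : p - 1 ≠ 0 := (Nat.sub_pos_of_lt hp'.one_lt).ne'
      exact ((pow_eq_one_iff_of_nonneg (f.nonneg _) h6).mp h5).le
  · exact CharP.charP_to_charZero F

/-- If `f n = n ^ s` for all `n`, then `f ^ (1 / s)` is an absolute value. -/
def rpowAbv (f : AbsoluteValue F ℝ) {s : ℝ} (hs : 0 < s) (h : ∀ n : ℕ, f n = (n : ℝ) ^ s) :
    AbsoluteValue F ℝ where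
  toFun x := f x ^ s⁻¹
  map_mul' x y := by rw [map_mul, Real.mul_rpow (f.nonneg _) (f.nonneg _)]
  nonneg' x := Real.rpow_nonneg (f.nonneg _) _
  eq_zero' x := by
    rw [Real.rpow_eq_zero (f.nonneg _) (inv_ne_zero hs.ne'), map_eq_zero]
  add_le' x y := by
    have hA0 : 0 ≤ f x ^ s⁻¹ := Real.rpow_nonneg (f.nonneg _) _
    have hB0 : 0 ≤ f y ^ s⁻¹ := Real.rpow_nonneg (f.nonneg _) _
    set A : ℝ := f x ^ s⁻¹ with hA
    set B : ℝ := f y ^ s⁻¹ with hB
    have hAs : f x = A ^ s := by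
      rw [hA, ← Real.rpow_mul (f.nonneg _), inv_mul_cancel₀ hs.ne', Real.rpow_one]
    have hBs : f y = B ^ s := by
      rw [hB, ← Real.rpow_mul (f.nonneg _), inv_mul_cancel₀ hs.ne', Real.rpow_one]
    have hAB : 0 ≤ A + B := add_nonneg hA0 hB0
    have key : f (x + y) ≤ (A + B) ^ s := by
      refine le_of_pow_le_mul_pow (f.nonneg _) (Real.rpow_nonneg hAB _) fun n => ?_
      rw [← map_pow, add_pow]
      refine (f.sum_le _ _).trans ?_
      have h2 : ∀ m ∈ Finset.range (n + 1), f (x ^ m * y ^ (n - m) * (n.choose m : F)) ≤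
          ((A + B) ^ s) ^ n := by
        intro m hm
        rw [map_mul, map_mul, map_pow, map_pow, h, hAs, hBs, ← Real.rpow_natCast (A ^ s),
          ← Real.rpow_natCast (B ^ s), ← Real.rpow_mul hA0, ← Real.rpow_mul hB0, mul_comm s,
          mul_comm s, Real.rpow_mul hA0, Real.rpow_mul hB0, Real.rpow_natCast, Real.rpow_natCast,
          ← Real.mul_rpow (pow_nonneg hA0 _) (pow_nonneg hB0 _),
          ← Real.mul_rpow (mul_nonneg (pow_nonneg hA0 _) (pow_nonneg hB0 _)) (Nat.cast_nonneg _),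
          ← Real.rpow_natCast ((A + B) ^ s), ← Real.rpow_mul hAB, mul_comm s, Real.rpow_mul hAB,
          Real.rpow_natCast]
        refine Real.rpow_le_rpow (by positivity) ?_ hs.le
        rw [add_pow A B n]
        exact Finset.single_le_sum (f := fun m => A ^ m * B ^ (n - m) * (n.choose m : ℝ))
          (fun i _ => by positivity) hm
      refine (Finset.sum_le_sum h2).trans (le_of_eq ?_)
      rw [Finset.sum_const, Finset.card_range, nsmul_eq_mul]
      push_cast
      ring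
    calc f (x + y) ^ s⁻¹ ≤ ((A + B) ^ s) ^ s⁻¹ :=
          Real.rpow_le_rpow (f.nonneg _) key (inv_nonneg.mpr hs.le)
      _ = A + B := by rw [← Real.rpow_mul hAB, mul_inv_cancel₀ hs.ne', Real.rpow_one]

theorem rpowAbv_apply (f : AbsoluteValue F ℝ) {s : ℝ} (hs : 0 < s)
    (h : ∀ n : ℕ, f n = (n : ℝ) ^ s) (x : F) : rpowAbv f hs h x = f x ^ s⁻¹ := rfl

/-! ### Complete fields -/

/-- A complete normed field `C` in which `|n| = n` for all natural numbers is isometrically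
isomorphic to `ℝ` or to `ℂ`. -/
theorem real_or_complex (C : Type*) [NormedField C] [CompleteSpace C]
    (h : ∀ q : ℚ, ‖(q : C)‖ = |(q : ℝ)|) :
    (∃ e : C ≃+* ℝ, ∀ z, ‖e z‖ = ‖z‖) ∨ ∃ e : C ≃+* ℂ, ∀ z, ‖e z‖ = ‖z‖ := by
  have : CharZero C := by
    refine charZero_of_inj_zero fun n hn => ?_
    have h1 := h n
    rw [Rat.cast_natCast, hn, norm_zero, Rat.cast_natCast, Nat.abs_cast] at h1
    exact_mod_cast h1.symm
  have hiso : Isometry (Rat.castHom C) := by
    refine Isometry.of_dist_eq fun a b => ?_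
    rw [dist_eq_norm, ← map_sub, Rat.dist_eq]
    change ‖(((a - b : ℚ)) : C)‖ = _
    rw [h]
    push_cast
    rfl
  have ue : IsUniformInducing (Rat.castHom ℝ) := Rat.isUniformEmbedding_coe_real.isUniformInducing
  have dr : DenseRange (Rat.castHom ℝ) := Rat.denseRange_cast
  let φ : ℝ →+* C := IsDenseInducing.extendRingHom ue dr hiso.uniformContinuous
  have hφ : Continuous φ := (uniformContinuous_uniformly_extend ue dr
    hiso.uniformContinuous).continuous
  have hφq : ∀ q : ℚ, φ (q : ℝ) = (q : C) := fun q =>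
    IsDenseInducing.extend_eq (ue.isDenseInducing dr) hiso.continuous q
  have hnorm : ∀ r : ℝ, ‖φ r‖ = |r| := by
    intro r
    refine DenseRange.induction_on (p := fun r => ‖φ r‖ = |r|) dr r
      (isClosed_eq (continuous_norm.comp hφ) continuous_abs) fun q => ?_
    change ‖φ (q : ℝ)‖ = |(q : ℝ)|
    rw [hφq, h]
  let : Algebra ℝ C := φ.toAlgebra
  let : NormedAlgebra ℝ C :=
    { norm_smul_le := fun r x => by
        rw [Algebra.smul_def, norm_mul]
        change ‖φ r‖ * ‖x‖ ≤ _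
        rw [hnorm, Real.norm_eq_abs] }
  have key : ∀ (D : Type) [NormedField D] [NormedAlgebra ℝ D] (e : C ≃ₐ[ℝ] D),
      FiniteDimensional ℝ C → ∀ z, ‖e z‖ = ‖z‖ := by
    intro D _ _ e hfd
    have hle : ∀ z, ‖e z‖ ≤ ‖z‖ := by
      intro z
      let L : C →L[ℝ] D := LinearMap.toContinuousLinearMap e.toLinearMap
      refine le_of_pow_le_const_mul_pow (M := ‖L‖) (norm_nonneg _) fun n => ?_
      rw [← norm_pow, ← norm_pow, ← map_pow]
      exact L.le_opNorm (z ^ n)
    intro z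
    refine le_antisymm (hle z) ?_
    by_cases hz : z = 0
    · rw [hz, norm_zero]
      exact norm_nonneg _
    · have h1 := hle z⁻¹
      rw [map_inv₀, norm_inv, norm_inv] at h1
      have h2 : 0 < ‖e z‖ := norm_pos_iff.mpr fun h0 => hz ((map_eq_zero e).mp h0)
      exact (inv_le_inv₀ h2 (norm_pos_iff.mpr hz)).mp h1
  rcases NormedAlgebra.Real.nonempty_algEquiv_or C with ⟨⟨e⟩⟩ | ⟨⟨e⟩⟩
  · have : FiniteDimensional ℝ C := e.symm.toLinearEquiv.finiteDimensional
    exact Or.inl ⟨e.toRingEquiv, key ℝ e this⟩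
  · have : FiniteDimensional ℝ C := e.symm.toLinearEquiv.finiteDimensional
    exact Or.inr ⟨e.toRingEquiv, key ℂ e this⟩

/-! ### Ostrowski's theorem -/

/-- The exponent. -/
theorem exists_exponent {f : AbsoluteValue F ℝ} (hb : ¬ ∀ n : ℕ, f n ≤ 1) [CharZero F] :
    ∃ s : ℝ, 0 < s ∧ s ≤ 1 ∧ ∀ q : ℚ, f (q : F) = |(q : ℝ)| ^ s := by
  set g : AbsoluteValue ℚ ℝ := f.comp (algebraMap ℚ F).injective with hg
  have hgq : ∀ q : ℚ, g q = f (q : F) := fun q => by
    rw [← eq_ratCast (algebraMap ℚ F) q]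
    rfl
  have hgb : ¬ ∀ n : ℕ, g n ≤ 1 := by
    intro h
    refine hb fun n => ?_
    have h1 := h n
    rw [hgq] at h1
    exact_mod_cast h1
  obtain ⟨c, hc, hgc⟩ := AbsoluteValue.isEquiv_iff_exists_rpow_eq.mp
    (Rat.AbsoluteValue.equiv_real_of_unbounded hgb)
  have hgc' : ∀ q : ℚ, f (q : F) = |(q : ℝ)| ^ c⁻¹ := by
    intro q
    have h1 : g q ^ c = |(q : ℝ)| := by
      have h2 := congrFun hgc q
      rw [Rat.AbsoluteValue.real_eq_abs] at h2
      rw [← Rat.cast_abs]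
      exact h2
    rw [← h1, ← Real.rpow_mul (g.nonneg q), mul_inv_cancel₀ hc.ne', Real.rpow_one, hgq]
  refine ⟨c⁻¹, inv_pos.mpr hc, ?_, hgc'⟩
  have h2 := hgc' 2
  have h3 : f ((2 : ℚ) : F) ≤ 2 := by
    have h4 : ((2 : ℚ) : F) = 1 + 1 := by push_cast; norm_num
    rw [h4]
    refine (f.add_le _ _).trans ?_
    rw [map_one]
    norm_num
  rw [h2] at h3
  have h5 : |((2 : ℚ) : ℝ)| = 2 := by norm_num
  rw [h5] at h3
  have h6 : (2 : ℝ) ^ c⁻¹ ≤ (2 : ℝ) ^ (1 : ℝ) := by rwa [Real.rpow_one]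
  exact (Real.rpow_le_rpow_left_iff one_lt_two).mp h6

/-- **Ostrowski's theorem for archimedean absolute values**: if an absolute value `f` of a field `F`
is not bounded by `1` on `ℕ`, then there are an embedding `σ : F → ℂ` and a real number
`0 < s ≤ 1` with `f x = |σ x| ^ s` for all `x`. -/
theorem exists_embedding_of_unbounded {f : AbsoluteValue F ℝ} (hb : ¬ ∀ n : ℕ, f n ≤ 1) :
    ∃ (σ : F →+* ℂ) (s : ℝ), 0 < s ∧ s ≤ 1 ∧ ∀ x, f x = ‖σ x‖ ^ s := by
  have := charZero_of_unbounded hb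
  obtain ⟨s, hs0, hs1, hs⟩ := exists_exponent hb
  have hsn : ∀ n : ℕ, f n = (n : ℝ) ^ s := fun n => by
    have h1 := hs n
    rw [Rat.cast_natCast, Rat.cast_natCast, Nat.abs_cast] at h1
    exact h1
  set g := rpowAbv f hs0 hsn with hg
  let j : F →+* g.Completion :=
    (UniformSpace.Completion.coeRingHom).comp (WithAbs.equiv g).symm.toRingHom
  have hj : ∀ x, ‖j x‖ = g x := fun x => by
    change ‖((WithAbs.toAbs g x : WithAbs g) : g.Completion)‖ = g x
    rw [UniformSpace.Completion.norm_coe]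
    rfl
  have hq : ∀ q : ℚ, ‖(q : g.Completion)‖ = |(q : ℝ)| := by
    intro q
    rw [← map_ratCast j q, hj, hg, rpowAbv_apply, hs, ← Real.rpow_mul (abs_nonneg _),
      mul_inv_cancel₀ hs0.ne', Real.rpow_one]
  have hfin : ∀ x, f x = ‖j x‖ ^ s := fun x => by
    rw [hj, hg, rpowAbv_apply, ← Real.rpow_mul (f.nonneg _), inv_mul_cancel₀ hs0.ne',
      Real.rpow_one]
  rcases real_or_complex g.Completion hq with ⟨e, he⟩ | ⟨e, he⟩
  · refine ⟨Complex.ofRealHom.comp (e.toRingHom.comp j), s, hs0, hs1, fun x => ?_⟩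
    rw [hfin, ← he]
    congr 1
    exact (Complex.norm_real _).symm
  · refine ⟨e.toRingHom.comp j, s, hs0, hs1, fun x => ?_⟩
    rw [hfin, ← he]
    rfl

/-- **Ostrowski's theorem for complete archimedean fields**: a complete normed field `F` in which
the natural numbers are not bounded by `1` is isomorphic to `ℝ` or to `ℂ`, the norm being `|·| ^ s`
with `0 < s ≤ 1`. -/
theorem ostrowski_complete (F : Type*) [NormedField F] [CompleteSpace F]
    (hb : ¬ ∀ n : ℕ, ‖(n : F)‖ ≤ 1) :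
    ∃ s : ℝ, 0 < s ∧ s ≤ 1 ∧
      ((∃ e : F ≃+* ℝ, ∀ z, ‖z‖ = ‖e z‖ ^ s) ∨ ∃ e : F ≃+* ℂ, ∀ z, ‖z‖ = ‖e z‖ ^ s) := by
  let f : AbsoluteValue F ℝ :=
    { toFun := norm
      map_mul' := norm_mul
      nonneg' := norm_nonneg
      eq_zero' := fun _ => norm_eq_zero
      add_le' := norm_add_le }
  have hf : ∀ x, f x = ‖x‖ := fun _ => rfl
  have hbf : ¬ ∀ n : ℕ, f n ≤ 1 := hb
  have := charZero_of_unbounded hbf
  obtain ⟨s, hs0, hs1, hs⟩ := exists_exponent hbf
  have hsn : ∀ n : ℕ, f n = (n : ℝ) ^ s := fun n => by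
    have h1 := hs n
    rw [Rat.cast_natCast, Rat.cast_natCast, Nat.abs_cast] at h1
    exact h1
  set g := rpowAbv f hs0 hsn
  have hgx : ∀ y : F, g y = f y ^ s⁻¹ := fun _ => rfl
  have hnorm : ∀ x : WithAbs g, ‖WithAbs.equiv g x‖ = ‖x‖ ^ s := fun x => by
    change f (WithAbs.equiv g x) = (g (WithAbs.equiv g x)) ^ s
    rw [hgx, ← Real.rpow_mul (f.nonneg _), inv_mul_cancel₀ hs0.ne', Real.rpow_one]
  have hnorm' : ∀ x : WithAbs g, ‖x‖ = ‖WithAbs.equiv g x‖ ^ s⁻¹ := fun x => by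
    rw [hnorm, ← Real.rpow_mul (norm_nonneg _), mul_inv_cancel₀ hs0.ne', Real.rpow_one]
  have hcomp : CompleteSpace (WithAbs g) := by
    refine Metric.complete_of_cauchySeq_tendsto fun u hu => ?_
    have hv : CauchySeq fun n => WithAbs.equiv g (u n) := by
      rw [Metric.cauchySeq_iff] at hu ⊢
      intro ε hε
      obtain ⟨N, hN⟩ := hu (ε ^ s⁻¹) (Real.rpow_pos_of_pos hε _)
      refine ⟨N, fun m hm n hn => ?_⟩
      rw [dist_eq_norm, ← map_sub, hnorm]
      have h1 := hN m hm n hn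
      rw [dist_eq_norm] at h1
      calc ‖u m - u n‖ ^ s < (ε ^ s⁻¹) ^ s := Real.rpow_lt_rpow (norm_nonneg _) h1 hs0
        _ = ε := by rw [← Real.rpow_mul hε.le, inv_mul_cancel₀ hs0.ne', Real.rpow_one]
    obtain ⟨a, ha⟩ := cauchySeq_tendsto_of_complete hv
    refine ⟨(WithAbs.equiv g).symm a, ?_⟩
    rw [tendsto_iff_norm_sub_tendsto_zero] at ha ⊢
    have h1 : ∀ n, ‖u n - (WithAbs.equiv g).symm a‖ =
        ‖WithAbs.equiv g (u n) - a‖ ^ s⁻¹ := fun n => by
      rw [hnorm', map_sub, RingEquiv.apply_symm_apply]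
    have h2 := ha.rpow_const (p := s⁻¹) (Or.inr (inv_nonneg.mpr hs0.le))
    rw [Real.zero_rpow (inv_ne_zero hs0.ne')] at h2
    exact h2.congr fun n => (h1 n).symm
  have hq : ∀ q : ℚ, ‖(q : WithAbs g)‖ = |(q : ℝ)| := by
    intro q
    rw [hnorm', map_ratCast, ← hf, hs, ← Real.rpow_mul (abs_nonneg _), mul_inv_cancel₀ hs0.ne',
      Real.rpow_one]
  have hfin : ∀ z : F, ‖z‖ = ‖(WithAbs.equiv g).symm z‖ ^ s := fun z => by
    rw [← hnorm, RingEquiv.apply_symm_apply]
  refine ⟨s, hs0, hs1, ?_⟩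
  rcases real_or_complex (WithAbs g) hq with ⟨e, he⟩ | ⟨e, he⟩
  · exact Or.inl ⟨(WithAbs.equiv g).symm.trans e, fun z => by rw [hfin, ← he]; rfl⟩
  · exact Or.inr ⟨(WithAbs.equiv g).symm.trans e, fun z => by rw [hfin, ← he]; rfl⟩

end Fermat.Agent.Cor.Adele
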