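import Fermat.Agent.Corollaries.Adele.ModCurve
import Mathlib.NumberTheory.ModularForms.Basic

/-!
# Modular forms as functions on `GL₂(𝔸_f)`

Let `U` be an open subgroup of `GL₂(𝔸_f)`, `𝔸_f` the ring of finite adeles of `ℚ`. An *adelic
modular form* of weight `k` and level `U` is a function `F : GL₂(𝔸_f) → (ℍ → ℂ)` with

* `F (γ g) = F g ∣[k] γ⁻¹` for `γ ∈ GL₂(ℚ)⁺`,
* `F (g κ) = F g` for `κ ∈ U`,
* every `F g` is holomorphic on `ℍ` and bounded at `i∞`.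

`adelicFormEquiv` : if `det U ⊇ Ẑˣ` and `GL₂(ℚ)⁺ ∩ U` is a subgroup `Γ` of finite index of
`SL₂(ℤ)`, then `F ↦ F 1` is an isomorphism of the space of adelic modular forms of weight `k` and
level `U` with the space of modular forms of weight `k` for `Γ`. The same for cusp forms.
-/

set_option autoImplicit false

open NumberField IsDedekindDomain HeightOneSpectrum WithZero Filter Topology RestrictedProduct
open Matrix UpperHalfPlane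
open scoped WithZero MatrixGroups ModularForm Manifold

noncomputable section

namespace Fermat.Agent.Cor.Adele

/-- The ring of finite adeles of `ℚ`. -/
local notation "𝔸f" => FiniteAdeleRing (𝓞 ℚ) ℚ

theorem glReal_mapGL (δ : SL(2, ℤ)) :
    glReal (Matrix.SpecialLinearGroup.mapGL ℚ δ) = Matrix.SpecialLinearGroup.mapGL ℝ δ := by
  apply Units.ext
  ext i j
  change algebraMap ℚ ℝ (algebraMap ℤ ℚ (δ i j)) = algebraMap ℤ ℝ (δ i j)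
  simp

theorem det_glReal_inv_pos {γ : GL (Fin 2) ℚ} (h : 0 < (γ : Matrix (Fin 2) (Fin 2) ℚ).det) :
    0 < ((glReal γ)⁻¹ : GL (Fin 2) ℝ).det.val := by
  rw [← map_inv]
  have h1 : 0 < ((γ⁻¹ : GL (Fin 2) ℚ) : Matrix (Fin 2) (Fin 2) ℚ).det :=
    (inv_mem (show γ ∈ levelGroup ⊤ from ⟨h, Subgroup.mem_top _⟩)).1
  have h2 : (glReal γ⁻¹ : GL (Fin 2) ℝ).det.val =
      (((γ⁻¹ : GL (Fin 2) ℚ) : Matrix (Fin 2) (Fin 2) ℚ).det : ℝ) := by
    change (((γ⁻¹ : GL (Fin 2) ℚ) : Matrix (Fin 2) (Fin 2) ℚ).map (algebraMap ℚ ℝ)).det = _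
    rw [← RingHom.mapMatrix_apply, ← RingHom.map_det]
    rfl
  rw [h2]
  exact_mod_cast h1

theorem smul_slash_inv {γ : GL (Fin 2) ℚ} (h : 0 < (γ : Matrix (Fin 2) (Fin 2) ℚ).det) (k : ℤ)
    (f : ℍ → ℂ) (c : ℂ) : (c • f) ∣[k] (glReal γ)⁻¹ = c • (f ∣[k] (glReal γ)⁻¹) := by
  rw [ModularForm.smul_slash]
  congr 1
  rw [UpperHalfPlane.σ, if_pos (det_glReal_inv_pos h)]
  rfl

/-- The transformation law of the adelic modular forms of weight `k` and level `U`. -/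
structure IsAdelic (U : Subgroup (GL (Fin 2) 𝔸f)) (k : ℤ) (F : GL (Fin 2) 𝔸f → ℍ → ℂ) : Prop where
  left : ∀ γ : GL (Fin 2) ℚ, 0 < (γ : Matrix (Fin 2) (Fin 2) ℚ).det → ∀ g : GL (Fin 2) 𝔸f,
    F (glFin (Fin 2) γ * g) = F g ∣[k] (glReal γ)⁻¹
  right : ∀ g : GL (Fin 2) 𝔸f, ∀ κ ∈ U, F (g * κ) = F g

variable (U : Subgroup (GL (Fin 2) 𝔸f)) (k : ℤ)

/-- The functions with the transformation law form a subspace. -/
def adelicInvariant : Submodule ℂ (GL (Fin 2) 𝔸f → ℍ → ℂ) where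
  carrier := {F | IsAdelic U k F}
  zero_mem' := ⟨fun γ _ g => (SlashAction.zero_slash k (glReal γ)⁻¹).symm, fun _ _ _ => rfl⟩
  add_mem' hF hG := ⟨fun γ h g => by
    rw [Pi.add_apply, Pi.add_apply, hF.left γ h, hG.left γ h, SlashAction.add_slash],
    fun g κ hκ => by rw [Pi.add_apply, Pi.add_apply, hF.right g κ hκ, hG.right g κ hκ]⟩
  smul_mem' c _ hF := ⟨fun γ h g => by
    rw [Pi.smul_apply, Pi.smul_apply, hF.left γ h, smul_slash_inv h],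
    fun g κ hκ => by rw [Pi.smul_apply, Pi.smul_apply, hF.right g κ hκ]⟩

/-- The adelic modular forms of weight `k` and level `U`. -/
def adelicForms : Submodule ℂ (GL (Fin 2) 𝔸f → ℍ → ℂ) where
  carrier := {F | IsAdelic U k F ∧ ∀ g, MDiff (F g) ∧ IsBoundedAtImInfty (F g)}
  zero_mem' := ⟨(adelicInvariant U k).zero_mem, fun _ => ⟨mdifferentiable_const,
    zero_form_isBoundedAtImInfty⟩⟩
  add_mem' hF hG := ⟨(adelicInvariant U k).add_mem hF.1 hG.1, fun g =>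
    ⟨(hF.2 g).1.add (hG.2 g).1, (hF.2 g).2.add (hG.2 g).2⟩⟩
  smul_mem' c _ hF := ⟨(adelicInvariant U k).smul_mem c hF.1, fun g =>
    ⟨(hF.2 g).1.const_smul c, (hF.2 g).2.const_smul_left c⟩⟩

/-- The adelic cusp forms of weight `k` and level `U`. -/
def adelicCuspForms : Submodule ℂ (GL (Fin 2) 𝔸f → ℍ → ℂ) where
  carrier := {F | IsAdelic U k F ∧ ∀ g, MDiff (F g) ∧ IsZeroAtImInfty (F g)}
  zero_mem' := ⟨(adelicInvariant U k).zero_mem, fun _ => ⟨mdifferentiable_const,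
    tendsto_const_nhds⟩⟩
  add_mem' hF hG := ⟨(adelicInvariant U k).add_mem hF.1 hG.1, fun g =>
    ⟨(hF.2 g).1.add (hG.2 g).1, (hF.2 g).2.add (hG.2 g).2⟩⟩
  smul_mem' c _ hF := ⟨(adelicInvariant U k).smul_mem c hF.1, fun g =>
    ⟨(hF.2 g).1.const_smul c, (hF.2 g).2.smul c⟩⟩

variable {U k}

/-- The function `F 1` is invariant under `GL₂(ℚ)⁺ ∩ U`. -/
theorem IsAdelic.slash_one {F : GL (Fin 2) 𝔸f → ℍ → ℂ} (hF : IsAdelic U k F)
    {γ : GL (Fin 2) ℚ} (hγ : γ ∈ levelGroup U) : F 1 ∣[k] glReal γ = F 1 := by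
  have h1 := hF.left γ⁻¹ (inv_mem hγ).1 (glFin (Fin 2) γ)
  rw [← map_mul, inv_mul_cancel, map_one, map_inv, inv_inv] at h1
  have h2 := hF.right 1 _ hγ.2
  rw [one_mul] at h2
  rw [h2] at h1
  exact h1.symm

/-- `F` is determined by `F 1`. -/
theorem IsAdelic.apply_eq {F : GL (Fin 2) 𝔸f → ℍ → ℂ} (hF : IsAdelic U k F)
    {γ : GL (Fin 2) ℚ} (hγ : 0 < (γ : Matrix (Fin 2) (Fin 2) ℚ).det) {κ : GL (Fin 2) 𝔸f}
    (hκ : κ ∈ U) : F (glFin (Fin 2) γ * κ) = F 1 ∣[k] (glReal γ)⁻¹ := by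
  rw [hF.right _ κ hκ]
  have h := hF.left γ hγ 1
  rwa [mul_one] at h

/-- Every function on `ℍ` which is invariant under `GL₂(ℚ)⁺ ∩ U` is `F 1` for some `F`. -/
theorem exists_isAdelic (hU : IsOpen (U : Set (GL (Fin 2) 𝔸f)))
    (hdet : unitIdeles ℚ ≤ U.map GeneralLinearGroup.det) {f : ℍ → ℂ}
    (hf : ∀ γ ∈ levelGroup U, f ∣[k] glReal γ = f) :
    ∃ F : GL (Fin 2) 𝔸f → ℍ → ℂ, IsAdelic U k F ∧ F 1 = f := by
  choose γ hγ κ hκ hg using fun g => exists_pos_mul_mem (n := Fin 2) hU hdet g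
  -- independence of the choice
  have hind : ∀ (g : GL (Fin 2) 𝔸f) (δ : GL (Fin 2) ℚ), 0 < (δ : Matrix (Fin 2) (Fin 2) ℚ).det →
      ∀ μ ∈ U, g = glFin (Fin 2) δ * μ → f ∣[k] (glReal (γ g))⁻¹ = f ∣[k] (glReal δ)⁻¹ := by
    intro g δ hδ μ hμ h
    have h1 : δ⁻¹ * γ g ∈ levelGroup U := by
      refine ⟨?_, ?_⟩
      · rw [Units.val_mul, det_mul]
        exact mul_pos (inv_mem (show δ ∈ levelGroup ⊤ from ⟨hδ, Subgroup.mem_top _⟩)).1 (hγ g)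
      · have h2 : glFin (Fin 2) (δ⁻¹ * γ g) = μ * (κ g)⁻¹ := by
          rw [map_mul, map_inv, eq_mul_inv_iff_mul_eq, mul_assoc, ← hg g, inv_mul_eq_iff_eq_mul]
          exact h
        rw [h2]
        exact mul_mem hμ (inv_mem (hκ g))
    have h2 := hf _ (inv_mem h1)
    have h3 : (glReal δ)⁻¹ = glReal (δ⁻¹ * γ g) * (glReal (γ g))⁻¹ := by
      rw [map_mul, map_inv, mul_inv_cancel_right]
    rw [h3, SlashAction.slash_mul, hf _ h1]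
  refine ⟨fun g => f ∣[k] (glReal (γ g))⁻¹, ⟨fun δ hδ g => ?_, fun g μ hμ => ?_⟩, ?_⟩
  · rw [hind (glFin (Fin 2) δ * g) (δ * γ g) ?_ (κ g) (hκ g) ?_, map_mul, _root_.mul_inv_rev,
      SlashAction.slash_mul]
    · rw [Units.val_mul, det_mul]
      exact mul_pos hδ (hγ g)
    · rw [map_mul, mul_assoc, ← hg g]
  · exact hind (g * μ) (γ g) (hγ g) (κ g * μ) (mul_mem (hκ g) hμ) (by rw [← mul_assoc, ← hg g])
  · have h1 := hind 1 1 (by rw [Units.val_one, det_one]; exact one_pos) 1 (one_mem U)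
      (by rw [map_one, one_mul])
    rw [map_one, inv_one, SlashAction.slash_one] at h1
    exact h1

/-! ### Cusps -/

theorem IsAdelic.apply_inv {F : GL (Fin 2) 𝔸f → ℍ → ℂ} (hF : IsAdelic U k F)
    {γ : GL (Fin 2) ℚ} (hγ : 0 < (γ : Matrix (Fin 2) (Fin 2) ℚ).det) :
    F (glFin (Fin 2) γ)⁻¹ = F 1 ∣[k] glReal γ := by
  have h := hF.apply_eq (inv_mem (show γ ∈ levelGroup ⊤ from ⟨hγ, Subgroup.mem_top _⟩)).1
    (one_mem U)
  rwa [mul_one, map_inv, map_inv, inv_inv] at h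

/-- The images of `∞` under `GL₂(ℚ)` are cusps of `SL₂(ℤ)`. -/
theorem isCusp_glReal (γ : GL (Fin 2) ℚ) : IsCusp (glReal γ • (OnePoint.infty : OnePoint ℝ)) 𝒮ℒ := by
  rw [isCusp_SL2Z_iff]
  refine ⟨γ • OnePoint.infty, ?_⟩
  rw [← Rat.coe_castHom, OnePoint.map_smul, OnePoint.map_infty]
  congr 1

section Forms

variable {Γ : Subgroup SL(2, ℤ)}

/-- The condition at the cusps: `F 1` is bounded at all cusps of a subgroup of finite index of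
`SL₂(ℤ)` if and only if every `F g` is bounded at `i∞` (one direction). -/
theorem IsAdelic.isBoundedAt [Γ.FiniteIndex] {F : GL (Fin 2) 𝔸f → ℍ → ℂ} (hF : IsAdelic U k F)
    (h : ∀ g, IsBoundedAtImInfty (F g)) {c : OnePoint ℝ}
    (hc : IsCusp c (Γ : Subgroup (GL (Fin 2) ℝ))) : c.IsBoundedAt (F 1) k := by
  rw [Subgroup.IsArithmetic.isCusp_iff_isCusp_SL2Z, isCusp_SL2Z_iff'] at hc
  obtain ⟨g, rfl⟩ := hc
  rw [OnePoint.isBoundedAt_iff (g := Matrix.SpecialLinearGroup.mapGL ℝ g) rfl, ← glReal_mapGL,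
    ← hF.apply_inv]
  · exact h _
  · rw [show ((Matrix.SpecialLinearGroup.mapGL ℚ g : GL (Fin 2) ℚ) :
      Matrix (Fin 2) (Fin 2) ℚ).det = 1 from (Matrix.SpecialLinearGroup.map (algebraMap ℤ ℚ) g).2]
    exact one_pos

theorem IsAdelic.isZeroAt [Γ.FiniteIndex] {F : GL (Fin 2) 𝔸f → ℍ → ℂ} (hF : IsAdelic U k F)
    (h : ∀ g, IsZeroAtImInfty (F g)) {c : OnePoint ℝ}
    (hc : IsCusp c (Γ : Subgroup (GL (Fin 2) ℝ))) : c.IsZeroAt (F 1) k := by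
  rw [Subgroup.IsArithmetic.isCusp_iff_isCusp_SL2Z, isCusp_SL2Z_iff'] at hc
  obtain ⟨g, rfl⟩ := hc
  rw [OnePoint.isZeroAt_iff (g := Matrix.SpecialLinearGroup.mapGL ℝ g) rfl, ← glReal_mapGL,
    ← hF.apply_inv]
  · exact h _
  · rw [show ((Matrix.SpecialLinearGroup.mapGL ℚ g : GL (Fin 2) ℚ) :
      Matrix (Fin 2) (Fin 2) ℚ).det = 1 from (Matrix.SpecialLinearGroup.map (algebraMap ℤ ℚ) g).2]
    exact one_pos

theorem IsAdelic.slash_mem (hΓ : ∀ γ : GL (Fin 2) ℚ, γ ∈ levelGroup U ↔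
    ∃ δ ∈ Γ, Matrix.SpecialLinearGroup.mapGL ℚ δ = γ) {F : GL (Fin 2) 𝔸f → ℍ → ℂ}
    (hF : IsAdelic U k F) (γ : GL (Fin 2) ℝ) (hγ : γ ∈ (Γ : Subgroup (GL (Fin 2) ℝ))) :
    F 1 ∣[k] γ = F 1 := by
  obtain ⟨δ, hδ, rfl⟩ := hγ
  rw [← glReal_mapGL]
  exact hF.slash_one ((hΓ _).mpr ⟨δ, hδ, rfl⟩)

/-- `F ↦ F 1`, from the adelic modular forms of level `U` to the modular forms for
`Γ = GL₂(ℚ)⁺ ∩ U`. -/
def evalForm [Γ.FiniteIndex] (hΓ : ∀ γ : GL (Fin 2) ℚ, γ ∈ levelGroup U ↔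
    ∃ δ ∈ Γ, Matrix.SpecialLinearGroup.mapGL ℚ δ = γ) :
    adelicForms U k →ₗ[ℂ] ModularForm (Γ : Subgroup (GL (Fin 2) ℝ)) k where
  toFun F :=
    { toFun := F.1 1
      slash_action_eq' := F.2.1.slash_mem hΓ
      holo' := (F.2.2 1).1
      bdd_at_cusps' := fun {_} hc => F.2.1.isBoundedAt (fun g => (F.2.2 g).2) hc }
  map_add' _ _ := rfl
  map_smul' _ _ := rfl

/-- `F ↦ F 1`, from the adelic cusp forms of level `U` to the cusp forms for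
`Γ = GL₂(ℚ)⁺ ∩ U`. -/
def evalCuspForm [Γ.FiniteIndex] (hΓ : ∀ γ : GL (Fin 2) ℚ, γ ∈ levelGroup U ↔
    ∃ δ ∈ Γ, Matrix.SpecialLinearGroup.mapGL ℚ δ = γ) :
    adelicCuspForms U k →ₗ[ℂ] CuspForm (Γ : Subgroup (GL (Fin 2) ℝ)) k where
  toFun F :=
    { toFun := F.1 1
      slash_action_eq' := F.2.1.slash_mem hΓ
      holo' := (F.2.2 1).1
      zero_at_cusps' := fun {_} hc => F.2.1.isZeroAt (fun g => (F.2.2 g).2) hc }
  map_add' _ _ := rfl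
  map_smul' _ _ := rfl

/-- `F` is determined by `F 1`. -/
theorem IsAdelic.ext (hU : IsOpen (U : Set (GL (Fin 2) 𝔸f)))
    (hdet : unitIdeles ℚ ≤ U.map GeneralLinearGroup.det) {F G : GL (Fin 2) 𝔸f → ℍ → ℂ}
    (hF : IsAdelic U k F) (hG : IsAdelic U k G) (h : F 1 = G 1) : F = G := by
  funext g
  obtain ⟨γ, hγ, κ, hκ, rfl⟩ := exists_pos_mul_mem (n := Fin 2) hU hdet g
  rw [hF.apply_eq hγ hκ, hG.apply_eq hγ hκ, h]

theorem bijective_evalForm (hU : IsOpen (U : Set (GL (Fin 2) 𝔸f)))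
    (hdet : unitIdeles ℚ ≤ U.map GeneralLinearGroup.det) [Γ.FiniteIndex]
    (hΓ : ∀ γ : GL (Fin 2) ℚ, γ ∈ levelGroup U ↔
      ∃ δ ∈ Γ, Matrix.SpecialLinearGroup.mapGL ℚ δ = γ) :
    Function.Bijective (evalForm (k := k) hΓ) := by
  constructor
  · intro F G h
    exact Subtype.ext (F.2.1.ext hU hdet G.2.1 (congrArg (fun f : ModularForm
      (Γ : Subgroup (GL (Fin 2) ℝ)) k => (f : ℍ → ℂ)) h))
  · intro f
    obtain ⟨F, hF, h1⟩ := exists_isAdelic (k := k) hU hdet (f := f) fun γ hγ => by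
      obtain ⟨δ, hδ, rfl⟩ := (hΓ γ).mp hγ
      rw [glReal_mapGL]
      exact f.slash_action_eq' _ ⟨δ, hδ, rfl⟩
    refine ⟨⟨F, hF, fun g => ?_⟩, DFunLike.ext' h1⟩
    obtain ⟨γ, hγ, κ, hκ, rfl⟩ := exists_pos_mul_mem (n := Fin 2) hU hdet g
    rw [hF.apply_eq hγ hκ, h1]
    refine ⟨f.holo'.slash k _, f.bdd_at_cusps' (c := (glReal γ)⁻¹ • OnePoint.infty) ?_ _ rfl⟩
    rw [Subgroup.IsArithmetic.isCusp_iff_isCusp_SL2Z, ← map_inv]
    exact isCusp_glReal _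

theorem bijective_evalCuspForm (hU : IsOpen (U : Set (GL (Fin 2) 𝔸f)))
    (hdet : unitIdeles ℚ ≤ U.map GeneralLinearGroup.det) [Γ.FiniteIndex]
    (hΓ : ∀ γ : GL (Fin 2) ℚ, γ ∈ levelGroup U ↔
      ∃ δ ∈ Γ, Matrix.SpecialLinearGroup.mapGL ℚ δ = γ) :
    Function.Bijective (evalCuspForm (k := k) hΓ) := by
  constructor
  · intro F G h
    exact Subtype.ext (F.2.1.ext hU hdet G.2.1 (congrArg (fun f : CuspForm
      (Γ : Subgroup (GL (Fin 2) ℝ)) k => (f : ℍ → ℂ)) h))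
  · intro f
    obtain ⟨F, hF, h1⟩ := exists_isAdelic (k := k) hU hdet (f := f) fun γ hγ => by
      obtain ⟨δ, hδ, rfl⟩ := (hΓ γ).mp hγ
      rw [glReal_mapGL]
      exact f.slash_action_eq' _ ⟨δ, hδ, rfl⟩
    refine ⟨⟨F, hF, fun g => ?_⟩, DFunLike.ext' h1⟩
    obtain ⟨γ, hγ, κ, hκ, rfl⟩ := exists_pos_mul_mem (n := Fin 2) hU hdet g
    rw [hF.apply_eq hγ hκ, h1]
    refine ⟨f.holo'.slash k _, f.zero_at_cusps' (c := (glReal γ)⁻¹ • OnePoint.infty) ?_ _ rfl⟩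
    rw [Subgroup.IsArithmetic.isCusp_iff_isCusp_SL2Z, ← map_inv]
    exact isCusp_glReal _

/-- **Adelic modular forms.** If `U` is an open subgroup of `GL₂(𝔸_f)` with `det U ⊇ Ẑˣ` and
`Γ = GL₂(ℚ)⁺ ∩ U` is a subgroup of finite index of `SL₂(ℤ)`, then `F ↦ F 1` is an isomorphism of
the adelic modular forms of weight `k` and level `U` with the modular forms of weight `k` for
`Γ`. -/
def adelicFormEquiv (hU : IsOpen (U : Set (GL (Fin 2) 𝔸f)))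
    (hdet : unitIdeles ℚ ≤ U.map GeneralLinearGroup.det) [Γ.FiniteIndex]
    (hΓ : ∀ γ : GL (Fin 2) ℚ, γ ∈ levelGroup U ↔
      ∃ δ ∈ Γ, Matrix.SpecialLinearGroup.mapGL ℚ δ = γ) :
    adelicForms U k ≃ₗ[ℂ] ModularForm (Γ : Subgroup (GL (Fin 2) ℝ)) k :=
  LinearEquiv.ofBijective (evalForm hΓ) (bijective_evalForm hU hdet hΓ)

/-- The same for cusp forms. -/
def adelicCuspFormEquiv (hU : IsOpen (U : Set (GL (Fin 2) 𝔸f)))
    (hdet : unitIdeles ℚ ≤ U.map GeneralLinearGroup.det) [Γ.FiniteIndex]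
    (hΓ : ∀ γ : GL (Fin 2) ℚ, γ ∈ levelGroup U ↔
      ∃ δ ∈ Γ, Matrix.SpecialLinearGroup.mapGL ℚ δ = γ) :
    adelicCuspForms U k ≃ₗ[ℂ] CuspForm (Γ : Subgroup (GL (Fin 2) ℝ)) k :=
  LinearEquiv.ofBijective (evalCuspForm hΓ) (bijective_evalCuspForm hU hdet hΓ)

end Forms

/-! ### `Γ₀(N)` -/

instance finiteIndex_Gamma0 (N : ℕ) [NeZero N] : (CongruenceSubgroup.Gamma0 N).FiniteIndex :=
  (CongruenceSubgroup.Gamma0_is_congruence N).finiteIndex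

/-- **Modular forms for `Γ₀(N)` are functions on `GL₂(𝔸_f)`.** -/
def gamma0FormEquiv (N : ℕ) [NeZero N] (k : ℤ) : adelicForms (K0 N) k ≃ₗ[ℂ]
    ModularForm (CongruenceSubgroup.Gamma0 N : Subgroup (GL (Fin 2) ℝ)) k :=
  adelicFormEquiv (isOpen_K0 N) (le_map_det_K0 N) fun _ => mem_levelGroup_K0 N

theorem gamma0FormEquiv_apply (N : ℕ) [NeZero N] (k : ℤ) (F : adelicForms (K0 N) k) (z : ℍ) :
    gamma0FormEquiv N k F z = F.1 1 z := rfl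

/-- **Cusp forms for `Γ₀(N)` are functions on `GL₂(𝔸_f)`.** -/
def gamma0CuspFormEquiv (N : ℕ) [NeZero N] (k : ℤ) : adelicCuspForms (K0 N) k ≃ₗ[ℂ]
    CuspForm (CongruenceSubgroup.Gamma0 N : Subgroup (GL (Fin 2) ℝ)) k :=
  adelicCuspFormEquiv (isOpen_K0 N) (le_map_det_K0 N) fun _ => mem_levelGroup_K0 N

theorem gamma0CuspFormEquiv_apply (N : ℕ) [NeZero N] (k : ℤ) (F : adelicCuspForms (K0 N) k)
    (z : ℍ) : gamma0CuspFormEquiv N k F z = F.1 1 z := rfl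

/-! ### `Γ₁(N)` -/

/-- `K₁(N)` : the matrices in `GL₂(Ẑ)` with lower row `≡ (0, 1)` modulo `N`. -/
def K1 (N : ℕ) : Subgroup (GL (Fin 2) 𝔸f) where
  carrier := {g | g ∈ K0 N ∧
    ∃ y ∈ finInt ℚ, (g : Matrix (Fin 2) (Fin 2) 𝔸f) 1 1 = 1 + (N : 𝔸f) * y}
  one_mem' := by
    refine ⟨one_mem _, 0, (intAdeles ℚ).zero_mem, ?_⟩
    rw [mul_zero, add_zero, Units.val_one]
    exact Matrix.one_apply_eq _
  mul_mem' {a b} ha hb := by
    obtain ⟨ha, z, hz, haz⟩ := ha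
    obtain ⟨hb, w, hw, hbw⟩ := hb
    obtain ⟨ha1, y, hy, hay⟩ := ha
    refine ⟨mul_mem ⟨ha1, y, hy, hay⟩ hb, y * (b : Matrix (Fin 2) (Fin 2) 𝔸f) 0 1 + z * (b :
      Matrix (Fin 2) (Fin 2) 𝔸f) 1 1 + w, (intAdeles ℚ).add_mem ((intAdeles ℚ).add_mem
        ((intAdeles ℚ).mul_mem hy ((mem_glInt_iff.mp hb.1).1 0 1))
        ((intAdeles ℚ).mul_mem hz ((mem_glInt_iff.mp hb.1).1 1 1))) hw, ?_⟩
    rw [Units.val_mul, Matrix.mul_apply, Fin.sum_univ_two, hay, haz]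
    linear_combination hbw
  inv_mem' {a} ha := by
    obtain ⟨ha, z, hz, haz⟩ := ha
    have hinv : a⁻¹ ∈ K0 N := inv_mem ha
    obtain ⟨ha1, y, hy, hay⟩ := ha
    set A : Matrix (Fin 2) (Fin 2) 𝔸f := (a : Matrix (Fin 2) (Fin 2) 𝔸f) with hA
    set B : Matrix (Fin 2) (Fin 2) 𝔸f := ((a⁻¹ : GL (Fin 2) 𝔸f) : Matrix (Fin 2) (Fin 2) 𝔸f)
      with hB
    refine ⟨hinv, -(y * B 0 1) - z * B 1 1, (intAdeles ℚ).sub_mem ((intAdeles ℚ).neg_mem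
      ((intAdeles ℚ).mul_mem hy ((mem_glInt_iff.mp hinv.1).1 0 1)))
      ((intAdeles ℚ).mul_mem hz ((mem_glInt_iff.mp hinv.1).1 1 1)), ?_⟩
    have hAB : A * B = 1 := Units.mul_inv a
    have h11 := congrFun (congrFun hAB 1) 1
    rw [Matrix.mul_apply, Fin.sum_univ_two, Matrix.one_apply_eq] at h11
    linear_combination h11 - B 0 1 * hay - B 1 1 * haz

theorem isOpen_K1 (N : ℕ) [NeZero N] : IsOpen (K1 N : Set (GL (Fin 2) 𝔸f)) := by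
  have hN : (N : ℚ) ≠ 0 := by exact_mod_cast NeZero.ne N
  have hN1 : algebraMap ℚ 𝔸f (N : ℚ)⁻¹ * (N : 𝔸f) = 1 := by
    rw [← map_natCast (algebraMap ℚ 𝔸f) N, ← map_mul, inv_mul_cancel₀ hN, map_one]
  have h : (K1 N : Set (GL (Fin 2) 𝔸f)) = (K0 N : Set (GL (Fin 2) 𝔸f)) ∩
      {g | algebraMap ℚ 𝔸f (N : ℚ)⁻¹ * ((g : Matrix (Fin 2) (Fin 2) 𝔸f) 1 1 - 1) ∈
        finInt ℚ} := by
    ext g
    constructor
    · rintro ⟨h1, y, hy, h2⟩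
      refine ⟨h1, ?_⟩
      change algebraMap ℚ 𝔸f (N : ℚ)⁻¹ * ((g : Matrix (Fin 2) (Fin 2) 𝔸f) 1 1 - 1) ∈ finInt ℚ
      rw [h2, add_sub_cancel_left, ← mul_assoc, hN1, one_mul]
      exact hy
    · rintro ⟨h1, h2⟩
      refine ⟨h1, _, h2, ?_⟩
      rw [← mul_assoc, mul_comm (N : 𝔸f), hN1, one_mul, add_sub_cancel]
  rw [h]
  refine (isOpen_K0 N).inter ((isOpen_finInt ℚ).preimage ?_)
  exact continuous_const.mul ((Units.continuous_val.matrix_elem 1 1).sub continuous_const)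

theorem le_map_det_K1 (N : ℕ) : unitIdeles ℚ ≤ (K1 N).map GeneralLinearGroup.det := by
  intro u hu
  refine ⟨diagAt 0 u, ⟨⟨diagAt_mem_glInt 0 hu, 0, (intAdeles ℚ).zero_mem, ?_⟩, 0,
    (intAdeles ℚ).zero_mem, ?_⟩, det_diagAt 0 u⟩
  · rw [mul_zero]
    exact Matrix.diagonal_apply_ne _ (by decide)
  · rw [mul_zero, add_zero]
    exact (Matrix.diagonal_apply_eq _ 1).trans (by simp)

/-- `GL₂(ℚ)⁺ ∩ K₁(N) = Γ₁(N)`. -/
theorem mem_levelGroup_K1 (N : ℕ) [NeZero N] {γ : GL (Fin 2) ℚ} : γ ∈ levelGroup (K1 N) ↔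
    ∃ δ ∈ CongruenceSubgroup.Gamma1 N, Matrix.SpecialLinearGroup.mapGL ℚ δ = γ := by
  have hN : (N : ℚ) ≠ 0 := by exact_mod_cast NeZero.ne N
  constructor
  · rintro ⟨hpos, h0, y, hy, h11⟩
    obtain ⟨δ, hδ, rfl⟩ := (mem_levelGroup_K0 N).mp ⟨hpos, h0⟩
    refine ⟨δ, ?_, rfl⟩
    have hent : (glFin (Fin 2) (Matrix.SpecialLinearGroup.mapGL ℚ δ) :
        Matrix (Fin 2) (Fin 2) 𝔸f) 1 1 = algebraMap ℚ 𝔸f ((δ 1 1 : ℤ) : ℚ) := rfl
    obtain ⟨m, hm⟩ : ∃ m : ℤ, (m : ℚ) = (N : ℚ)⁻¹ * (((δ 1 1 : ℤ) : ℚ) - 1) := by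
      refine exists_int_of_mem_finInt ?_
      rw [map_mul, map_sub, map_one, ← hent, h11, add_sub_cancel_left, ← mul_assoc,
        ← map_natCast (algebraMap ℚ 𝔸f) N, ← map_mul, inv_mul_cancel₀ hN, map_one, one_mul]
      exact hy
    have h1 : δ 1 1 - 1 = N * m := by
      have h2 : (((δ 1 1 - 1 : ℤ)) : ℚ) = ((N * m : ℤ) : ℚ) := by
        push_cast
        rw [hm, mul_inv_cancel_left₀ hN]
      exact_mod_cast h2
    have h3 : ((δ 1 1 : ℤ) : ZMod N) = 1 := by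
      have h4 : δ 1 1 = 1 + N * m := by linear_combination h1
      rw [h4]
      push_cast
      rw [ZMod.natCast_self, zero_mul, add_zero]
    have h5 : ((δ 1 0 : ℤ) : ZMod N) = 0 := hδ
    rw [CongruenceSubgroup.Gamma1_mem]
    refine ⟨?_, h3, h5⟩
    have h6 : δ 0 0 * δ 1 1 - δ 0 1 * δ 1 0 = 1 := by
      rw [← Matrix.det_fin_two]
      exact δ.2
    have h7 := congrArg (fun x : ℤ => (x : ZMod N)) h6
    push_cast at h7
    rw [h3, h5, mul_one, mul_zero, sub_zero] at h7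
    exact h7
  · rintro ⟨δ, hδ, rfl⟩
    rw [CongruenceSubgroup.Gamma1_mem] at hδ
    obtain ⟨hpos, h0⟩ := (mem_levelGroup_K0 N).mpr ⟨δ, hδ.2.2, rfl⟩
    refine ⟨hpos, h0, ?_⟩
    have h1 : ((δ 1 1 - 1 : ℤ) : ZMod N) = 0 := by
      push_cast
      rw [hδ.2.1, sub_self]
    rw [ZMod.intCast_zmod_eq_zero_iff_dvd] at h1
    obtain ⟨m, hm⟩ := h1
    refine ⟨(m : 𝔸f), intCast_mem (intAdeles ℚ) m, ?_⟩
    have h2 : (glFin (Fin 2) (Matrix.SpecialLinearGroup.mapGL ℚ δ) :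
        Matrix (Fin 2) (Fin 2) 𝔸f) 1 1 = ((δ 1 1 : ℤ) : 𝔸f) :=
      map_intCast (algebraMap ℚ 𝔸f) (δ 1 1)
    have h3 : δ 1 1 = 1 + N * m := by linear_combination hm
    rw [h2, h3]
    push_cast
    rfl

instance finiteIndex_Gamma1 (N : ℕ) [NeZero N] : (CongruenceSubgroup.Gamma1 N).FiniteIndex :=
  (CongruenceSubgroup.Gamma1_is_congruence N).finiteIndex

/-- **Modular forms for `Γ₁(N)` are functions on `GL₂(𝔸_f)`.** -/
def gamma1FormEquiv (N : ℕ) [NeZero N] (k : ℤ) : adelicForms (K1 N) k ≃ₗ[ℂ]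
    ModularForm (CongruenceSubgroup.Gamma1 N : Subgroup (GL (Fin 2) ℝ)) k :=
  adelicFormEquiv (isOpen_K1 N) (le_map_det_K1 N) fun _ => mem_levelGroup_K1 N

theorem gamma1FormEquiv_apply (N : ℕ) [NeZero N] (k : ℤ) (F : adelicForms (K1 N) k) (z : ℍ) :
    gamma1FormEquiv N k F z = F.1 1 z := rfl

/-- **Cusp forms for `Γ₁(N)` are functions on `GL₂(𝔸_f)`.** -/
def gamma1CuspFormEquiv (N : ℕ) [NeZero N] (k : ℤ) : adelicCuspForms (K1 N) k ≃ₗ[ℂ]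
    CuspForm (CongruenceSubgroup.Gamma1 N : Subgroup (GL (Fin 2) ℝ)) k :=
  adelicCuspFormEquiv (isOpen_K1 N) (le_map_det_K1 N) fun _ => mem_levelGroup_K1 N

theorem gamma1CuspFormEquiv_apply (N : ℕ) [NeZero N] (k : ℤ) (F : adelicCuspForms (K1 N) k)
    (z : ℍ) : gamma1CuspFormEquiv N k F z = F.1 1 z := rfl

end Fermat.Agent.Cor.Adele
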