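import Fermat.Agent.Corollaries.Adele.AutForm

/-!
# Automorphic functions on `GL₂(ℝ)⁺ × GL₂(𝔸_f)`

`automorphicEquiv` : for a subgroup `U` of `GL₂(𝔸_f)` and an integer `k`, the functions
`F : GL₂(𝔸_f) → (ℍ → ℂ)` with `F (γ g κ) = F g ∣[k] γ⁻¹` (`γ ∈ GL₂(ℚ)⁺`, `κ ∈ U`) correspond to
the functions `φ : GL₂(ℝ)⁺ × GL₂(𝔸_f) → ℂ` with

* `φ (γ x, γ g) = φ (x, g)` for `γ ∈ GL₂(ℚ)⁺`,
* `φ (x, g κ) = φ (x, g)` for `κ ∈ U`,
* `φ (x r, g) = det(r)^(k - 1) (c i + d)^(-k) φ (x, g)` for `r = (a b; c d) ∈ GL₂(ℝ)⁺` with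
  `r • i = i`,

by `φ (x, g) = (F g ∣[k] x) (i)`.
-/

set_option autoImplicit false

open NumberField IsDedekindDomain HeightOneSpectrum WithZero Filter Topology RestrictedProduct
open Matrix UpperHalfPlane
open scoped WithZero MatrixGroups ModularForm Manifold

noncomputable section

namespace Fermat.Agent.Cor.Adele

/-- The ring of finite adeles of `ℚ`. -/
local notation "𝔸f" => FiniteAdeleRing (𝓞 ℚ) ℚ

/-- `det(x)^(k - 1) (c i + d)^(-k)` for `x = (a b; c d)`. -/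
def fac (k : ℤ) (x : GL (Fin 2) ℝ) : ℂ :=
  ((x.det.val : ℝ) : ℂ) ^ (k - 1) * denom x UpperHalfPlane.I ^ (-k)

theorem fac_ne_zero (k : ℤ) (x : GL (Fin 2) ℝ) : fac k x ≠ 0 := by
  refine mul_ne_zero (zpow_ne_zero _ ?_) (zpow_ne_zero _ (denom_ne_zero _ _))
  exact_mod_cast x.det.ne_zero

theorem slash_I {k : ℤ} {x : GL (Fin 2) ℝ} (hx : 0 < x.det.val) (f : ℍ → ℂ) :
    (f ∣[k] x) UpperHalfPlane.I = f (x • UpperHalfPlane.I) * fac k x := by
  rw [ModularForm.slash_apply, σ, if_pos hx, abs_of_pos hx, fac, mul_assoc]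
  rfl

theorem fac_mul {k : ℤ} {x r : GL (Fin 2) ℝ} (hx : 0 < x.det.val) (hr : 0 < r.det.val)
    (h : r • UpperHalfPlane.I = UpperHalfPlane.I) : fac k (x * r) = fac k x * fac k r := by
  have hxr : 0 < (x * r).det.val := by
    rw [map_mul, Units.val_mul]
    exact mul_pos hx hr
  have h1 := slash_I (k := k) hxr fun _ => 1
  rw [SlashAction.slash_mul, slash_I hr, h, slash_I hx, one_mul, one_mul] at h1
  exact h1.symm

/-- The matrix `(y x; 0 1)` for `z = x + i y`. -/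
def toI (z : ℍ) : GL (Fin 2) ℝ :=
  GeneralLinearGroup.mkOfDetNeZero !![z.im, z.re; 0, 1] (by
    rw [Matrix.det_fin_two_of, mul_one, mul_zero, sub_zero]
    exact z.im_ne_zero)

theorem det_toI_pos (z : ℍ) : 0 < (toI z).det.val := by
  change 0 < (!![z.im, z.re; 0, 1] : Matrix (Fin 2) (Fin 2) ℝ).det
  rw [Matrix.det_fin_two_of, mul_one, mul_zero, sub_zero]
  exact z.im_pos

theorem toI_smul (z : ℍ) : toI z • UpperHalfPlane.I = z := by
  apply UpperHalfPlane.ext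
  rw [UpperHalfPlane.coe_smul_of_det_pos (det_toI_pos z)]
  simp only [num, denom, toI, GeneralLinearGroup.mkOfDetNeZero]
  apply Complex.ext <;> simp

/-- `φ` on `GL₂(ℝ)⁺ × GL₂(𝔸_f)` is automorphic of weight `k` and level `U`. -/
structure IsAutomorphic (U : Subgroup (GL (Fin 2) 𝔸f)) (k : ℤ)
    (φ : GL(2, ℝ)⁺ → GL (Fin 2) 𝔸f → ℂ) : Prop where
  left : ∀ (γ : GL (Fin 2) ℚ) (y : GL(2, ℝ)⁺), (y : GL (Fin 2) ℝ) = glReal γ →
    ∀ (x : GL(2, ℝ)⁺) (g : GL (Fin 2) 𝔸f), φ (y * x) (glFin (Fin 2) γ * g) = φ x g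
  right : ∀ (x : GL(2, ℝ)⁺) (g : GL (Fin 2) 𝔸f), ∀ κ ∈ U, φ x (g * κ) = φ x g
  weight : ∀ (x r : GL(2, ℝ)⁺) (g : GL (Fin 2) 𝔸f),
    (r : GL (Fin 2) ℝ) • UpperHalfPlane.I = UpperHalfPlane.I →
      φ (x * r) g = fac k r * φ x g

variable (U : Subgroup (GL (Fin 2) 𝔸f)) (k : ℤ)

/-- The automorphic functions of weight `k` and level `U`. -/
def automorphicSpace : Submodule ℂ (GL(2, ℝ)⁺ → GL (Fin 2) 𝔸f → ℂ) where
  carrier := {φ | IsAutomorphic U k φ}
  zero_mem' := ⟨fun _ _ _ _ _ => rfl, fun _ _ _ _ => rfl, fun _ _ _ _ => (mul_zero _).symm⟩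
  add_mem' hφ hψ := ⟨fun γ y hy x g => congrArg₂ (· + ·) (hφ.left γ y hy x g) (hψ.left γ y hy x g),
    fun x g κ hκ => congrArg₂ (· + ·) (hφ.right x g κ hκ) (hψ.right x g κ hκ),
    fun x r g h => (congrArg₂ (· + ·) (hφ.weight x r g h) (hψ.weight x r g h)).trans
      (mul_add _ _ _).symm⟩
  smul_mem' c _ hφ := ⟨fun γ y hy x g => congrArg (c * ·) (hφ.left γ y hy x g),
    fun x g κ hκ => congrArg (c * ·) (hφ.right x g κ hκ),
    fun x r g h => (congrArg (c * ·) (hφ.weight x r g h)).trans (mul_left_comm _ _ _)⟩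

variable {U k}

theorem IsAdelic.isAutomorphic {F : GL (Fin 2) 𝔸f → ℍ → ℂ} (hF : IsAdelic U k F) :
    IsAutomorphic U k fun x g => (F g ∣[k] (x : GL (Fin 2) ℝ)) UpperHalfPlane.I := by
  refine ⟨fun γ y hy x g => ?_, fun x g κ hκ => by rw [hF.right g κ hκ], fun x r g h => ?_⟩
  · have hγ : 0 < (γ : Matrix (Fin 2) (Fin 2) ℚ).det := by
      have h1 : (0 : ℝ) < (y : GL (Fin 2) ℝ).det.val := y.2
      have h2 : (glReal γ : GL (Fin 2) ℝ).det.val = ((γ : Matrix (Fin 2) (Fin 2) ℚ).det : ℝ) := by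
        change ((γ : Matrix (Fin 2) (Fin 2) ℚ).map (algebraMap ℚ ℝ)).det = _
        rw [← RingHom.mapMatrix_apply, ← RingHom.map_det]
        rfl
      rw [hy, h2] at h1
      exact_mod_cast h1
    change (F (glFin (Fin 2) γ * g) ∣[k] ((y * x : GL(2, ℝ)⁺) : GL (Fin 2) ℝ)) UpperHalfPlane.I = _
    rw [hF.left γ hγ, Subgroup.coe_mul, hy, ← SlashAction.slash_mul, inv_mul_cancel_left]
  · rw [Subgroup.coe_mul, SlashAction.slash_mul, slash_I r.2, h, mul_comm]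

/-- A function on `ℍ` is determined by the values of its translates at `i`. -/
theorem eq_of_slash_I {f f' : ℍ → ℂ} (h : ∀ x : GL(2, ℝ)⁺,
    (f ∣[k] (x : GL (Fin 2) ℝ)) UpperHalfPlane.I = (f' ∣[k] (x : GL (Fin 2) ℝ)) UpperHalfPlane.I) :
    f = f' := by
  funext z
  have h1 := h ⟨toI z, det_toI_pos z⟩
  change (f ∣[k] toI z) UpperHalfPlane.I = (f' ∣[k] toI z) UpperHalfPlane.I at h1
  rw [slash_I (det_toI_pos z), slash_I (det_toI_pos z), toI_smul] at h1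
  exact mul_right_cancel₀ (fac_ne_zero k _) h1

theorem IsAutomorphic.exists_isAdelic {φ : GL(2, ℝ)⁺ → GL (Fin 2) 𝔸f → ℂ}
    (hφ : IsAutomorphic U k φ) : ∃ F : GL (Fin 2) 𝔸f → ℍ → ℂ, IsAdelic U k F ∧
      ∀ (x : GL(2, ℝ)⁺) g, (F g ∣[k] (x : GL (Fin 2) ℝ)) UpperHalfPlane.I = φ x g := by
  set F : GL (Fin 2) 𝔸f → ℍ → ℂ := fun g z => φ ⟨toI z, det_toI_pos z⟩ g * (fac k (toI z))⁻¹
    with hFdef
  have key : ∀ (x : GL(2, ℝ)⁺) g,
      (F g ∣[k] (x : GL (Fin 2) ℝ)) UpperHalfPlane.I = φ x g := by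
    intro x g
    rw [slash_I x.2]
    set z : ℍ := (x : GL (Fin 2) ℝ) • UpperHalfPlane.I with hz
    set s : GL(2, ℝ)⁺ := ⟨toI z, det_toI_pos z⟩ with hs
    set r : GL(2, ℝ)⁺ := x⁻¹ * s with hr
    have hs1 : s = x * r := by rw [hr, mul_inv_cancel_left]
    have hrI : (r : GL (Fin 2) ℝ) • UpperHalfPlane.I = UpperHalfPlane.I := by
      rw [hr, Subgroup.coe_mul, mul_smul]
      change ((x⁻¹ : GL(2, ℝ)⁺) : GL (Fin 2) ℝ) • (toI z • UpperHalfPlane.I) = _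
      rw [toI_smul, Subgroup.coe_inv, hz, inv_smul_smul]
    have h1 : φ s g = fac k r * φ x g := by rw [hs1, hφ.weight x r g hrI]
    have h2 : fac k (toI z) = fac k x * fac k r := by
      have h3 : toI z = (x : GL (Fin 2) ℝ) * (r : GL (Fin 2) ℝ) := by
        have h4 := congrArg (fun t : GL(2, ℝ)⁺ => (t : GL (Fin 2) ℝ)) hs1
        exact h4
      rw [h3, fac_mul x.2 r.2 hrI]
    change φ s g * (fac k (toI z))⁻¹ * fac k x = φ x g
    rw [h1, h2]
    have h5 := fac_ne_zero k (x : GL (Fin 2) ℝ)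
    have h6 := fac_ne_zero k (r : GL (Fin 2) ℝ)
    field_simp
  refine ⟨F, ⟨fun γ hγ g => eq_of_slash_I (k := k) fun x => ?_, fun g κ hκ => ?_⟩, key⟩
  · -- the matrix `γ` as an element of `GL₂(ℝ)⁺`
    have hγ' : 0 < ((glReal γ)⁻¹ : GL (Fin 2) ℝ).det.val := det_glReal_inv_pos hγ
    set y : GL(2, ℝ)⁺ := (⟨(glReal γ)⁻¹, hγ'⟩ : GL(2, ℝ)⁺)⁻¹ with hy
    have hy1 : (y : GL (Fin 2) ℝ) = glReal γ := by
      rw [hy, Subgroup.coe_inv]
      exact inv_inv _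
    rw [key, ← SlashAction.slash_mul]
    have h1 : (glReal γ)⁻¹ * (x : GL (Fin 2) ℝ) = ((y⁻¹ * x : GL(2, ℝ)⁺) : GL (Fin 2) ℝ) := by
      rw [Subgroup.coe_mul, Subgroup.coe_inv, hy1]
    rw [h1, key]
    have h2 := hφ.left γ y hy1 (y⁻¹ * x) g
    rwa [mul_inv_cancel_left] at h2
  · funext z
    change φ _ (g * κ) * _ = φ _ g * _
    rw [hφ.right _ g κ hκ]

/-- `φ (x, g) = (F g ∣[k] x) (i)`. -/
def toAutomorphic : adelicInvariant U k →ₗ[ℂ] automorphicSpace U k where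
  toFun F := ⟨fun x g => (F.1 g ∣[k] (x : GL (Fin 2) ℝ)) UpperHalfPlane.I,
    IsAdelic.isAutomorphic F.2⟩
  map_add' F G := by
    apply Subtype.ext
    funext x g
    change ((F.1 g + G.1 g) ∣[k] (x : GL (Fin 2) ℝ)) UpperHalfPlane.I = _
    rw [SlashAction.add_slash]
    rfl
  map_smul' c F := by
    apply Subtype.ext
    funext x g
    change ((c • F.1 g) ∣[k] (x : GL (Fin 2) ℝ)) UpperHalfPlane.I = _
    rw [slash_I x.2]
    change c * F.1 g _ * _ = c * (F.1 g ∣[k] (x : GL (Fin 2) ℝ)) UpperHalfPlane.I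
    rw [slash_I x.2, mul_assoc]

/-- **The functions `F : GL₂(𝔸_f) → (ℍ → ℂ)` with the transformation law of weight `k` and level
`U` are the automorphic functions on `GL₂(ℝ)⁺ × GL₂(𝔸_f)` of weight `k` and level `U`.** -/
def automorphicEquiv : adelicInvariant U k ≃ₗ[ℂ] automorphicSpace U k :=
  LinearEquiv.ofBijective toAutomorphic (by
    constructor
    · intro F G h
      apply Subtype.ext
      funext g
      refine eq_of_slash_I (k := k) fun x => ?_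
      exact congrFun (congrFun (congrArg Subtype.val h) x) g
    · intro φ
      obtain ⟨F, hF, h⟩ := IsAutomorphic.exists_isAdelic φ.2
      exact ⟨⟨F, hF⟩, Subtype.ext (funext fun x => funext fun g => h x g)⟩)

theorem automorphicEquiv_apply (F : adelicInvariant U k) (x : GL(2, ℝ)⁺) (g : GL (Fin 2) 𝔸f) :
    (automorphicEquiv F).1 x g = (F.1 g ∣[k] (x : GL (Fin 2) ℝ)) UpperHalfPlane.I := rfl

/-- The factor of the rotation by the angle `θ` is `e^(i k θ)`. -/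
theorem fac_rotation (k : ℤ) (θ : ℝ) (r : GL (Fin 2) ℝ)
    (hr : (r : Matrix (Fin 2) (Fin 2) ℝ) = !![Real.cos θ, Real.sin θ; -Real.sin θ, Real.cos θ]) :
    fac k r = Complex.exp (k * (θ * Complex.I)) ∧
      r • UpperHalfPlane.I = UpperHalfPlane.I := by
  have hdet : r.det.val = 1 := by
    change (r : Matrix (Fin 2) (Fin 2) ℝ).det = 1
    rw [hr, Matrix.det_fin_two_of]
    linear_combination Real.cos_sq_add_sin_sq θ
  have hden : denom r UpperHalfPlane.I = Complex.exp (-(θ * Complex.I)) := by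
    rw [denom, hr, Complex.exp_neg, Complex.exp_mul_I, ← Complex.ofReal_cos, ← Complex.ofReal_sin]
    have h1 : ((Real.cos θ : ℂ) + (Real.sin θ : ℂ) * Complex.I) *
        ((Real.cos θ : ℂ) - (Real.sin θ : ℂ) * Complex.I) = 1 := by
      have h2 := congrArg (fun t : ℝ => (t : ℂ)) (Real.cos_sq_add_sin_sq θ)
      push_cast at h2 ⊢
      linear_combination h2 - (Complex.sin θ) ^ 2 * Complex.I_sq
    rw [eq_comm, inv_eq_of_mul_eq_one_right h1]
    simp
    ring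
  constructor
  · rw [fac, hdet, hden, Complex.ofReal_one, _root_.one_zpow, one_mul, ← Complex.exp_int_mul]
    congr 1
    push_cast
    ring
  · have hdpos : 0 < r.det.val := by rw [hdet]; exact one_pos
    apply UpperHalfPlane.ext
    rw [UpperHalfPlane.coe_smul_of_det_pos hdpos, div_eq_iff (denom_ne_zero _ _), num, denom, hr]
    apply Complex.ext <;> simp

end Fermat.Agent.Cor.Adele
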