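import Fermat.Agent.Corollaries.GW.Field
import Mathlib.GroupTheory.FiniteAbelian.Basic

/-!
# Chevalley's theorem on congruence subgroups of the unit group

`K` a number field. `chevalley` : every subgroup of finite index in the unit group of `𝓞_K` is a
congruence subgroup: it contains all units `ε ≡ 1` modulo some non-zero ideal. So the topology of
the congruence subgroups on `𝓞_Kˣ` is the profinite topology.
-/

set_option autoImplicit false

open NumberField IsDedekindDomain Fermat.Agent.Cor.ChebK Fermat.Agent.Cor.GW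

namespace Fermat.Agent.Cor.Adele

variable {K : Type*} [Field K] [NumberField K]

/-- If a unit is a `2 m`-th power modulo all prime ideals, except for a set of density zero, then it
is the `m`-th power of a unit. -/
theorem exists_unit_pow_of_powMod {m : ℕ} (hm : 0 < m) (ε : (𝓞 K)ˣ)
    (h : HasDensity {v : HeightOneSpectrum (𝓞 K) | ¬ PowMod (2 * m) (ε : 𝓞 K) v} 0) :
    ∃ η : (𝓞 K)ˣ, η ^ m = ε := by
  -- an `m`-th power in `K`
  obtain ⟨b, hb⟩ : ∃ b : K, b ^ m = ((ε : 𝓞 K) : K) := by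
    rcases grunwald_wang (by omega) h with ⟨b, hb⟩ | ⟨s, -, -, c, b, -, -, -, -, hb⟩
    · exact ⟨b ^ 2, by rw [← pow_mul, hb]⟩
    · refine ⟨(2 + c) * b ^ 2, ?_⟩
      rw [mul_pow, ← pow_mul, ← hb, Nat.mul_div_cancel_left m two_pos]
  -- the root is a unit
  have hint : IsIntegral ℤ b := by
    refine IsIntegral.of_pow hm ?_
    rw [hb]
    exact RingOfIntegers.isIntegral_coe _
  set x : 𝓞 K := ⟨b, hint⟩ with hx
  have hxm : x ^ m = (ε : 𝓞 K) := by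
    apply RingOfIntegers.ext
    rw [RingOfIntegers.coe_eq_algebraMap, map_pow]
    exact hb
  have hu : IsUnit x := by
    have h1 : IsUnit (x ^ m) := by
      rw [hxm]
      exact ε.isUnit
    exact (isUnit_pow_iff hm.ne').mp h1
  exact ⟨hu.unit, Units.ext hxm⟩

/-- The `m`-th powers of the units form a congruence subgroup. -/
theorem exists_ideal_pow (K : Type*) [Field K] [NumberField K] {m : ℕ} (hm : 0 < m) :
    ∃ I : Ideal (𝓞 K), I ≠ ⊥ ∧
      ∀ ε : (𝓞 K)ˣ, (ε : 𝓞 K) - 1 ∈ I → ∃ η : (𝓞 K)ˣ, η ^ m = ε := by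
  classical
  set E : Subgroup (𝓞 K)ˣ := (powMonoidHom (2 * m)).range with hE
  have hfi : E.FiniteIndex := by
    have hfg : Group.FG (𝓞 K)ˣ := by
      rw [Group.fg_iff_monoid_fg]
      exact inferInstance
    exact Subgroup.finiteIndex_range_powMonoidHom_of_fg _ (by omega)
  have : Finite ((𝓞 K)ˣ ⧸ E) := inferInstance
  have := Fintype.ofFinite ((𝓞 K)ˣ ⧸ E)
  -- an ideal for every class
  have hI : ∀ c : (𝓞 K)ˣ ⧸ E, ∃ I : Ideal (𝓞 K), I ≠ ⊥ ∧ ((¬ ∃ η : (𝓞 K)ˣ, η ^ m = c.out) →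
      ∀ x : 𝓞 K, x ^ (2 * m) - ((c.out : (𝓞 K)ˣ) : 𝓞 K) ∉ I) := by
    intro c
    by_cases hc : ∃ η : (𝓞 K)ˣ, η ^ m = c.out
    · exact ⟨⊤, top_ne_bot, fun h => absurd hc h⟩
    · obtain ⟨v, hv⟩ : ∃ v : HeightOneSpectrum (𝓞 K),
          ¬ PowMod (2 * m) ((c.out : (𝓞 K)ˣ) : 𝓞 K) v := by
        by_contra hcon
        push Not at hcon
        refine hc (exists_unit_pow_of_powMod hm c.out ?_)
        have h1 : {v : HeightOneSpectrum (𝓞 K) |
            ¬ PowMod (2 * m) ((c.out : (𝓞 K)ˣ) : 𝓞 K) v} = ∅ :=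
          Set.eq_empty_of_forall_notMem fun v hv => hv (hcon v)
        rw [h1]
        exact hasDensity_empty
      exact ⟨v.asIdeal, v.ne_bot, fun _ x hx => hv ⟨x, hx⟩⟩
  choose I hI0 hI1 using hI
  refine ⟨∏ c, I c, ?_, fun ε hε => ?_⟩
  · have h1 : ∏ c, I c ≠ 0 := Finset.prod_ne_zero_iff.mpr fun c _ => hI0 c
    exact h1
  · by_contra hcon
    set c : (𝓞 K)ˣ ⧸ E := (ε : (𝓞 K)ˣ ⧸ E) with hc
    obtain ⟨η, hη⟩ : (c.out)⁻¹ * ε ∈ E := QuotientGroup.eq.mp (QuotientGroup.out_eq' c)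
    have hη' : c.out * η ^ (2 * m) = ε := by
      have h1 : η ^ (2 * m) = (c.out)⁻¹ * ε := hη
      rw [h1, mul_inv_cancel_left]
    have hnot : ¬ ∃ η : (𝓞 K)ˣ, η ^ m = c.out := by
      rintro ⟨θ, hθ⟩
      refine hcon ⟨θ * η ^ 2, ?_⟩
      rw [mul_pow, hθ, ← pow_mul, hη']
    refine hI1 c hnot ((η⁻¹ : (𝓞 K)ˣ) : 𝓞 K) ?_
    have h2 : (ε : 𝓞 K) - 1 ∈ I c :=
      Ideal.le_of_dvd (Finset.dvd_prod_of_mem I (Finset.mem_univ c)) hε
    have h3 : ((c.out : (𝓞 K)ˣ) : 𝓞 K) =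
        (ε : 𝓞 K) * ((η⁻¹ : (𝓞 K)ˣ) : 𝓞 K) ^ (2 * m) := by
      have h4 : c.out = ε * η⁻¹ ^ (2 * m) := by
        rw [← hη', inv_pow, mul_inv_cancel_right]
      rw [h4]
      push_cast
      rfl
    have h5 : ((η⁻¹ : (𝓞 K)ˣ) : 𝓞 K) ^ (2 * m) - ((c.out : (𝓞 K)ˣ) : 𝓞 K) =
        -(((η⁻¹ : (𝓞 K)ˣ) : 𝓞 K) ^ (2 * m) * ((ε : 𝓞 K) - 1)) := by
      rw [h3]
      ring
    rw [h5]
    exact neg_mem (Ideal.mul_mem_left _ _ h2)

/-- **Chevalley's theorem**: every subgroup of finite index in the unit group of a number field is a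
congruence subgroup. -/
theorem chevalley (H : Subgroup (𝓞 K)ˣ) [H.FiniteIndex] : ∃ I : Ideal (𝓞 K), I ≠ ⊥ ∧
    ∀ ε : (𝓞 K)ˣ, (ε : 𝓞 K) - 1 ∈ I → ε ∈ H := by
  obtain ⟨I, hI0, hI⟩ := exists_ideal_pow K (m := H.index)
    (Nat.pos_of_ne_zero Subgroup.FiniteIndex.index_ne_zero)
  refine ⟨I, hI0, fun ε hε => ?_⟩
  obtain ⟨η, rfl⟩ := hI ε hε
  exact H.pow_index_mem η

/-- The congruence subgroups of `𝓞_Kˣ` have finite index. -/
theorem finiteIndex_congruence {I : Ideal (𝓞 K)} (hI : I ≠ ⊥) :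
    (Units.map (Ideal.Quotient.mk I : 𝓞 K →* 𝓞 K ⧸ I)).ker.FiniteIndex := by
  have : Finite (𝓞 K ⧸ I) := Ideal.finiteQuotientOfFreeOfNeBot I hI
  exact Subgroup.finiteIndex_ker _

/-- **A subgroup of the unit group has finite index if and only if it contains a congruence
subgroup.** -/
theorem finiteIndex_iff_congruence (H : Subgroup (𝓞 K)ˣ) :
    H.FiniteIndex ↔ ∃ I : Ideal (𝓞 K), I ≠ ⊥ ∧
      ∀ ε : (𝓞 K)ˣ, (ε : 𝓞 K) - 1 ∈ I → ε ∈ H := by
  constructor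
  · intro h
    exact chevalley H
  · rintro ⟨I, hI0, hI⟩
    have h1 := finiteIndex_congruence hI0
    refine Subgroup.finiteIndex_of_le (H := (Units.map (Ideal.Quotient.mk I :
      𝓞 K →* 𝓞 K ⧸ I)).ker) fun ε hε => hI ε ?_
    have h2 : Ideal.Quotient.mk I (ε : 𝓞 K) = 1 := congrArg Units.val hε
    rw [← Ideal.Quotient.eq_zero_iff_mem, map_sub, h2, map_one, sub_self]

end Fermat.Agent.Cor.Adele
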