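import Fermat.Agent.CFT.SUnits
import Fermat.Agent.Corollaries.Adele.Chevalley

/-!
# Chevalley's theorem for finitely generated subgroups of `Kˣ`

`K` a number field. `chevalley_fg` : let `Γ` be a finitely generated subgroup of `Kˣ`, let `H` be a
subgroup with `[Γ : Γ ∩ H]` finite and let `B` be a finite set of finite places. Then there is a
finite set `T` of finite places, disjoint from `B`, such that every `x ∈ Γ` with `x ≡ 1` modulo all
`v ∈ T` is in `H`.
-/

set_option autoImplicit false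

open NumberField IsDedekindDomain Fermat.Agent.Cor.ChebK Fermat.Agent.Cor.GW
open Fermat.Agent.CFT (SUnits.ord)

namespace Fermat.Agent.Cor.Adele

/-! ### Finitely generated abelian groups -/

/-- Let `H` be a subgroup of a finitely generated abelian group `A`. There is `n > 0` such that
`a ^ n ∈ H` for all `a` which have some power in `H`. -/
theorem exists_pow_mem_of_finite (A : Type*) [CommGroup A] [Module.Finite ℤ (Additive A)]
    (H : Subgroup A) : ∃ n : ℕ, 0 < n ∧ ∀ (a : A) (k : ℕ), 0 < k → a ^ k ∈ H → a ^ n ∈ H := by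
  have h1 : Module.Finite ℤ (Additive (A ⧸ H)) :=
    Module.Finite.of_surjective (MonoidHom.toAdditive (QuotientGroup.mk' H)).toIntLinearMap
      (QuotientGroup.mk'_surjective H)
  have h2 : Finite (Submodule.torsion ℤ (Additive (A ⧸ H))) :=
    Module.finite_of_fg_torsion _ (Submodule.torsion_isTorsion (R := ℤ) (M := Additive (A ⧸ H)))
  refine ⟨Nat.card (Submodule.torsion ℤ (Additive (A ⧸ H))), Nat.card_pos, fun a k hk ha => ?_⟩
  set x : Additive (A ⧸ H) := Additive.ofMul (a : A ⧸ H) with hx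
  have h3 : x ∈ Submodule.torsion ℤ (Additive (A ⧸ H)) := by
    rw [Submodule.mem_torsion_iff]
    refine ⟨⟨(k : ℤ), mem_nonZeroDivisors_of_ne_zero (by exact_mod_cast hk.ne')⟩, ?_⟩
    change (k : ℤ) • x = 0
    rw [natCast_zsmul, hx, ← ofMul_pow, ← QuotientGroup.mk_pow, ofMul_eq_zero]
    exact (QuotientGroup.eq_one_iff _).mpr ha
  have h4 := card_nsmul_eq_zero' (x := (⟨x, h3⟩ : Submodule.torsion ℤ (Additive (A ⧸ H))))
  have h5 : Nat.card (Submodule.torsion ℤ (Additive (A ⧸ H))) • x = 0 := congrArg Subtype.val h4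
  rw [hx, ← ofMul_pow, ← QuotientGroup.mk_pow, ofMul_eq_zero] at h5
  exact (QuotientGroup.eq_one_iff _).mp h5

/-! ### `S`-units -/

variable {K : Type*} [Field K] [NumberField K]

theorem valuation_pow_sub_pow_lt {v : HeightOneSpectrum (𝓞 K)} {y z : K}
    (hy : v.valuation K y ≤ 1) (hz : v.valuation K z ≤ 1) (h : v.valuation K (y - z) < 1) (n : ℕ) :
    v.valuation K (y ^ n - z ^ n) < 1 := by
  induction n with
  | zero =>
    rw [pow_zero, pow_zero, sub_self, map_zero]
    exact zero_lt_one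
  | succ n ih =>
    have h1 : y ^ (n + 1) - z ^ (n + 1) = y ^ n * (y - z) + (y ^ n - z ^ n) * z := by ring
    rw [h1]
    refine Valuation.map_add_lt _ ?_ ?_
    · rw [map_mul, map_pow]
      exact lt_of_le_of_lt (mul_le_of_le_one_left' (pow_le_one' hy n)) h
    · rw [map_mul]
      exact lt_of_le_of_lt (mul_le_of_le_one_right' hz) ih

/-- An `S`-unit which is not an `m`-th power in `K`: there is a prime ideal `v` outside any given
finite set such that no `S`-unit in the same class modulo `2 m`-th powers is `≡ 1` modulo `v`. -/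
theorem exists_place_of_not_pow (S B : Finset (HeightOneSpectrum (𝓞 K))) {m : ℕ} (hm : 0 < m)
    {r : Kˣ} (hr : ¬ ∃ y : Kˣ, y ^ m = r) : ∃ v : HeightOneSpectrum (𝓞 K), (v ∉ S ∧ v ∉ B) ∧
      ∀ η : Kˣ, v.valuation K (η : K) = 1 →
        ¬ v.valuation K (((r * η ^ (2 * m) : Kˣ) : K) - 1) < 1 := by
  classical
  obtain ⟨a₀, d, hd, hrd⟩ := IsFractionRing.div_surjective (A := 𝓞 K) (r : K)
  have hd0 : d ≠ 0 := nonZeroDivisors.ne_zero hd
  have hdK : (d : K) ≠ 0 := by exact_mod_cast hd0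
  set a : 𝓞 K := a₀ * d ^ (2 * m - 1) with ha
  have haK : (a : K) = r * (d : K) ^ (2 * m) := by
    have h1 : (a : K) = (a₀ : K) * (d : K) ^ (2 * m - 1) := by
      rw [ha]
      push_cast
      rfl
    have h2 : (d : K) ^ (2 * m) = (d : K) ^ (2 * m - 1) * d := by
      rw [← pow_succ]
      congr 1
      omega
    have h3 : (a₀ : K) = r * d := by
      rw [← hrd]
      exact (div_mul_cancel₀ _ hdK).symm
    rw [h1, h2, h3]
    ring
  obtain ⟨v, hv, hvF⟩ : ∃ v : HeightOneSpectrum (𝓞 K), ¬ PowMod (2 * m) a v ∧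
      v ∉ ((S ∪ B : Finset (HeightOneSpectrum (𝓞 K))) : Set (HeightOneSpectrum (𝓞 K))) ∪
        {v | d ∈ v.asIdeal} := by
    by_contra hcon
    push Not at hcon
    have hfin : {v : HeightOneSpectrum (𝓞 K) | ¬ PowMod (2 * m) a v}.Finite :=
      ((S ∪ B).finite_toSet.union (finite_mem hd0)).subset fun v hv => hcon v hv
    have key : ∃ b : K, b ^ m = (a : K) := by
      rcases grunwald_wang (by omega) (hasDensity_of_finite hfin) with
        ⟨b, hb⟩ | ⟨s, -, -, c, b, -, -, -, -, hb⟩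
      · exact ⟨b ^ 2, by rw [← pow_mul, hb]⟩
      · refine ⟨(2 + c) * b ^ 2, ?_⟩
        rw [mul_pow, ← pow_mul, ← hb, Nat.mul_div_cancel_left m two_pos]
    obtain ⟨b, hb⟩ := key
    have h1 : (b / (d : K) ^ 2) ^ m = (r : K) := by
      rw [div_pow, ← pow_mul, hb, haK, mul_div_cancel_right₀ _ (pow_ne_zero _ hdK)]
    have h2 : b / (d : K) ^ 2 ≠ 0 := by
      intro h0
      rw [h0, zero_pow hm.ne'] at h1
      exact r.ne_zero h1.symm
    exact hr ⟨Units.mk0 _ h2, Units.ext h1⟩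
  rw [Set.mem_union, not_or] at hvF
  refine ⟨v, ⟨fun h => hvF.1 (Finset.mem_coe.mpr (Finset.mem_union_left _ h)),
    fun h => hvF.1 (Finset.mem_coe.mpr (Finset.mem_union_right _ h))⟩, fun η hη hlt => hv ?_⟩
  have hvd : v.valuation K (d : K) = 1 := by
    refine le_antisymm (v.valuation_le_one d) (not_lt.mp fun h => hvF.2 ?_)
    exact (HeightOneSpectrum.valuation_lt_one_iff_mem v d).mp h
  set z : K := (η : K)⁻¹ * d with hz
  have hvz : v.valuation K z = 1 := by
    rw [hz, map_mul, map_inv₀, hη, hvd, inv_one, one_mul]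
  obtain ⟨y, hy⟩ : ∃ y : 𝓞 K, v.valuation K ((y : K) - z) < 1 :=
    HeightOneSpectrum.exists_valuation_sub_lt_of_integer v hvz.le 1
  refine ⟨y, ?_⟩
  rw [← HeightOneSpectrum.valuation_lt_one_iff_mem (K := K)]
  have h1 : v.valuation K ((y : K) ^ (2 * m) - z ^ (2 * m)) < 1 := by
    exact valuation_pow_sub_pow_lt (v.valuation_le_one y) hvz.le hy _
  have h2 : v.valuation K (z ^ (2 * m) - a) < 1 := by
    have h3 : z ^ (2 * m) - a = -(z ^ (2 * m) * (((r * η ^ (2 * m) : Kˣ) : K) - 1)) := by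
      have h4 : (η : K) ≠ 0 := η.ne_zero
      have h5 : z ^ (2 * m) * ((r : K) * (η : K) ^ (2 * m)) = r * (d : K) ^ (2 * m) := by
        rw [hz, mul_pow, inv_pow]
        field_simp
      rw [haK, Units.val_mul, Units.val_pow_eq_pow_val]
      linear_combination h5
    rw [h3, Valuation.map_neg, map_mul, map_pow, hvz, one_pow, one_mul]
    exact hlt
  have h3 : (((y ^ (2 * m) - a : 𝓞 K)) : K) =
      ((y : K) ^ (2 * m) - z ^ (2 * m)) + (z ^ (2 * m) - a) := by
    push_cast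
    ring
  have h4 := Valuation.map_add_lt _ h1 h2
  rw [← h3] at h4
  exact h4

/-- `S`-units which are `≡ 1` modulo suitable prime ideals are `m`-th powers. -/
theorem exists_finset_pow (S B : Finset (HeightOneSpectrum (𝓞 K))) {m : ℕ} (hm : 0 < m) :
    ∃ T : Finset (HeightOneSpectrum (𝓞 K)), (Disjoint T S ∧ Disjoint T B) ∧
      ∀ x : Kˣ, (∀ v ∉ S, v.valuation K (x : K) = 1) →
        (∀ v ∈ T, v.valuation K ((x : K) - 1) < 1) → ∃ y : Kˣ, y ^ m = x := by
  classical
  let A := (S : Set (HeightOneSpectrum (𝓞 K))).unit K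
  have hAfin : Module.Finite ℤ (Additive A) := Fermat.Agent.CFT.SUnits.finite_sunits S
  have hfg : Group.FG A := by
    rw [GroupFG.iff_add_fg, ← Module.Finite.iff_addGroup_fg]
    exact hAfin
  set E : Subgroup A := (powMonoidHom (2 * m)).range with hE
  have hfi : E.FiniteIndex := Subgroup.finiteIndex_range_powMonoidHom_of_fg _ (by omega)
  have : Finite (A ⧸ E) := inferInstance
  have := Fintype.ofFinite (A ⧸ E)
  have hT : ∀ c : A ⧸ E, ∃ T : Finset (HeightOneSpectrum (𝓞 K)), (Disjoint T S ∧ Disjoint T B) ∧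
      ((¬ ∃ y : Kˣ, y ^ m = ((c.out : A) : Kˣ)) → ∃ v ∈ T, ∀ η : Kˣ, v.valuation K (η : K) = 1 →
        ¬ v.valuation K (((((c.out : A) : Kˣ) * η ^ (2 * m) : Kˣ) : K) - 1) < 1) := by
    intro c
    by_cases hc : ∃ y : Kˣ, y ^ m = ((c.out : A) : Kˣ)
    · exact ⟨∅, ⟨Finset.disjoint_empty_left _, Finset.disjoint_empty_left _⟩,
        fun h => absurd hc h⟩
    · obtain ⟨v, hv, h⟩ := exists_place_of_not_pow S B hm hc
      exact ⟨{v}, ⟨Finset.disjoint_singleton_left.mpr hv.1, Finset.disjoint_singleton_left.mpr hv.2⟩,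
        fun _ => ⟨v, Finset.mem_singleton_self v, h⟩⟩
  choose T hTd hT using hT
  refine ⟨Finset.univ.biUnion T, ?_, fun x hx hxT => ?_⟩
  · rw [Finset.disjoint_biUnion_left, Finset.disjoint_biUnion_left]
    exact ⟨fun c _ => (hTd c).1, fun c _ => (hTd c).2⟩
  · by_contra hcon
    set a : A := ⟨x, hx⟩ with ha
    set c : A ⧸ E := (a : A ⧸ E) with hc
    obtain ⟨η, hη⟩ : (c.out)⁻¹ * a ∈ E := QuotientGroup.eq.mp (QuotientGroup.out_eq' c)
    have hη' : ((c.out : A) : Kˣ) * (η : Kˣ) ^ (2 * m) = x := by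
      have h1 : η ^ (2 * m) = (c.out)⁻¹ * a := hη
      have h2 : (c.out : A) * η ^ (2 * m) = a := by rw [h1, mul_inv_cancel_left]
      exact congrArg Subtype.val h2
    have hnot : ¬ ∃ y : Kˣ, y ^ m = ((c.out : A) : Kˣ) := by
      rintro ⟨θ, hθ⟩
      refine hcon ⟨θ * (η : Kˣ) ^ 2, ?_⟩
      rw [mul_pow, hθ, ← pow_mul, hη']
    obtain ⟨v, hv, h⟩ := hT c hnot
    have hvS : v ∉ S := fun h' => Finset.disjoint_left.mp (hTd c).1 hv h'
    refine h (η : Kˣ) (η.2 v hvS) ?_
    rw [hη']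
    exact hxT v (Finset.mem_biUnion.mpr ⟨c, Finset.mem_univ c, hv⟩)

/-! ### Chevalley's theorem -/

/-- **Chevalley's theorem for finitely generated groups**: let `Γ` be a finitely generated subgroup
of `Kˣ`, `H` a subgroup with `[Γ : Γ ∩ H]` finite, `B` a finite set of finite places. There is a
finite set `T` of finite places, disjoint from `B`, such that every `x ∈ Γ` with `x ≡ 1` modulo all
`v ∈ T` is in `H`. -/
theorem chevalley_fg {Γ H : Subgroup Kˣ} (hΓ : Γ.FG) (hH : H.relIndex Γ ≠ 0)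
    (B : Finset (HeightOneSpectrum (𝓞 K))) :
    ∃ T : Finset (HeightOneSpectrum (𝓞 K)), Disjoint T B ∧
      ∀ x ∈ Γ, (∀ v ∈ T, v.valuation K ((x : K) - 1) < 1) → x ∈ H := by
  classical
  obtain ⟨s, hs⟩ := hΓ
  set S : Finset (HeightOneSpectrum (𝓞 K)) :=
    s.biUnion fun x => (Fermat.Agent.CFT.SUnits.finite_ord_ne_zero K x).toFinset with hS
  let A := (S : Set (HeightOneSpectrum (𝓞 K))).unit K
  have hAfin : Module.Finite ℤ (Additive A) := Fermat.Agent.CFT.SUnits.finite_sunits S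
  have hΓA : Γ ≤ A := by
    rw [← hs, Subgroup.closure_le]
    intro x hx v hv
    have h1 : Fermat.Agent.CFT.SUnits.ord v x = 0 := by
      by_contra h0
      refine hv (Finset.mem_coe.mpr (Finset.mem_biUnion.mpr ⟨x, hx, ?_⟩))
      rw [Set.Finite.mem_toFinset]
      exact h0
    exact (Fermat.Agent.CFT.SUnits.ord_eq_zero_iff K v x).mp h1
  obtain ⟨n, hn, hnA⟩ := exists_pow_mem_of_finite A ((H ⊓ Γ).subgroupOf A)
  obtain ⟨T, hT, hTn⟩ := exists_finset_pow S B hn
  refine ⟨T, hT.2, fun x hx hxT => ?_⟩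
  obtain ⟨y, hy⟩ := hTn x (fun v hv => hΓA hx v (fun h => hv (Finset.mem_coe.mp h))) hxT
  have hyA : y ∈ A := by
    intro v hv
    have h1 : v.valuation K (x : K) = 1 := hΓA hx v hv
    rw [← hy, Units.val_pow_eq_pow_val, map_pow] at h1
    exact (pow_eq_one_iff.mp h1).resolve_right hn.ne'
  have h1 : (⟨y, hyA⟩ : A) ^ (n * H.relIndex Γ) ∈ (H ⊓ Γ).subgroupOf A := by
    rw [Subgroup.mem_subgroupOf]
    change y ^ (n * H.relIndex Γ) ∈ H ⊓ Γ
    rw [pow_mul, hy]
    have h2 := (H.subgroupOf Γ).pow_index_mem ⟨x, hx⟩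
    exact ⟨Subgroup.mem_subgroupOf.mp h2, pow_mem hx _⟩
  have h3 := hnA _ _ (Nat.mul_pos hn (Nat.pos_of_ne_zero hH)) h1
  rw [Subgroup.mem_subgroupOf] at h3
  have h4 : y ^ n ∈ H ⊓ Γ := h3
  rw [hy] at h4
  exact h4.1

end Fermat.Agent.Cor.Adele
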