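import Fermat.Agent.Corollaries.Adele.GLn

/-!
# The double cosets `GL_n(K) \ GL_n(𝔸_f) / U` for an arbitrary open subgroup `U`

`K` a number field, `𝔸_f` its ring of finite adeles, `n ≥ 1`, `U` an open subgroup of `GL_n(𝔸_f)`.

* `mem_doubleCoset_iff_of_isOpen` : `h ∈ GL_n(K) g U` if and only if `det h ∈ Kˣ det g det U`.
* `doubleCosetEquivOfIsOpen` : **`GL_n(K) \ GL_n(𝔸_f) / U ≃ 𝔸_fˣ / Kˣ det U`** by the determinant.
* `finite_doubleCoset` : **`GL_n(K) \ GL_n(𝔸_f) / U` is finite**.
-/

set_option autoImplicit false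

open NumberField IsDedekindDomain HeightOneSpectrum WithZero Filter Topology RestrictedProduct
open Matrix
open scoped WithZero

noncomputable section

namespace Fermat.Agent.Cor.Adele

open Fermat.Agent.LT.Loc

variable {K : Type*} [Field K] [NumberField K] {n : Type*} [Fintype n] [DecidableEq n]

/-- The subgroup of `SL_n(𝔸_f)` of matrices `s` with `g⁻¹ s g ∈ U`. -/
def conjOpen (U : Subgroup (GL n (FiniteAdeleRing (𝓞 K) K)))
    (g : GL n (FiniteAdeleRing (𝓞 K) K)) :
    Subgroup (Matrix.SpecialLinearGroup n (FiniteAdeleRing (𝓞 K) K)) :=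
  U.comap ((MulAut.conj g⁻¹).toMonoidHom.comp
    (Matrix.SpecialLinearGroup.toGL : Matrix.SpecialLinearGroup n (FiniteAdeleRing (𝓞 K) K) →* _))

theorem isOpen_conjOpen {U : Subgroup (GL n (FiniteAdeleRing (𝓞 K) K))}
    (hU : IsOpen (U : Set (GL n (FiniteAdeleRing (𝓞 K) K)))) (g : GL n (FiniteAdeleRing (𝓞 K) K)) :
    IsOpen (conjOpen U g : Set (Matrix.SpecialLinearGroup n (FiniteAdeleRing (𝓞 K) K))) := by
  refine hU.preimage ?_
  have h1 : Continuous fun s : Matrix.SpecialLinearGroup n (FiniteAdeleRing (𝓞 K) K) =>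
      g⁻¹ * Matrix.SpecialLinearGroup.toGL s * g⁻¹⁻¹ :=
    (continuous_const.mul Matrix.SpecialLinearGroup.continuous_toGL).mul continuous_const
  exact h1

/-- Two matrices with the same determinant lie in the same double coset. -/
theorem exists_of_det_eq_of_isOpen {U : Subgroup (GL n (FiniteAdeleRing (𝓞 K) K))}
    (hU : IsOpen (U : Set (GL n (FiniteAdeleRing (𝓞 K) K)))) {g h : GL n (FiniteAdeleRing (𝓞 K) K)}
    (hd : GeneralLinearGroup.det g = GeneralLinearGroup.det h) :
    ∃ γ : Matrix.SpecialLinearGroup n K, ∃ κ ∈ U,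
      h = GeneralLinearGroup.map (algebraMap K (FiniteAdeleRing (𝓞 K) K))
        (Matrix.SpecialLinearGroup.toGL γ) * g * κ := by
  have hdet : ((h * g⁻¹ : GL n (FiniteAdeleRing (𝓞 K) K)) :
      Matrix n n (FiniteAdeleRing (𝓞 K) K)).det = 1 := by
    have h1 : GeneralLinearGroup.det (h * g⁻¹) = 1 := by
      rw [map_mul, map_inv, hd, mul_inv_cancel]
    exact congrArg Units.val h1
  obtain ⟨γ, u, hu, hs⟩ := exists_mul_mem (conjOpen U g) (isOpen_conjOpen hU g)
    ⟨((h * g⁻¹ : GL n (FiniteAdeleRing (𝓞 K) K)) : Matrix n n (FiniteAdeleRing (𝓞 K) K)), hdet⟩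
  have hs' : h * g⁻¹ = GeneralLinearGroup.map (algebraMap K (FiniteAdeleRing (𝓞 K) K))
      (Matrix.SpecialLinearGroup.toGL γ) * Matrix.SpecialLinearGroup.toGL u := by
    have h1 : h * g⁻¹ = Matrix.SpecialLinearGroup.toGL
        (Matrix.SpecialLinearGroup.map (algebraMap K (FiniteAdeleRing (𝓞 K) K)) γ * u) := by
      rw [← hs]
      exact Units.ext rfl
    rw [h1, map_mul]
    congr 1
    exact Units.ext rfl
  refine ⟨γ, g⁻¹ * Matrix.SpecialLinearGroup.toGL u * g, ?_, ?_⟩
  · have h2 : (MulAut.conj g⁻¹) (Matrix.SpecialLinearGroup.toGL u) ∈ U := hu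
    rw [MulAut.conj_apply, inv_inv] at h2
    exact h2
  · have h3 : h = h * g⁻¹ * g := by group
    rw [h3, hs']
    group

/-- **`h ∈ GL_n(K) g U` if and only if `det h ∈ Kˣ det g det U`.** -/
theorem mem_doubleCoset_iff_of_isOpen [Nonempty n]
    {U : Subgroup (GL n (FiniteAdeleRing (𝓞 K) K))}
    (hU : IsOpen (U : Set (GL n (FiniteAdeleRing (𝓞 K) K))))
    {g h : GL n (FiniteAdeleRing (𝓞 K) K)} :
    (∃ γ ∈ glPrincipal K n, ∃ κ ∈ U, h = γ * g * κ) ↔
      (GeneralLinearGroup.det g)⁻¹ * GeneralLinearGroup.det h ∈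
        principalIdeles K ⊔ U.map GeneralLinearGroup.det := by
  constructor
  · rintro ⟨γ, hγ, κ, hκ, rfl⟩
    rw [Subgroup.mem_sup]
    refine ⟨GeneralLinearGroup.det γ, det_glPrincipal hγ, GeneralLinearGroup.det κ,
      ⟨κ, hκ, rfl⟩, ?_⟩
    rw [map_mul, map_mul, mul_comm (GeneralLinearGroup.det γ) (GeneralLinearGroup.det g),
      mul_assoc, inv_mul_cancel_left]
  · intro hcl
    obtain ⟨i⟩ : Nonempty n := inferInstance
    obtain ⟨_, ⟨x, rfl⟩, _, ⟨κ₀, hκ₀, rfl⟩, h2⟩ := Subgroup.mem_sup.mp hcl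
    have h3 : GeneralLinearGroup.det
        (diagAt i (FiniteAdeleRing.unitEmbedding (𝓞 K) K x) * g * κ₀) =
        GeneralLinearGroup.det h := by
      have h4 : GeneralLinearGroup.det h = GeneralLinearGroup.det g *
          (FiniteAdeleRing.unitEmbedding (𝓞 K) K x * GeneralLinearGroup.det κ₀) := by
        rw [h2, mul_inv_cancel_left]
      rw [map_mul, map_mul, det_diagAt, h4, ← mul_assoc,
        mul_comm (FiniteAdeleRing.unitEmbedding (𝓞 K) K x)]
    obtain ⟨γ, κ, hκ, h5⟩ := exists_of_det_eq_of_isOpen hU h3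
    refine ⟨GeneralLinearGroup.map (algebraMap K (FiniteAdeleRing (𝓞 K) K))
      (Matrix.SpecialLinearGroup.toGL γ) * diagAt i (FiniteAdeleRing.unitEmbedding (𝓞 K) K x),
      mul_mem ⟨_, rfl⟩ (diagAt_mem_glPrincipal i x), κ₀ * κ, mul_mem hκ₀ hκ, ?_⟩
    rw [h5]
    group

/-- **`GL_n(K) \ GL_n(𝔸_f) / U ≃ 𝔸_fˣ / Kˣ det U`** by the determinant, for every open subgroup `U`
of `GL_n(𝔸_f)`, `n ≥ 1`. -/
def doubleCosetEquivOfIsOpen [Nonempty n] (U : Subgroup (GL n (FiniteAdeleRing (𝓞 K) K)))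
    (hU : IsOpen (U : Set (GL n (FiniteAdeleRing (𝓞 K) K)))) :
    DoubleCoset.Quotient (glPrincipal K n : Set (GL n (FiniteAdeleRing (𝓞 K) K)))
      (U : Set (GL n (FiniteAdeleRing (𝓞 K) K))) ≃
    (FiniteAdeleRing (𝓞 K) K)ˣ ⧸ (principalIdeles K ⊔ U.map GeneralLinearGroup.det) :=
  Equiv.ofBijective
    (Quotient.lift (fun g : GL n (FiniteAdeleRing (𝓞 K) K) =>
      (QuotientGroup.mk (GeneralLinearGroup.det g) :
        (FiniteAdeleRing (𝓞 K) K)ˣ ⧸ (principalIdeles K ⊔ U.map GeneralLinearGroup.det)))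
      fun g h hgh => QuotientGroup.eq.mpr
        ((mem_doubleCoset_iff_of_isOpen hU).mp (DoubleCoset.rel_iff.mp hgh)))
    (by
      constructor
      · intro a b
        refine Quotient.inductionOn₂ a b fun g h hgh => ?_
        exact Quotient.sound (DoubleCoset.rel_iff.mpr
          ((mem_doubleCoset_iff_of_isOpen hU).mpr (QuotientGroup.eq.mp hgh)))
      · intro c
        obtain ⟨a, rfl⟩ := QuotientGroup.mk_surjective c
        obtain ⟨i⟩ : Nonempty n := inferInstance
        refine ⟨Quotient.mk _ (diagAt i a), ?_⟩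
        change (QuotientGroup.mk (GeneralLinearGroup.det (diagAt i a)) :
          (FiniteAdeleRing (𝓞 K) K)ˣ ⧸ (principalIdeles K ⊔ U.map GeneralLinearGroup.det)) = _
        rw [det_diagAt])

theorem doubleCosetEquivOfIsOpen_mk [Nonempty n] (U : Subgroup (GL n (FiniteAdeleRing (𝓞 K) K)))
    (hU : IsOpen (U : Set (GL n (FiniteAdeleRing (𝓞 K) K)))) (g : GL n (FiniteAdeleRing (𝓞 K) K)) :
    doubleCosetEquivOfIsOpen U hU (DoubleCoset.mk (glPrincipal K n) U g) =
      QuotientGroup.mk (GeneralLinearGroup.det g) := rfl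

/-! ### Finiteness -/

variable (K) in
/-- The group `𝓞̂ˣ` of unit ideles is compact. -/
theorem isCompact_unitIdeles : IsCompact (unitIdeles K : Set (FiniteAdeleRing (𝓞 K) K)ˣ) := by
  have h3 : IsCompact (MulOpposite.unop ⁻¹' (finInt K)) :=
    (MulOpposite.opHomeomorph.symm.isClosedEmbedding).isCompact_preimage (isCompact_finInt K)
  have h4 := (Units.isClosedEmbedding_embedProduct
    (α := FiniteAdeleRing (𝓞 K) K)).isCompact_preimage ((isCompact_finInt K).prod h3)
  refine Eq.mp (congrArg IsCompact ?_) h4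
  ext a
  constructor
  · rintro ⟨h1, h2⟩
    exact mem_unitIdeles_of_int h1 h2
  · intro ha
    exact ⟨fun v => (ha v).le, fun v => ((inv_mem ha : a⁻¹ ∈ unitIdeles K) v).le⟩

/-- `u ↦ diag(1, .., u, .., 1)`. -/
def diagHom {R : Type*} [CommRing R] (i : n) : Rˣ →* GL n R where
  toFun := diagAt i
  map_one' := by
    apply Units.ext
    change (diagonal fun j => if j = i then ((1 : Rˣ) : R) else 1) = 1
    rw [← diagonal_one]
    congr 1
    funext j
    simp
  map_mul' a b := by
    apply Units.ext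
    change (diagonal fun j => if j = i then ((a * b : Rˣ) : R) else 1) =
      (diagonal fun j => if j = i then (a : R) else 1) *
        diagonal fun j => if j = i then (b : R) else 1
    rw [diagonal_mul_diagonal]
    congr 1
    funext j
    by_cases h : j = i
    · simp [h]
    · simp [h]

theorem continuous_diagHom {R : Type*} [CommRing R] [TopologicalSpace R] [IsTopologicalRing R]
    (i : n) :
    Continuous (diagHom i : Rˣ →* GL n R) := by
  rw [Units.continuous_iff]
  constructor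
  · change Continuous fun u : Rˣ => (diagonal fun j => if j = i then (u : R) else 1 : Matrix n n R)
    refine Continuous.matrix_diagonal (continuous_pi fun j => ?_)
    by_cases h : j = i
    · simp only [h, if_true]
      exact Units.continuous_val
    · simp only [h, if_false]
      exact continuous_const
  · change Continuous fun u : Rˣ =>
      (diagonal fun j => if j = i then ((u⁻¹ : Rˣ) : R) else 1 : Matrix n n R)
    refine Continuous.matrix_diagonal (continuous_pi fun j => ?_)
    by_cases h : j = i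
    · simp only [h, if_true]
      exact Units.continuous_val.comp continuous_inv
    · simp only [h, if_false]
      exact continuous_const

/-- An open subgroup `V` of `𝔸_fˣ` : `𝔸_fˣ / Kˣ V` is finite. -/
theorem finiteIndex_principal_sup {V : Subgroup (FiniteAdeleRing (𝓞 K) K)ˣ}
    (hV : IsOpen (V : Set (FiniteAdeleRing (𝓞 K) K)ˣ)) : (principalIdeles K ⊔ V).FiniteIndex := by
  have hc : CompactSpace (unitIdeles K) := isCompact_iff_compactSpace.mp (isCompact_unitIdeles K)
  have h1 : V.relIndex (unitIdeles K) ≠ 0 := by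
    have ho : IsOpen ((V.subgroupOf (unitIdeles K) : Subgroup (unitIdeles K)) :
        Set (unitIdeles K)) := hV.preimage continuous_subtype_val
    have hf : Finite (unitIdeles K ⧸ V.subgroupOf (unitIdeles K)) :=
      Subgroup.quotient_finite_of_isOpen _ ho
    exact Subgroup.FiniteIndex.index_ne_zero (H := V.subgroupOf (unitIdeles K))
      (self := Subgroup.finiteIndex_of_finite_quotient)
  have h2 : (principalIdeles K ⊔ V).relIndex (unitIdeles K) ≠ 0 := fun h0 => h1
    (by
      have h3 := Subgroup.relIndex_dvd_of_le_left (unitIdeles K)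
        (le_sup_right : V ≤ principalIdeles K ⊔ V)
      rw [h0, zero_dvd_iff] at h3
      exact h3)
  have h3 : (principalIdeles K ⊔ V).relIndex (unitIdeles K ⊔ (principalIdeles K ⊔ V)) ≠ 0 := by
    rwa [Subgroup.relIndex_sup_right]
  have h4 : (unitIdeles K ⊔ (principalIdeles K ⊔ V)).relIndex ⊤ ≠ 0 := by
    have h5 : (principalIdeles K ⊔ unitIdeles K).index ≠ 0 := by
      rw [index_principal_sup_unit]
      exact (classNumber_pos K).ne'
    have h6 : principalIdeles K ⊔ unitIdeles K ≤ unitIdeles K ⊔ (principalIdeles K ⊔ V) :=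
      sup_le (le_sup_left.trans le_sup_right) le_sup_left
    rw [Subgroup.relIndex_top_right]
    exact fun h0 => h5 (Nat.eq_zero_of_zero_dvd (h0 ▸ Subgroup.index_dvd_of_le h6))
  have h5 := Subgroup.relIndex_ne_zero_trans h3 h4
  rw [Subgroup.relIndex_top_right] at h5
  exact ⟨h5⟩

/-- **`GL_n(K) \ GL_n(𝔸_f) / U` is finite** for every open subgroup `U` of `GL_n(𝔸_f)`, `n ≥ 1`. -/
theorem finite_doubleCoset [Nonempty n] (U : Subgroup (GL n (FiniteAdeleRing (𝓞 K) K)))
    (hU : IsOpen (U : Set (GL n (FiniteAdeleRing (𝓞 K) K)))) :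
    Finite (DoubleCoset.Quotient (glPrincipal K n : Set (GL n (FiniteAdeleRing (𝓞 K) K)))
      (U : Set (GL n (FiniteAdeleRing (𝓞 K) K)))) := by
  obtain ⟨i⟩ : Nonempty n := inferInstance
  have h1 : IsOpen ((U.comap (diagHom i) : Subgroup (FiniteAdeleRing (𝓞 K) K)ˣ) :
      Set (FiniteAdeleRing (𝓞 K) K)ˣ) := hU.preimage (continuous_diagHom i)
  have h2 : principalIdeles K ⊔ U.comap (diagHom i) ≤
      principalIdeles K ⊔ U.map GeneralLinearGroup.det := by
    refine sup_le_sup_left (fun u hu => ?_) _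
    exact ⟨diagAt i u, hu, det_diagAt i u⟩
  have h3 := finiteIndex_principal_sup h1
  have h4 := Subgroup.finiteIndex_of_le h2
  exact Finite.of_equiv _ (doubleCosetEquivOfIsOpen U hU).symm

end Fermat.Agent.Cor.Adele
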