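import Fermat.Agent.LT.SL2Dense

/-!
# `SL_n` of a commutative ring of stable range one is generated by transvections

* `closure_transvection_eq_top` : if `A` has stable range one (`StableOne A`: for all coprime `c`,
  `d` there is `x` with `c + d x` a unit), then `SL_n(A)` is generated by the transvections
  `1 + c E_{ij}`, `i ≠ j`.
* `surjective_map` : if `A → B` is surjective and `B` has stable range one, then
  `SL_n(A) → SL_n(B)` is surjective.
* `denseRange_map` : if `B` is a topological ring of stable range one and `A → B` has dense range,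
  then `SL_n(A) → SL_n(B)` has dense range.
* `stableOne_of_finite` : a commutative ring with finitely many maximal ideals has stable range
  one.
-/

set_option autoImplicit false

open Matrix

namespace Fermat.Agent.Cor.Adele

open Fermat.Agent.LT.SL2 (StableOne)

variable {ι : Type*} [Fintype ι] [DecidableEq ι] {A : Type*} [CommRing A]

local notation "SL" => Matrix.SpecialLinearGroup

variable (ι A) in
/-- The subgroup of `SL_n(A)` generated by the transvections. -/
def elemSubgroup : Subgroup (SL ι A) :=
  Subgroup.closure {g | ∃ (i j : ι) (hij : i ≠ j) (c : A), g = Matrix.SpecialLinearGroup.transvection hij c}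

theorem transvection_mem {i j : ι} (hij : i ≠ j) (c : A) :
    Matrix.SpecialLinearGroup.transvection hij c ∈ elemSubgroup ι A :=
  Subgroup.subset_closure ⟨i, j, hij, c, rfl⟩

theorem transvection_mul_apply' {i j : ι} (hij : i ≠ j) (c : A) (g : SL ι A) (k l : ι) :
    (Matrix.SpecialLinearGroup.transvection hij c * g) k l =
      g k l + if k = i then c * g j l else 0 := by
  change (Matrix.transvection i j c * (g : Matrix ι ι A)) k l = _
  split_ifs with h
  · subst h
    rw [Matrix.transvection_mul_apply_same]
  · rw [Matrix.transvection_mul_apply_of_ne _ _ _ _ h, add_zero]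

theorem mul_transvection_apply' {i j : ι} (hij : i ≠ j) (c : A) (g : SL ι A) (k l : ι) :
    (g * Matrix.SpecialLinearGroup.transvection hij c) k l =
      g k l + if l = j then c * g k i else 0 := by
  change ((g : Matrix ι ι A) * Matrix.transvection i j c) k l = _
  split_ifs with h
  · subst h
    rw [Matrix.mul_transvection_apply_same]
  · rw [Matrix.mul_transvection_apply_of_ne _ _ _ _ h, add_zero]

/-- Add a combination of the rows `k ∈ u` to the row `i`. -/
theorem exists_add_rows (i : ι) (u : Finset ι) (hu : i ∉ u) (t : ι → A) (g : SL ι A) :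
    ∃ e ∈ elemSubgroup ι A, ∀ k l, (e * g) k l =
      g k l + if k = i then ∑ j ∈ u, t j * g j l else 0 := by
  induction u using Finset.induction_on with
  | empty => exact ⟨1, one_mem _, fun k l => by simp⟩
  | insert j u hj ih =>
    obtain ⟨e, he, h⟩ := ih fun h => hu (Finset.mem_insert_of_mem h)
    have hij : i ≠ j := fun h => hu (by rw [h]; exact Finset.mem_insert_self _ _)
    refine ⟨Matrix.SpecialLinearGroup.transvection hij (t j) * e, mul_mem (transvection_mem _ _) he,
      fun k l => ?_⟩
    rw [mul_assoc, transvection_mul_apply', h, h, if_neg hij.symm, add_zero]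
    by_cases hk : k = i
    · rw [if_pos hk, if_pos hk, if_pos hk, Finset.sum_insert hj]
      ring
    · rw [if_neg hk, if_neg hk, if_neg hk, add_zero]

/-- Add multiples of the row `i` to the rows `k ∈ u`. -/
theorem exists_sub_row (i : ι) (u : Finset ι) (hu : i ∉ u) (t : ι → A) (g : SL ι A) :
    ∃ e ∈ elemSubgroup ι A, ∀ k l, (e * g) k l =
      g k l + if k ∈ u then t k * g i l else 0 := by
  induction u using Finset.induction_on with
  | empty => exact ⟨1, one_mem _, fun k l => by simp⟩
  | insert j u hj ih =>
    obtain ⟨e, he, h⟩ := ih fun h => hu (Finset.mem_insert_of_mem h)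
    have hij : i ≠ j := fun h => hu (by rw [h]; exact Finset.mem_insert_self _ _)
    have hiu : i ∉ u := fun h => hu (Finset.mem_insert_of_mem h)
    refine ⟨Matrix.SpecialLinearGroup.transvection hij.symm (t j) * e, mul_mem (transvection_mem _ _) he,
      fun k l => ?_⟩
    rw [mul_assoc, transvection_mul_apply', h, h, if_neg hiu, add_zero]
    by_cases hk : k = j
    · subst hk
      rw [if_neg hj, if_pos rfl, if_pos (Finset.mem_insert_self _ _), add_zero]
    · rw [if_neg hk, add_zero]
      by_cases hk' : k ∈ u
      · rw [if_pos hk', if_pos (Finset.mem_insert_of_mem hk')]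
      · rw [if_neg hk', if_neg fun h => (Finset.mem_insert.mp h).elim hk hk']

/-- Add multiples of the column `i` to the columns `l ∈ u`. -/
theorem exists_sub_col (i : ι) (u : Finset ι) (hu : i ∉ u) (t : ι → A) (g : SL ι A) :
    ∃ e ∈ elemSubgroup ι A, ∀ k l, (g * e) k l =
      g k l + if l ∈ u then t l * g k i else 0 := by
  induction u using Finset.induction_on with
  | empty => exact ⟨1, one_mem _, fun k l => by simp⟩
  | insert j u hj ih =>
    obtain ⟨e, he, h⟩ := ih fun h => hu (Finset.mem_insert_of_mem h)
    have hij : i ≠ j := fun h => hu (by rw [h]; exact Finset.mem_insert_self _ _)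
    have hiu : i ∉ u := fun h => hu (Finset.mem_insert_of_mem h)
    refine ⟨e * Matrix.SpecialLinearGroup.transvection hij (t j), mul_mem he (transvection_mem _ _),
      fun k l => ?_⟩
    rw [← mul_assoc, mul_transvection_apply', h, h, if_neg hiu, add_zero]
    by_cases hk : l = j
    · subst hk
      rw [if_neg hj, if_pos rfl, if_pos (Finset.mem_insert_self _ _), add_zero]
    · rw [if_neg hk, add_zero]
      by_cases hk' : l ∈ u
      · rw [if_pos hk', if_pos (Finset.mem_insert_of_mem hk')]
      · rw [if_neg hk', if_neg fun h => (Finset.mem_insert.mp h).elim hk hk']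

/-- The rows and the columns with index in `s` are those of the identity matrix. -/
structure Clear (s : Finset ι) (g : SL ι A) : Prop where
  row : ∀ i ∈ s, ∀ j, g i j = (1 : Matrix ι ι A) i j
  col : ∀ i ∈ s, ∀ j, g j i = (1 : Matrix ι ι A) j i

theorem Clear.eq_one {s : Finset ι} {g : SL ι A} (h : Clear s g) (hs : sᶜ.card ≤ 1) : g = 1 := by
  have hoff : ∀ i j, i ≠ j → g i j = 0 := by
    intro i j hij
    by_cases hi : i ∈ s
    · rw [h.row i hi, Matrix.one_apply_ne hij]
    by_cases hj : j ∈ s
    · rw [h.col j hj, Matrix.one_apply_ne hij]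
    · exact absurd (Finset.card_le_one.mp hs i (Finset.mem_compl.mpr hi) j
        (Finset.mem_compl.mpr hj)) hij
  have hdiag : (g : Matrix ι ι A) = diagonal fun i => g i i := by
    ext i j
    by_cases hij : i = j
    · subst hij
      rw [diagonal_apply_eq]
    · rw [diagonal_apply_ne _ hij, hoff i j hij]
  have hdet : ∏ i, g i i = 1 := by
    rw [← det_diagonal, ← hdiag]
    exact g.det_coe
  apply Subtype.ext
  change (g : Matrix ι ι A) = 1
  rw [hdiag, ← diagonal_one]
  congr 1
  funext i
  by_cases hi : i ∈ s
  · rw [h.row i hi, Matrix.one_apply_eq]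
  · refine Eq.trans ?_ hdet
    refine (Finset.prod_eq_single (f := fun i => g i i) i (fun j _ hj => ?_)
      fun hn => absurd (Finset.mem_univ _) hn).symm
    have hjs : j ∈ s := by
      by_contra hc
      exact hj (Finset.card_le_one.mp hs j (Finset.mem_compl.mpr hc) i (Finset.mem_compl.mpr hi))
    rw [h.row j hjs, Matrix.one_apply_eq]

theorem mem_of_clear (hA : StableOne A) : ∀ (n : ℕ) (s : Finset ι) (g : SL ι A), sᶜ.card = n →
    Clear s g → g ∈ elemSubgroup ι A := by
  intro n
  induction n with
  | zero =>
    intro s g hs hg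
    rw [hg.eq_one (by omega)]
    exact one_mem _
  | succ n ih =>
    intro s g hs hg
    rcases Nat.eq_zero_or_pos n with hn | hn
    · rw [hg.eq_one (by omega)]
      exact one_mem _
    -- two indices outside `s`
    obtain ⟨i, hi, j, hj, hij⟩ := Finset.one_lt_card.mp (show 1 < sᶜ.card by omega)
    rw [Finset.mem_compl] at hi hj
    -- step 1 : a unit at `(i, i)`
    obtain ⟨e₁, he₁, hclear₁, hu₁⟩ : ∃ e ∈ elemSubgroup ι A, Clear s (e * g) ∧
        IsUnit ((e * g) i i) := by
      set c : ι → A := fun k => (g⁻¹ : SL ι A) i k with hc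
      have hsum : ∑ k, c k * g k i = 1 := by
        have h1 : (g⁻¹ * g : SL ι A) i i = 1 := by rw [inv_mul_cancel]; simp
        exact Eq.trans (Matrix.mul_apply (M := ((g⁻¹ : SL ι A) : Matrix ι ι A))
          (N := (g : Matrix ι ι A))).symm h1
      have hsum' : c i * g i i + ∑ k ∈ sᶜ.erase i, c k * g k i = 1 := by
        refine Eq.trans ?_ hsum
        rw [← Finset.sum_compl_add_sum s, ← Finset.add_sum_erase _ _
          (Finset.mem_compl.mpr hi)]
        have h0 : ∑ k ∈ s, c k * g k i = 0 := by
          refine Finset.sum_eq_zero fun k hk => ?_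
          rw [hg.row k hk, Matrix.one_apply_ne (by rintro rfl; exact hi hk), mul_zero]
        rw [h0, add_zero]
      obtain ⟨x, hx⟩ := hA (g i i) (∑ k ∈ sᶜ.erase i, c k * g k i)
        ⟨c i, 1, by rw [one_mul]; exact hsum'⟩
      obtain ⟨e, he, h⟩ := exists_add_rows i (sᶜ.erase i) (Finset.notMem_erase _ _)
        (fun k => c k * x) g
      refine ⟨e, he, ⟨fun k hk l => ?_, fun k hk l => ?_⟩, ?_⟩
      · rw [h, if_neg (by rintro rfl; exact hi hk), add_zero, hg.row k hk]
      · rw [h, hg.col k hk]
        split_ifs with hl
        · rw [Finset.sum_eq_zero, add_zero]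
          intro m hm
          have hm' : m ∉ s := Finset.mem_compl.mp (Finset.mem_of_mem_erase hm)
          rw [hg.col k hk, Matrix.one_apply_ne (by rintro rfl; exact hm' hk), mul_zero]
        · rw [add_zero]
      · rw [h, if_pos rfl]
        convert! hx using 2
        rw [Finset.sum_mul]
        exact Finset.sum_congr rfl fun k _ => by ring
    -- step 2 : `1` at `(i, i)`
    obtain ⟨e₂, he₂, hclear₂, hone₂⟩ : ∃ e ∈ elemSubgroup ι A, Clear s (e * g) ∧
        (e * g) i i = 1 := by
      obtain ⟨u, hu⟩ := hu₁
      set g₁ := e₁ * g with hg₁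
      set a : A := (1 - g₁ j i) * (u⁻¹ : Aˣ) with ha
      have h1 : ∀ k l, (Matrix.SpecialLinearGroup.transvection hij.symm a * g₁) k l = _ :=
        transvection_mul_apply' hij.symm a g₁
      set g₂ := Matrix.SpecialLinearGroup.transvection hij.symm a * g₁ with hg₂
      have h2 : ∀ k l, (Matrix.SpecialLinearGroup.transvection hij (1 - (u : A)) * g₂) k l = _ :=
        transvection_mul_apply' hij _ g₂
      refine ⟨Matrix.SpecialLinearGroup.transvection hij (1 - (u : A)) *
        (Matrix.SpecialLinearGroup.transvection hij.symm a * e₁),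
        mul_mem (transvection_mem _ _) (mul_mem (transvection_mem _ _) he₁), ?_⟩
      rw [mul_assoc, mul_assoc, ← hg₁, ← hg₂]
      have hji : g₂ j i = 1 := by
        rw [h1, if_pos rfl, ← hu, ha, mul_assoc, Units.inv_mul, mul_one]
        ring
      have hii : g₂ i i = u := by
        rw [h1, if_neg hij, add_zero, hu]
      have hc2 : Clear s g₂ := by
        refine ⟨fun k hk l => ?_, fun k hk l => ?_⟩
        · rw [h1, if_neg (by rintro rfl; exact hj hk), add_zero, hclear₁.row k hk]
        · rw [h1, hclear₁.col k hk, hclear₁.col k hk,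
            Matrix.one_apply_ne (i := i) (j := k) (by rintro rfl; exact hi hk), mul_zero, ite_self,
            add_zero]
      refine ⟨⟨fun k hk l => ?_, fun k hk l => ?_⟩, ?_⟩
      · rw [h2, if_neg (by rintro rfl; exact hi hk), add_zero, hc2.row k hk]
      · rw [h2, hc2.col k hk, hc2.col k hk,
          Matrix.one_apply_ne (i := j) (j := k) (by rintro rfl; exact hj hk), mul_zero, ite_self,
          add_zero]
      · rw [h2, if_pos rfl, hii, hji]
        ring
    -- step 3 : clear the column `i`
    obtain ⟨e₃, he₃, h3⟩ := exists_sub_row i (sᶜ.erase i) (Finset.notMem_erase _ _)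
      (fun k => -(e₂ * g) k i) (e₂ * g)
    have hcol : ∀ k, (e₃ * (e₂ * g)) k i = (1 : Matrix ι ι A) k i := by
      intro k
      rw [h3, hone₂]
      by_cases hk : k = i
      · subst hk
        rw [if_neg (Finset.notMem_erase _ _), add_zero, hone₂, Matrix.one_apply_eq]
      · rw [Matrix.one_apply_ne hk]
        by_cases hks : k ∈ s
        · rw [if_neg fun h => Finset.mem_compl.mp (Finset.mem_of_mem_erase h) hks, add_zero,
            hclear₂.row k hks, Matrix.one_apply_ne hk]
        · rw [if_pos (Finset.mem_erase.mpr ⟨hk, Finset.mem_compl.mpr hks⟩)]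
          ring
    have hclear₃ : Clear s (e₃ * (e₂ * g)) := by
      refine ⟨fun k hk l => ?_, fun k hk l => ?_⟩
      · rw [h3, if_neg fun h => Finset.mem_compl.mp (Finset.mem_of_mem_erase h) hk, add_zero,
          hclear₂.row k hk]
      · rw [h3, hclear₂.col k hk, hclear₂.col k hk,
          Matrix.one_apply_ne (i := i) (j := k) (by rintro rfl; exact hi hk), mul_zero, ite_self,
          add_zero]
    -- step 4 : clear the row `i`
    obtain ⟨e₄, he₄, h4⟩ := exists_sub_col i (sᶜ.erase i) (Finset.notMem_erase _ _)
      (fun l => -(e₃ * (e₂ * g)) i l) (e₃ * (e₂ * g))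
    have hfin : Clear (insert i s) (e₃ * (e₂ * g) * e₄) := by
      have hrow : ∀ l, (e₃ * (e₂ * g) * e₄) i l = (1 : Matrix ι ι A) i l := by
        intro l
        rw [h4, hcol i, Matrix.one_apply_eq]
        by_cases hl : l = i
        · subst hl
          rw [if_neg (Finset.notMem_erase _ _), add_zero, hcol, Matrix.one_apply_eq]
        · rw [Matrix.one_apply_ne (Ne.symm hl)]
          by_cases hls : l ∈ s
          · rw [if_neg fun h => Finset.mem_compl.mp (Finset.mem_of_mem_erase h) hls, add_zero,
              hclear₃.col l hls, Matrix.one_apply_ne (Ne.symm hl)]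
          · rw [if_pos (Finset.mem_erase.mpr ⟨hl, Finset.mem_compl.mpr hls⟩)]
            ring
      have hcol' : ∀ k, (e₃ * (e₂ * g) * e₄) k i = (1 : Matrix ι ι A) k i := by
        intro k
        rw [h4, if_neg (Finset.notMem_erase _ _), add_zero, hcol]
      refine ⟨fun k hk l => ?_, fun k hk l => ?_⟩
      · rcases Finset.mem_insert.mp hk with rfl | hk'
        · exact hrow l
        · rw [h4, hclear₃.row k hk', hclear₃.row k hk',
            Matrix.one_apply_ne (i := k) (j := i) (by rintro rfl; exact hi hk'), mul_zero,
            ite_self, add_zero]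
      · rcases Finset.mem_insert.mp hk with rfl | hk'
        · exact hcol' l
        · rw [h4, if_neg fun h => Finset.mem_compl.mp (Finset.mem_of_mem_erase h) hk', add_zero,
            hclear₃.col k hk']
    have hcard : (insert i s)ᶜ.card = n := by
      have h5 := Finset.card_compl_add_card s
      have h6 := Finset.card_compl_add_card (insert i s)
      rw [Finset.card_insert_of_notMem hi] at h6
      omega
    have hmem := ih _ _ hcard hfin
    have hg' : g = e₂⁻¹ * (e₃⁻¹ * (e₃ * (e₂ * g) * e₄) * e₄⁻¹) := by group
    rw [hg']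
    exact mul_mem (inv_mem he₂) (mul_mem (mul_mem (inv_mem he₃) hmem) (inv_mem he₄))

/-- **`SL_n` of a commutative ring of stable range one is generated by transvections.** -/
theorem closure_transvection_eq_top (hA : StableOne A) :
    Subgroup.closure {g : SL ι A | ∃ (i j : ι) (hij : i ≠ j) (c : A),
      g = Matrix.SpecialLinearGroup.transvection hij c} = ⊤ :=
  (Subgroup.eq_top_iff' _).mpr fun g => mem_of_clear hA _ ∅ g rfl
    ⟨fun _ h => absurd h (Finset.notMem_empty _), fun _ h => absurd h (Finset.notMem_empty _)⟩

/-! ### Change of rings -/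

theorem map_transvection {B : Type*} [CommRing B] (f : A →+* B) {i j : ι} (hij : i ≠ j) (c : A) :
    Matrix.SpecialLinearGroup.map f (Matrix.SpecialLinearGroup.transvection hij c) =
      Matrix.SpecialLinearGroup.transvection hij (f c) := by
  apply Subtype.ext
  change (Matrix.transvection i j c).map f = Matrix.transvection i j (f c)
  rw [Matrix.transvection, Matrix.transvection, Matrix.map_add f (map_add f),
    Matrix.map_one f (map_zero f) (map_one f), Matrix.map_single]

/-- **`SL_n(A) → SL_n(B)` is surjective** if `A → B` is surjective and `B` has stable range one. -/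
theorem surjective_map {B : Type*} [CommRing B] {f : A →+* B} (hf : Function.Surjective f)
    (hB : StableOne B) : Function.Surjective (Matrix.SpecialLinearGroup.map (n := ι) f) := by
  rw [← MonoidHom.range_eq_top, eq_top_iff, ← closure_transvection_eq_top hB,
    Subgroup.closure_le]
  rintro g ⟨i, j, hij, c, rfl⟩
  obtain ⟨a, rfl⟩ := hf c
  exact ⟨Matrix.SpecialLinearGroup.transvection hij a, map_transvection f hij a⟩

theorem continuous_transvection [TopologicalSpace A] [IsTopologicalRing A] {i j : ι} (hij : i ≠ j) :
    Continuous fun c : A => (Matrix.SpecialLinearGroup.transvection hij c : SL ι A) := by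
  refine Continuous.subtype_mk ?_ _
  change Continuous fun c : A => (1 : Matrix ι ι A) + Matrix.single i j c
  refine continuous_const.add (continuous_matrix fun k l => ?_)
  simp only [Matrix.single_apply]
  split_ifs
  · exact continuous_id
  · exact continuous_const

/-- **`SL_n(A) → SL_n(B)` has dense range** if `A → B` has dense range and `B` has stable range
one. -/
theorem denseRange_map {B : Type*} [CommRing B] [TopologicalSpace B] [IsTopologicalRing B]
    {f : A →+* B} (hf : DenseRange f) (hB : StableOne B) :
    DenseRange (Matrix.SpecialLinearGroup.map (n := ι) f) := by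
  have h : (Matrix.SpecialLinearGroup.map (n := ι) f).range.topologicalClosure = ⊤ := by
    rw [eq_top_iff, ← closure_transvection_eq_top hB, Subgroup.closure_le]
    rintro g ⟨i, j, hij, c, rfl⟩
    have h1 : c ∈ closure (Set.range f) := hf c
    have h2 := image_closure_subset_closure_image (continuous_transvection (ι := ι) hij)
      (Set.mem_image_of_mem _ h1)
    refine closure_mono ?_ h2
    rintro _ ⟨_, ⟨a, rfl⟩, rfl⟩
    exact ⟨Matrix.SpecialLinearGroup.transvection hij a, map_transvection f hij a⟩
  intro g
  have h3 : g ∈ (Matrix.SpecialLinearGroup.map (n := ι) f).range.topologicalClosure := by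
    rw [h]; exact Subgroup.mem_top g
  exact h3

/-- A commutative ring with finitely many maximal ideals has stable range one. -/
theorem stableOne_of_finite [Finite (MaximalSpectrum A)] : StableOne A := by
  classical
  rintro c d ⟨p, q, h⟩
  have := Fintype.ofFinite (MaximalSpectrum A)
  have hco : Pairwise fun m m' : MaximalSpectrum A => IsCoprime m.asIdeal m'.asIdeal := by
    intro m m' hne
    rw [Ideal.isCoprime_iff_sup_eq]
    exact m.isMaximal.coprime_of_ne m'.isMaximal fun e => hne (MaximalSpectrum.ext e)
  obtain ⟨x, hx⟩ := Ideal.pi_mkQ_surjective hco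
    (fun m => if c ∈ m.asIdeal then (1 : A ⧸ m.asIdeal) else 0)
  have hx' : ∀ m : MaximalSpectrum A, Ideal.Quotient.mk m.asIdeal x =
      if c ∈ m.asIdeal then 1 else 0 := fun m => congrFun hx m
  refine ⟨x, ?_⟩
  by_contra hu
  obtain ⟨M, hM, hmem⟩ := exists_max_ideal_of_mem_nonunits hu
  have h1 := hx' ⟨M, hM⟩
  by_cases hc : c ∈ M
  · rw [if_pos hc] at h1
    have h2 : Ideal.Quotient.mk M d = 0 := by
      have h3 := Ideal.Quotient.eq_zero_iff_mem.mpr hmem
      rw [map_add, map_mul, h1, mul_one, Ideal.Quotient.eq_zero_iff_mem.mpr hc, zero_add] at h3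
      exact h3
    have h4 : (1 : A) ∈ M := by
      rw [← h]
      exact add_mem (M.mul_mem_left _ hc) (M.mul_mem_left _ (Ideal.Quotient.eq_zero_iff_mem.mp h2))
    exact hM.ne_top ((Ideal.eq_top_iff_one _).mpr h4)
  · rw [if_neg hc] at h1
    refine hc ?_
    have h3 := Ideal.Quotient.eq_zero_iff_mem.mpr hmem
    rw [map_add, map_mul, h1, mul_zero, add_zero] at h3
    exact Ideal.Quotient.eq_zero_iff_mem.mp h3

end Fermat.Agent.Cor.Adele
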