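import Fermat.Agent.LT.SApprox
import Fermat.Agent.Corollaries.Adele.Elem

/-!
# Strong approximation for `SL_n` over a number field

`K` a number field, `𝔸_f = FiniteAdeleRing (𝓞 K) K` its ring of finite adeles.

* `denseRange_finiteAdele` : `K` is dense in `𝔸_f`.
* `stableOne_finiteAdele` : `𝔸_f` has stable range one.
* `denseRange_SL` : **strong approximation**, `SL_n(K)` is dense in `SL_n(𝔸_f)`.
* `exists_mul_mem` : `SL_n(𝔸_f) = SL_n(K) U` for every open subgroup `U`.
* `surjective_SL_quotient` : `SL_n(𝓞_K) → SL_n(𝓞_K / 𝔫)` is surjective, `𝔫 ≠ 0`.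
-/

set_option autoImplicit false

open NumberField IsDedekindDomain HeightOneSpectrum WithZero Filter Topology RestrictedProduct
open scoped WithZero

noncomputable section

namespace Fermat.Agent.Cor.Adele

open Fermat.Agent.LT.SL2 (StableOne)
open Fermat.Agent.LT.Loc

variable {K : Type*} [Field K] [NumberField K]

/-- A neighbourhood of `0` in the finite adeles contains all integral adeles which are small at
finitely many places. -/
theorem exists_of_mem_nhds_zero {U : Set (FiniteAdeleRing (𝓞 K) K)}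
    (hU : U ∈ 𝓝 (0 : FiniteAdeleRing (𝓞 K) K)) :
    ∃ (T : Finset (HeightOneSpectrum (𝓞 K))) (n : ℕ), ∀ x : FiniteAdeleRing (𝓞 K) K,
      (∀ v, Valued.v (x v) ≤ 1) → (∀ v ∈ T, Valued.v (x v) < exp (-(n : ℤ))) → x ∈ U := by
  have hopen : ∀ v : HeightOneSpectrum (𝓞 K),
      IsOpen (v.adicCompletionIntegers K : Set (v.adicCompletion K)) :=
    fun _ ↦ Valued.isOpen_valuationSubring _
  have h1 := nhds_eq_map_structureMap (R := fun v : HeightOneSpectrum (𝓞 K) => v.adicCompletion K)
    (A := fun v => (v.adicCompletionIntegers K : Set (v.adicCompletion K))) hopen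
    (fun v => ⟨0, zero_mem _⟩)
  have h2 : (structureMap (fun v : HeightOneSpectrum (𝓞 K) => v.adicCompletion K)
      (fun v => (v.adicCompletionIntegers K : Set (v.adicCompletion K))) cofinite) ⁻¹' U ∈
      𝓝 (fun v : HeightOneSpectrum (𝓞 K) =>
        (⟨0, zero_mem _⟩ : (v.adicCompletionIntegers K : Set (v.adicCompletion K)))) := by
    rw [← Filter.mem_map, ← h1]
    exact hU
  rw [nhds_pi, Filter.mem_pi] at h2
  obtain ⟨I, hI, t, ht, hsub⟩ := h2
  have h3 : ∀ v : HeightOneSpectrum (𝓞 K), ∃ n : ℕ, ∀ y : v.adicCompletionIntegers K,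
      Valued.v (y : v.adicCompletion K) < exp (-(n : ℤ)) → y ∈ t v := by
    intro v
    have h4 := ht v
    rw [nhds_subtype_eq_comap, Filter.mem_comap] at h4
    obtain ⟨s, hs, hst⟩ := h4
    obtain ⟨n, hn⟩ := (mem_nhds_iff v).mp hs
    refine ⟨n, fun y hy => hst (hn ?_)⟩
    simpa using hy
  choose m hm using h3
  refine ⟨hI.toFinset, ∑ v ∈ hI.toFinset, m v, fun x hx hT => ?_⟩
  have h5 : (fun v : HeightOneSpectrum (𝓞 K) =>
      (⟨x v, hx v⟩ : (v.adicCompletionIntegers K : Set (v.adicCompletion K)))) ∈ I.pi t := by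
    intro v hv
    refine hm v _ (lt_of_lt_of_le (hT v (hI.mem_toFinset.mpr hv)) ?_)
    rw [exp_le_exp, neg_le_neg_iff]
    exact_mod_cast Finset.single_le_sum (f := m) (fun _ _ => Nat.zero_le _)
      (hI.mem_toFinset.mpr hv)
  exact hsub h5

/-- Additive strong approximation: a finite adele is congruent to an element of `K` modulo integral
adeles which are small at finitely many places. -/
theorem exists_approx (a : FiniteAdeleRing (𝓞 K) K) (T : Finset (HeightOneSpectrum (𝓞 K)))
    (n : ℕ) : ∃ k : K, (∀ v, Valued.v ((algebraMap K (FiniteAdeleRing (𝓞 K) K) k - a) v) ≤ 1) ∧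
      ∀ v ∈ T, Valued.v ((algebraMap K (FiniteAdeleRing (𝓞 K) K) k - a) v) < exp (-(n : ℤ)) := by
  classical
  have hfin : {v : HeightOneSpectrum (𝓞 K) | ¬ Valued.v (a v) ≤ 1}.Finite := a.2
  obtain ⟨k, hk, hkT⟩ := exists_OS_approx (T ∪ hfin.toFinset) (fun v => a v.1)
    (γ := exp (-(n : ℤ))) exp_ne_zero
  refine ⟨k, fun v => ?_, fun v hv => hkT ⟨v, Finset.mem_union_left _ hv⟩⟩
  by_cases hv : v ∈ T ∪ hfin.toFinset
  · refine (hkT ⟨v, hv⟩).le.trans ?_
    rw [← exp_zero, exp_le_exp]
    omega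
  · have h1 : Valued.v (a v) ≤ 1 := by
      by_contra hc
      exact hv (Finset.mem_union_right _ (hfin.mem_toFinset.mpr hc))
    have h2 : Valued.v (ι v k) ≤ 1 := by
      rw [v_ι]
      exact mem_OS_iff.mp hk v hv
    exact (Valued.v.map_sub _ _).trans (max_le h2 h1)

/-- **`K` is dense in the finite adeles** of a number field `K`. -/
theorem denseRange_finiteAdele : DenseRange (algebraMap K (FiniteAdeleRing (𝓞 K) K)) := by
  intro a
  rw [mem_closure_iff_nhds]
  intro U hU
  have h1 : (fun x => a + x) ⁻¹' U ∈ 𝓝 (0 : FiniteAdeleRing (𝓞 K) K) := by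
    refine (continuous_const.add continuous_id).continuousAt.preimage_mem_nhds ?_
    simpa using hU
  obtain ⟨T, n, h2⟩ := exists_of_mem_nhds_zero h1
  obtain ⟨k, hk, hkT⟩ := exists_approx a T n
  have h3 := h2 _ hk hkT
  refine ⟨algebraMap K _ k, ?_, Set.mem_range_self k⟩
  simpa using h3

/-- **The ring of finite adeles of a number field has stable range one.** -/
theorem stableOne_finiteAdele : StableOne (FiniteAdeleRing (𝓞 K) K) := by
  classical
  rintro c d ⟨p, q, h⟩
  have hv : ∀ v, p v * c v + q v * d v = 1 := fun v => DFunLike.congr_fun h v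
  set x₀ : ∀ v : HeightOneSpectrum (𝓞 K), v.adicCompletion K := fun v =>
    if Valued.v (c v) = 1 then 0 else if Valued.v (c v + d v) = 1 then 1
      else if c v ≠ 0 then 0 else 1 with hx₀
  have hx₁ : ∀ v, Valued.v (x₀ v) ≤ 1 := by
    intro v
    rw [hx₀]
    simp only
    split_ifs <;> simp
  let x : FiniteAdeleRing (𝓞 K) K := ⟨x₀, Eventually.of_forall hx₁⟩
  have hval : ∀ v, (c + d * x) v = c v + d v * x₀ v := fun v => rfl
  refine ⟨x, FiniteAdeleRing.isUnit_iff.mpr ⟨fun v => ?_, ?_⟩⟩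
  · rw [hval, hx₀]
    simp only
    split_ifs with h1 h2 h3
    · rw [mul_zero, add_zero]
      intro h0
      rw [h0, map_zero] at h1
      exact zero_ne_one h1
    · rw [mul_one]
      intro h0
      rw [h0, map_zero] at h2
      exact zero_ne_one h2
    · rw [mul_zero, add_zero]
      exact h3
    · rw [mul_one, not_not.mp h3, zero_add]
      intro h0
      have h4 := hv v
      rw [not_not.mp h3, h0, mul_zero, mul_zero, add_zero] at h4
      exact zero_ne_one h4
  · filter_upwards [c.2, d.2, p.2, q.2] with v hc hd hp hq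
    have hc' : Valued.v (c v) ≤ 1 := hc
    have hd' : Valued.v (d v) ≤ 1 := hd
    have hp' : Valued.v (p v) ≤ 1 := hp
    have hq' : Valued.v (q v) ≤ 1 := hq
    rw [hval, hx₀]
    simp only
    by_cases h1 : Valued.v (c v) = 1
    · rw [if_pos h1, mul_zero, add_zero, h1]
    have h2 : Valued.v (c v) < 1 := lt_of_le_of_ne hc' h1
    have h3 : Valued.v (q v * d v) = 1 := by
      have h4 : q v * d v = 1 - p v * c v := by rw [← hv v]; ring
      rw [h4]
      refine (Valued.v.map_sub_eq_of_lt_left ?_).trans (map_one _)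
      rw [map_one, map_mul]
      exact lt_of_le_of_lt (mul_le_of_le_one_left' hp') h2
    have h5 : Valued.v (d v) = 1 := by
      rw [map_mul] at h3
      exact le_antisymm hd' (h3 ▸ mul_le_of_le_one_left' hq')
    have h6 : Valued.v (c v + d v) = 1 := by
      rw [add_comm, Valued.v.map_add_eq_of_lt_left (by rw [h5]; exact h2), h5]
    rw [if_neg h1, if_pos h6, mul_one, h6]

variable {ι' : Type*} [Fintype ι'] [DecidableEq ι']

/-- **Strong approximation**: `SL_n(K)` is dense in `SL_n(𝔸_f)`. -/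
theorem denseRange_SL : DenseRange (Matrix.SpecialLinearGroup.map (n := ι')
    (algebraMap K (FiniteAdeleRing (𝓞 K) K))) :=
  denseRange_map denseRange_finiteAdele stableOne_finiteAdele

/-- **Strong approximation**: `SL_n(𝔸_f) = SL_n(K) U` for every open subgroup `U`. -/
theorem exists_mul_mem (U : Subgroup (Matrix.SpecialLinearGroup ι' (FiniteAdeleRing (𝓞 K) K)))
    (hU : IsOpen (U : Set (Matrix.SpecialLinearGroup ι' (FiniteAdeleRing (𝓞 K) K))))
    (g : Matrix.SpecialLinearGroup ι' (FiniteAdeleRing (𝓞 K) K)) :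
    ∃ (γ : Matrix.SpecialLinearGroup ι' K)
      (u : Matrix.SpecialLinearGroup ι' (FiniteAdeleRing (𝓞 K) K)), u ∈ U ∧
      g = Matrix.SpecialLinearGroup.map (algebraMap K (FiniteAdeleRing (𝓞 K) K)) γ * u := by
  have h1 : {x : Matrix.SpecialLinearGroup ι' (FiniteAdeleRing (𝓞 K) K) | x⁻¹ * g ∈ U} ∈ 𝓝 g := by
    refine (hU.preimage (continuous_inv.mul continuous_const)).mem_nhds ?_
    change g⁻¹ * g ∈ U
    rw [inv_mul_cancel]
    exact one_mem U
  obtain ⟨γ, hγ⟩ := denseRange_SL.mem_nhds h1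
  exact ⟨γ, _, hγ, by rw [mul_inv_cancel_left]⟩

/-- **`SL_n(𝓞_K) → SL_n(𝓞_K / 𝔫)` is surjective** for every non-zero ideal `𝔫`. -/
theorem surjective_SL_quotient {I : Ideal (𝓞 K)} (hI : I ≠ ⊥) : Function.Surjective
    (Matrix.SpecialLinearGroup.map (n := ι') (Ideal.Quotient.mk I)) := by
  have : Finite (𝓞 K ⧸ I) := Ideal.finiteQuotientOfFreeOfNeBot I hI
  exact surjective_map Ideal.Quotient.mk_surjective stableOne_of_finite

end Fermat.Agent.Cor.Adele
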