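import Fermat.Agent.CFT.SClass
import Fermat.Agent.Corollaries.Adele.Fin

/-!
# Finite ideles and the ideal class group

`K` a number field, `𝔸_f` its ring of finite adeles.

* `ideleDiv` : the divisor of a finite idele, a surjective homomorphism
  `𝔸_fˣ → ⨁_v ℤ` (`surjective_ideleDiv`) with kernel the unit ideles (`ker_ideleDiv`).
* `ideleClass` : `𝔸_fˣ → Cl(K)`, surjective (`surjective_ideleClass`) with kernel `Kˣ · ∏ 𝓞_vˣ`
  (`ker_ideleClass`).
* `ideleClassEquiv` : **`𝔸_fˣ / (Kˣ · ∏ 𝓞_vˣ) ≃ Cl(K)`**.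
-/

set_option autoImplicit false

open NumberField IsDedekindDomain HeightOneSpectrum WithZero Filter Topology RestrictedProduct
open scoped WithZero

noncomputable section

namespace Fermat.Agent.Cor.Adele

open Fermat.Agent.LT.Loc
open Fermat.Agent.CFT.SUnits (ord div classOf)

variable {K : Type*} [Field K] [NumberField K]

/-- The order of a finite idele at `v`. -/
def iord (v : HeightOneSpectrum (𝓞 K)) (a : (FiniteAdeleRing (𝓞 K) K)ˣ) : ℤ :=
  -log (Valued.v ((a : FiniteAdeleRing (𝓞 K) K) v))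

theorem valued_ne_zero (v : HeightOneSpectrum (𝓞 K)) (a : (FiniteAdeleRing (𝓞 K) K)ˣ) :
    Valued.v ((a : FiniteAdeleRing (𝓞 K) K) v) ≠ 0 := by
  rw [Valuation.ne_zero_iff]
  exact (FiniteAdeleRing.isUnit_iff.mp a.isUnit).1 v

theorem valued_eq_exp (v : HeightOneSpectrum (𝓞 K)) (a : (FiniteAdeleRing (𝓞 K) K)ˣ) :
    Valued.v ((a : FiniteAdeleRing (𝓞 K) K) v) = exp (-iord v a) := by
  rw [iord, neg_neg, exp_log (valued_ne_zero v a)]

theorem iord_eq_zero_iff (v : HeightOneSpectrum (𝓞 K)) (a : (FiniteAdeleRing (𝓞 K) K)ˣ) :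
    iord v a = 0 ↔ Valued.v ((a : FiniteAdeleRing (𝓞 K) K) v) = 1 := by
  rw [valued_eq_exp, ← exp_zero, exp_inj, neg_eq_zero]

theorem iord_one (v : HeightOneSpectrum (𝓞 K)) :
    iord v (1 : (FiniteAdeleRing (𝓞 K) K)ˣ) = 0 := by
  rw [iord_eq_zero_iff]
  change Valued.v (1 : v.adicCompletion K) = 1
  exact map_one _

theorem iord_mul (v : HeightOneSpectrum (𝓞 K)) (a b : (FiniteAdeleRing (𝓞 K) K)ˣ) :
    iord v (a * b) = iord v a + iord v b := by
  have h : Valued.v (((a * b : (FiniteAdeleRing (𝓞 K) K)ˣ) : FiniteAdeleRing (𝓞 K) K) v) =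
      Valued.v ((a : FiniteAdeleRing (𝓞 K) K) v) * Valued.v ((b : FiniteAdeleRing (𝓞 K) K) v) :=
    map_mul Valued.v _ _
  rw [iord, h, log_mul (valued_ne_zero v a) (valued_ne_zero v b), iord, iord]
  ring

theorem iord_principal (v : HeightOneSpectrum (𝓞 K)) (x : Kˣ) :
    iord v (FiniteAdeleRing.unitEmbedding (𝓞 K) K x) = ord v x := by
  have h : Valued.v ((FiniteAdeleRing.unitEmbedding (𝓞 K) K x : FiniteAdeleRing (𝓞 K) K) v) =
      v.valuation K (x : K) := v_ι v (x : K)
  rw [iord, h, Fermat.Agent.CFT.SUnits.valuation_eq_exp_neg_ord, log_exp, neg_neg]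

theorem finite_iord_ne_zero (a : (FiniteAdeleRing (𝓞 K) K)ˣ) :
    {v : HeightOneSpectrum (𝓞 K) | iord v a ≠ 0}.Finite := by
  have h := (FiniteAdeleRing.isUnit_iff.mp a.isUnit).2
  rw [Filter.eventually_cofinite] at h
  refine h.subset fun v hv => ?_
  rw [Set.mem_ofPred_eq, ← iord_eq_zero_iff]
  exact hv

/-- The divisor of a finite idele. -/
def ideleDiv : (FiniteAdeleRing (𝓞 K) K)ˣ →* Multiplicative (HeightOneSpectrum (𝓞 K) →₀ ℤ) where
  toFun a := Multiplicative.ofAdd
    (Finsupp.ofSupportFinite (fun v => iord v a) (finite_iord_ne_zero a))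
  map_one' := by
    apply Multiplicative.toAdd.injective
    ext v
    exact iord_one v
  map_mul' a b := by
    apply Multiplicative.toAdd.injective
    ext v
    exact iord_mul v a b

theorem ideleDiv_apply (a : (FiniteAdeleRing (𝓞 K) K)ˣ) (v : HeightOneSpectrum (𝓞 K)) :
    (ideleDiv a).toAdd v = iord v a := rfl

theorem ideleDiv_principal (x : Kˣ) :
    ideleDiv (FiniteAdeleRing.unitEmbedding (𝓞 K) K x) = Multiplicative.ofAdd (div x) := by
  apply Multiplicative.toAdd.injective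
  ext v
  exact iord_principal v x

variable (K) in
/-- The group of unit finite ideles `∏_v 𝓞_vˣ`. -/
def unitIdeles : Subgroup (FiniteAdeleRing (𝓞 K) K)ˣ where
  carrier := {a | ∀ v, Valued.v ((a : FiniteAdeleRing (𝓞 K) K) v) = 1}
  one_mem' v := map_one (Valued.v : Valuation (v.adicCompletion K) ℤᵐ⁰)
  mul_mem' {a b} ha hb v := by
    have h := iord_mul v a b
    rw [← iord_eq_zero_iff, h, (iord_eq_zero_iff v a).mpr (ha v), (iord_eq_zero_iff v b).mpr (hb v),
      add_zero]
  inv_mem' {a} ha v := by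
    have h := iord_mul v a a⁻¹
    rw [mul_inv_cancel, iord_one, (iord_eq_zero_iff v a).mpr (ha v), zero_add] at h
    rw [← iord_eq_zero_iff, ← h]

theorem mem_unitIdeles {a : (FiniteAdeleRing (𝓞 K) K)ˣ} :
    a ∈ unitIdeles K ↔ ∀ v, Valued.v ((a : FiniteAdeleRing (𝓞 K) K) v) = 1 := Iff.rfl

variable (K) in
/-- The group of principal finite ideles. -/
def principalIdeles : Subgroup (FiniteAdeleRing (𝓞 K) K)ˣ :=
  (FiniteAdeleRing.unitEmbedding (𝓞 K) K).range

variable (K) in
/-- The kernel of the divisor map is the group of unit ideles. -/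
theorem ker_ideleDiv : (ideleDiv (K := K)).ker = unitIdeles K := by
  ext a
  rw [MonoidHom.mem_ker, mem_unitIdeles]
  constructor
  · intro h v
    rw [← iord_eq_zero_iff, ← ideleDiv_apply, h]
    rfl
  · intro h
    apply Multiplicative.toAdd.injective
    ext v
    exact (iord_eq_zero_iff v a).mpr (h v)

variable (K) in
/-- Every divisor is the divisor of a finite idele. -/
theorem surjective_ideleDiv : Function.Surjective (ideleDiv (K := K)) := by
  intro D
  choose π hπ using fun v : HeightOneSpectrum (𝓞 K) => v.valuation_exists_uniformizer K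
  set x : ∀ v : HeightOneSpectrum (𝓞 K), v.adicCompletion K :=
    fun v => ι v (π v) ^ (D.toAdd v) with hx
  have hv : ∀ v, Valued.v (x v) = exp (-(D.toAdd v)) := by
    intro v
    rw [hx]
    simp only
    rw [map_zpow₀, v_ι, hπ, ← exp_zsmul, smul_neg, smul_eq_mul, mul_one]
  have hne : ∀ v, x v ≠ 0 := by
    intro v h
    have h1 := hv v
    rw [h, map_zero] at h1
    exact exp_ne_zero h1.symm
  have hfin : ∀ᶠ v in cofinite, Valued.v (x v) = 1 := by
    rw [Filter.eventually_cofinite]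
    refine D.toAdd.hasFiniteSupport.subset fun v h => ?_
    rw [Finsupp.fun_support_eq, Finset.mem_coe, Finsupp.mem_support_iff]
    intro h0
    refine h ?_
    rw [hv, h0, neg_zero, exp_zero]
  let a : FiniteAdeleRing (𝓞 K) K := ⟨x, hfin.mono fun v h => h.le⟩
  have ha : IsUnit a := FiniteAdeleRing.isUnit_iff.mpr ⟨hne, hfin⟩
  obtain ⟨u, hu⟩ := ha
  refine ⟨u, ?_⟩
  apply Multiplicative.toAdd.injective
  ext v
  rw [ideleDiv_apply, iord, hu]
  change -log (Valued.v (x v)) = _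
  rw [hv, log_exp, neg_neg]

variable (K) in
/-- The ideal class of a finite idele. -/
def ideleClass : (FiniteAdeleRing (𝓞 K) K)ˣ →* ClassGroup (𝓞 K) := classOf.comp ideleDiv

variable (K) in
theorem surjective_ideleClass : Function.Surjective (ideleClass K) :=
  Fermat.Agent.CFT.SUnits.classOf_surjective.comp (surjective_ideleDiv K)

theorem ideleClass_principal (x : Kˣ) :
    ideleClass K (FiniteAdeleRing.unitEmbedding (𝓞 K) K x) = 1 := by
  rw [ideleClass, MonoidHom.comp_apply, Fermat.Agent.CFT.SUnits.classOf_eq_one_iff]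
  exact ⟨x, by rw [ideleDiv_principal]; rfl⟩

theorem ideleClass_unit {a : (FiniteAdeleRing (𝓞 K) K)ˣ} (ha : a ∈ unitIdeles K) :
    ideleClass K a = 1 := by
  rw [← ker_ideleDiv, MonoidHom.mem_ker] at ha
  rw [ideleClass, MonoidHom.comp_apply, ha, map_one]

theorem ideleClass_eq_one_iff {a : (FiniteAdeleRing (𝓞 K) K)ˣ} :
    ideleClass K a = 1 ↔ ∃ (x : Kˣ), ∃ u ∈ unitIdeles K,
      a = FiniteAdeleRing.unitEmbedding (𝓞 K) K x * u := by
  constructor
  · intro h
    rw [ideleClass, MonoidHom.comp_apply, Fermat.Agent.CFT.SUnits.classOf_eq_one_iff] at h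
    obtain ⟨x, hx⟩ := h
    refine ⟨x, (FiniteAdeleRing.unitEmbedding (𝓞 K) K x)⁻¹ * a, ?_, by
      rw [mul_inv_cancel_left]⟩
    rw [← ker_ideleDiv, MonoidHom.mem_ker, map_mul, map_inv, ideleDiv_principal, hx, ofAdd_toAdd,
      inv_mul_cancel]
  · rintro ⟨x, u, hu, rfl⟩
    rw [map_mul, ideleClass_principal, ideleClass_unit hu, one_mul]

variable (K) in
/-- The kernel of `𝔸_fˣ → Cl(K)` is `Kˣ · ∏ 𝓞_vˣ`. -/
theorem ker_ideleClass : (ideleClass K).ker = principalIdeles K ⊔ unitIdeles K := by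
  ext a
  rw [MonoidHom.mem_ker, ideleClass_eq_one_iff, Subgroup.mem_sup]
  constructor
  · rintro ⟨x, u, hu, rfl⟩
    exact ⟨_, ⟨x, rfl⟩, u, hu, rfl⟩
  · rintro ⟨_, ⟨x, rfl⟩, u, hu, rfl⟩
    exact ⟨x, u, hu, rfl⟩

variable (K) in
/-- **`𝔸_fˣ / (Kˣ · ∏ 𝓞_vˣ)` is the ideal class group of `K`.** -/
def ideleClassEquiv :
    (FiniteAdeleRing (𝓞 K) K)ˣ ⧸ (principalIdeles K ⊔ unitIdeles K) ≃* ClassGroup (𝓞 K) :=
  (QuotientGroup.quotientMulEquivOfEq (ker_ideleClass K).symm).trans
    (QuotientGroup.quotientKerEquivOfSurjective (ideleClass K) (surjective_ideleClass K))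

theorem ideleClassEquiv_mk (a : (FiniteAdeleRing (𝓞 K) K)ˣ) :
    ideleClassEquiv K (QuotientGroup.mk a) = ideleClass K a := rfl

variable (K) in
/-- `|𝔸_fˣ / (Kˣ · ∏ 𝓞_vˣ)|` is the class number of `K`. -/
theorem index_principal_sup_unit : (principalIdeles K ⊔ unitIdeles K).index = classNumber K := by
  rw [Subgroup.index, Nat.card_congr (ideleClassEquiv K).toEquiv, Nat.card_eq_fintype_card]
  rfl

end Fermat.Agent.Cor.Adele
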