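import Fermat.Agent.Corollaries.Adele.Quot
import Fermat.Agent.Corollaries.Adele.Idele

/-!
# `GL_n(K) \ GL_n(𝔸_f) / GL_n(𝓞̂)` is the ideal class group

`K` a number field, `𝔸_f` its ring of finite adeles, `𝓞̂ = ∏ 𝓞_v` the ring of integral finite
adeles, `n ≥ 1`.

* `mem_doubleCoset_iff` : `h ∈ GL_n(K) g GL_n(𝓞̂)` if and only if the ideal classes of `det g` and
  `det h` agree.
* `doubleCosetEquiv` : **`GL_n(K) \ GL_n(𝔸_f) / GL_n(𝓞̂) ≃ Cl(K)`**, `g ↦` the class of `det g`.
* `card_doubleCoset` : the number of double cosets is the class number.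
-/

set_option autoImplicit false

open NumberField IsDedekindDomain HeightOneSpectrum WithZero Filter Topology RestrictedProduct
open Matrix
open scoped WithZero

noncomputable section

namespace Fermat.Agent.Cor.Adele

open Fermat.Agent.LT.Loc

variable (K : Type*) [Field K] [NumberField K]

/-- The ring `𝓞̂ = ∏ 𝓞_v` of integral finite adeles. -/
def intAdeles : Subring (FiniteAdeleRing (𝓞 K) K) where
  carrier := finInt K
  one_mem' v := (map_one (Valued.v : Valuation (v.adicCompletion K) ℤᵐ⁰)).le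
  zero_mem' v := by
    change Valued.v (0 : v.adicCompletion K) ≤ 1
    rw [map_zero]
    exact zero_le_one
  mul_mem' {a b} ha hb v := by
    change Valued.v (a v * b v) ≤ 1
    rw [map_mul]
    exact mul_le_one' (ha v) (hb v)
  add_mem' {a b} ha hb v := (Valued.v.map_add (a v) (b v)).trans (max_le (ha v) (hb v))
  neg_mem' {a} ha v := by
    change Valued.v (-(a v)) ≤ 1
    rw [Valuation.map_neg]
    exact ha v

variable (n : Type*) [Fintype n] [DecidableEq n]

/-- `GL_n(K)` as a subgroup of `GL_n(𝔸_f)`. -/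
def glPrincipal : Subgroup (GL n (FiniteAdeleRing (𝓞 K) K)) :=
  (GeneralLinearGroup.map (n := n) (algebraMap K (FiniteAdeleRing (𝓞 K) K))).range

/-- `GL_n(𝓞̂)` as a subgroup of `GL_n(𝔸_f)`. -/
def glInt : Subgroup (GL n (FiniteAdeleRing (𝓞 K) K)) :=
  (GeneralLinearGroup.map (n := n) (intAdeles K).subtype).range

variable {K n}

theorem det_glPrincipal {g : GL n (FiniteAdeleRing (𝓞 K) K)} (hg : g ∈ glPrincipal K n) :
    GeneralLinearGroup.det g ∈ principalIdeles K := by
  obtain ⟨γ, rfl⟩ := hg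
  refine ⟨GeneralLinearGroup.det γ, ?_⟩
  apply Units.ext
  change algebraMap K (FiniteAdeleRing (𝓞 K) K) (γ : Matrix n n K).det =
    ((γ : Matrix n n K).map (algebraMap K (FiniteAdeleRing (𝓞 K) K))).det
  rw [RingHom.map_det]
  rfl

theorem mem_unitIdeles_of_int {a : (FiniteAdeleRing (𝓞 K) K)ˣ}
    (h1 : (a : FiniteAdeleRing (𝓞 K) K) ∈ finInt K)
    (h2 : ((a⁻¹ : (FiniteAdeleRing (𝓞 K) K)ˣ) : FiniteAdeleRing (𝓞 K) K) ∈ finInt K) :
    a ∈ unitIdeles K := by
  intro v
  refine le_antisymm (h1 v) ?_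
  have h3 : iord v a + iord v a⁻¹ = 0 := by rw [← iord_mul, mul_inv_cancel, iord_one]
  have h4 := h2 v
  rw [valued_eq_exp, ← exp_zero, exp_le_exp] at h4
  rw [valued_eq_exp, ← exp_zero, exp_le_exp]
  omega

theorem det_glInt {g : GL n (FiniteAdeleRing (𝓞 K) K)} (hg : g ∈ glInt K n) :
    GeneralLinearGroup.det g ∈ unitIdeles K := by
  obtain ⟨κ, rfl⟩ := hg
  have h : ∀ κ : GL n (intAdeles K), ((GeneralLinearGroup.det
      (GeneralLinearGroup.map (n := n) (intAdeles K).subtype κ) : (FiniteAdeleRing (𝓞 K) K)ˣ) :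
      FiniteAdeleRing (𝓞 K) K) ∈ finInt K := by
    intro κ
    have h1 : ((GeneralLinearGroup.det (GeneralLinearGroup.map (n := n) (intAdeles K).subtype κ) :
        (FiniteAdeleRing (𝓞 K) K)ˣ) : FiniteAdeleRing (𝓞 K) K) =
        (intAdeles K).subtype (κ : Matrix n n (intAdeles K)).det := by
      rw [RingHom.map_det]
      rfl
    rw [h1]
    exact ((κ : Matrix n n (intAdeles K)).det).2
  refine mem_unitIdeles_of_int (h κ) ?_
  have h2 := h κ⁻¹
  rw [map_inv, map_inv] at h2
  exact h2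

/-- The matrix `diag(1, .., a, .., 1)` with `a` at the place `i`. -/
def diagAt {R : Type*} [CommRing R] (i : n) (a : Rˣ) : GL n R where
  val := diagonal fun j => if j = i then (a : R) else 1
  inv := diagonal fun j => if j = i then ((a⁻¹ : Rˣ) : R) else 1
  val_inv := by
    rw [diagonal_mul_diagonal, ← diagonal_one]
    congr 1
    funext j
    by_cases h : j = i
    · rw [if_pos h, if_pos h, Units.mul_inv]
    · rw [if_neg h, if_neg h, mul_one]
  inv_val := by
    rw [diagonal_mul_diagonal, ← diagonal_one]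
    congr 1
    funext j
    by_cases h : j = i
    · rw [if_pos h, if_pos h, Units.inv_mul]
    · rw [if_neg h, if_neg h, mul_one]

theorem det_diagAt {R : Type*} [CommRing R] (i : n) (a : Rˣ) :
    GeneralLinearGroup.det (diagAt i a) = a := by
  apply Units.ext
  change (diagonal fun j => if j = i then (a : R) else 1).det = a
  rw [det_diagonal, Finset.prod_ite_eq' Finset.univ i, if_pos (Finset.mem_univ i)]

theorem map_diagAt {R R' : Type*} [CommRing R] [CommRing R'] (f : R →+* R') (i : n) (a : Rˣ) :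
    GeneralLinearGroup.map (n := n) f (diagAt i a) = diagAt i (Units.map (f : R →* R') a) := by
  apply Units.ext
  change (diagonal fun j => if j = i then (a : R) else 1).map f =
    diagonal fun j => if j = i then f (a : R) else 1
  rw [diagonal_map (map_zero f)]
  congr 1
  funext j
  by_cases h : j = i
  · simp [h]
  · simp [h]

theorem diagAt_mem_glPrincipal (i : n) (x : Kˣ) :
    diagAt i (FiniteAdeleRing.unitEmbedding (𝓞 K) K x) ∈ glPrincipal K n :=
  ⟨diagAt i x, map_diagAt _ i x⟩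

theorem diagAt_mem_glInt (i : n) {u : (FiniteAdeleRing (𝓞 K) K)ˣ} (hu : u ∈ unitIdeles K) :
    diagAt i u ∈ glInt K n := by
  have hu' : u⁻¹ ∈ unitIdeles K := inv_mem hu
  let w : (intAdeles K)ˣ := ⟨⟨u, fun v => (hu v).le⟩, ⟨(u⁻¹ : (FiniteAdeleRing (𝓞 K) K)ˣ),
    fun v => (hu' v).le⟩, Subtype.ext (Units.mul_inv u), Subtype.ext (Units.inv_mul u)⟩
  exact ⟨diagAt i w, (map_diagAt _ i w).trans (congrArg (diagAt i) (Units.ext rfl))⟩

/-- A matrix of determinant `1` with integral entries lies in `GL_n(𝓞̂)`. -/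
theorem mem_glInt_of_det_one {g : GL n (FiniteAdeleRing (𝓞 K) K)}
    (h : ∀ i j, (g : Matrix n n (FiniteAdeleRing (𝓞 K) K)) i j ∈ finInt K)
    (hdet : (g : Matrix n n (FiniteAdeleRing (𝓞 K) K)).det = 1) : g ∈ glInt K n := by
  let T : Matrix n n (intAdeles K) := Matrix.of fun i j => ⟨_, h i j⟩
  have hT : T.map (intAdeles K).subtype = (g : Matrix n n (FiniteAdeleRing (𝓞 K) K)) := by
    ext i j
    rfl
  have hd : T.det = 1 := by
    apply Subtype.ext
    change (intAdeles K).subtype T.det = 1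
    rw [RingHom.map_det]
    change (T.map (intAdeles K).subtype).det = 1
    rw [hT, hdet]
  refine ⟨GeneralLinearGroup.mk'' T (by rw [hd]; exact isUnit_one), ?_⟩
  apply Units.ext
  exact hT

/-- The subgroup of `SL_n(𝔸_f)` of matrices `s` with `g⁻¹ s g ∈ GL_n(𝓞̂)`. -/
def conjInt (g : GL n (FiniteAdeleRing (𝓞 K) K)) :
    Subgroup (Matrix.SpecialLinearGroup n (FiniteAdeleRing (𝓞 K) K)) :=
  (glInt K n).comap ((MulAut.conj g⁻¹).toMonoidHom.comp
    (Matrix.SpecialLinearGroup.toGL : Matrix.SpecialLinearGroup n (FiniteAdeleRing (𝓞 K) K) →* _))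

theorem isOpen_conjInt (g : GL n (FiniteAdeleRing (𝓞 K) K)) :
    IsOpen (conjInt g : Set (Matrix.SpecialLinearGroup n (FiniteAdeleRing (𝓞 K) K))) := by
  have h1 : (conjInt g : Set (Matrix.SpecialLinearGroup n (FiniteAdeleRing (𝓞 K) K))) =
      ⋂ i, ⋂ j, {s : Matrix.SpecialLinearGroup n (FiniteAdeleRing (𝓞 K) K) | (((g⁻¹ : GL n (FiniteAdeleRing (𝓞 K) K)) :
        Matrix n n (FiniteAdeleRing (𝓞 K) K)) * (s : Matrix n n (FiniteAdeleRing (𝓞 K) K)) *
          (g : Matrix n n (FiniteAdeleRing (𝓞 K) K))) i j ∈ finInt K} := by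
    ext s
    rw [Set.mem_iInter]
    simp only [Set.mem_iInter]
    have h2 : (((MulAut.conj g⁻¹) (Matrix.SpecialLinearGroup.toGL s) :
        GL n (FiniteAdeleRing (𝓞 K) K)) : Matrix n n (FiniteAdeleRing (𝓞 K) K)) =
        ((g⁻¹ : GL n (FiniteAdeleRing (𝓞 K) K)) :
        Matrix n n (FiniteAdeleRing (𝓞 K) K)) * (s : Matrix n n (FiniteAdeleRing (𝓞 K) K)) *
          (g : Matrix n n (FiniteAdeleRing (𝓞 K) K)) := by
      rw [MulAut.conj_apply, inv_inv]
      rfl
    constructor
    · rintro ⟨κ, hκ⟩ i j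
      change _ ∈ finInt K
      rw [← h2]
      change ((((MulAut.conj g⁻¹).toMonoidHom.comp Matrix.SpecialLinearGroup.toGL) s :
        GL n (FiniteAdeleRing (𝓞 K) K)) : Matrix n n (FiniteAdeleRing (𝓞 K) K)) i j ∈ finInt K
      rw [← hκ]
      exact ((κ : Matrix n n (intAdeles K)) i j).2
    · intro h
      refine mem_glInt_of_det_one (fun i j => ?_) ?_
      · have h3 := h i j
        change _ ∈ finInt K at h3
        rw [← h2] at h3
        exact h3
      · change (((MulAut.conj g⁻¹) (Matrix.SpecialLinearGroup.toGL s) :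
          GL n (FiniteAdeleRing (𝓞 K) K)) : Matrix n n (FiniteAdeleRing (𝓞 K) K)).det = 1
        rw [h2, det_mul, det_mul, Matrix.SpecialLinearGroup.det_coe, mul_one, ← det_mul,
          ← Units.val_mul, inv_mul_cancel, Units.val_one, det_one]
  rw [h1]
  refine isOpen_iInter_of_finite fun i => isOpen_iInter_of_finite fun j => ?_
  refine (isOpen_finInt K).preimage ?_
  have h2 : Continuous fun s : Matrix.SpecialLinearGroup n (FiniteAdeleRing (𝓞 K) K) =>
      ((g⁻¹ : GL n (FiniteAdeleRing (𝓞 K) K)) : Matrix n n (FiniteAdeleRing (𝓞 K) K)) *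
        (s : Matrix n n (FiniteAdeleRing (𝓞 K) K)) *
          (g : Matrix n n (FiniteAdeleRing (𝓞 K) K)) :=
    (continuous_const.mul continuous_subtype_val).mul continuous_const
  exact h2.matrix_elem i j

/-- Two matrices with the same determinant lie in the same double coset. -/
theorem exists_of_det_eq {g h : GL n (FiniteAdeleRing (𝓞 K) K)}
    (hd : GeneralLinearGroup.det g = GeneralLinearGroup.det h) :
    ∃ γ ∈ glPrincipal K n, ∃ κ ∈ glInt K n, h = γ * g * κ := by
  have hdet : ((h * g⁻¹ : GL n (FiniteAdeleRing (𝓞 K) K)) :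
      Matrix n n (FiniteAdeleRing (𝓞 K) K)).det = 1 := by
    have h1 : GeneralLinearGroup.det (h * g⁻¹) = 1 := by
      rw [map_mul, map_inv, hd, mul_inv_cancel]
    exact congrArg Units.val h1
  obtain ⟨γ, u, hu, hs⟩ := exists_mul_mem (conjInt g) (isOpen_conjInt g)
    ⟨((h * g⁻¹ : GL n (FiniteAdeleRing (𝓞 K) K)) : Matrix n n (FiniteAdeleRing (𝓞 K) K)), hdet⟩
  have hs' : h * g⁻¹ = Matrix.SpecialLinearGroup.toGL
      (Matrix.SpecialLinearGroup.map (algebraMap K (FiniteAdeleRing (𝓞 K) K)) γ) *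
        Matrix.SpecialLinearGroup.toGL u := by
    rw [← map_mul, ← hs]
    exact Units.ext rfl
  refine ⟨Matrix.SpecialLinearGroup.toGL
    (Matrix.SpecialLinearGroup.map (algebraMap K (FiniteAdeleRing (𝓞 K) K)) γ),
    ⟨Matrix.SpecialLinearGroup.toGL γ, Units.ext rfl⟩, g⁻¹ * Matrix.SpecialLinearGroup.toGL u * g,
    ?_, ?_⟩
  · have h2 : (MulAut.conj g⁻¹) (Matrix.SpecialLinearGroup.toGL u) ∈ glInt K n := hu
    rw [MulAut.conj_apply, inv_inv] at h2
    exact h2
  · have h3 : h = h * g⁻¹ * g := by group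
    rw [h3, hs']
    group

/-- `h ∈ GL_n(K) g GL_n(𝓞̂)` if and only if the ideal classes of `det g` and `det h` agree. -/
theorem mem_doubleCoset_iff [Nonempty n] {g h : GL n (FiniteAdeleRing (𝓞 K) K)} :
    (∃ γ ∈ glPrincipal K n, ∃ κ ∈ glInt K n, h = γ * g * κ) ↔
      ideleClass K (GeneralLinearGroup.det g) = ideleClass K (GeneralLinearGroup.det h) := by
  constructor
  · rintro ⟨γ, hγ, κ, hκ, rfl⟩
    obtain ⟨x, hx⟩ := det_glPrincipal hγ
    rw [map_mul, map_mul, map_mul, map_mul, ← hx, ideleClass_principal,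
      ideleClass_unit (det_glInt hκ), one_mul, mul_one]
  · intro hcl
    obtain ⟨i⟩ : Nonempty n := inferInstance
    have h1 : ideleClass K (GeneralLinearGroup.det h * (GeneralLinearGroup.det g)⁻¹) = 1 := by
      rw [map_mul, map_inv, hcl, mul_inv_cancel]
    obtain ⟨x, u, hu, h2⟩ := ideleClass_eq_one_iff.mp h1
    have h3 : GeneralLinearGroup.det
        (diagAt i (FiniteAdeleRing.unitEmbedding (𝓞 K) K x) * g * diagAt i u) =
        GeneralLinearGroup.det h := by
      rw [map_mul, map_mul, det_diagAt, det_diagAt]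
      have h4 : GeneralLinearGroup.det h = FiniteAdeleRing.unitEmbedding (𝓞 K) K x * u *
          GeneralLinearGroup.det g := by
        rw [← h2, inv_mul_cancel_right]
      rw [h4]
      exact mul_right_comm _ _ _
    obtain ⟨γ, hγ, κ, hκ, h5⟩ := exists_of_det_eq h3
    refine ⟨γ * diagAt i (FiniteAdeleRing.unitEmbedding (𝓞 K) K x),
      mul_mem hγ (diagAt_mem_glPrincipal i x), diagAt i u * κ,
      mul_mem (diagAt_mem_glInt i hu) hκ, ?_⟩
    rw [h5]
    group

variable (K n)

/-- **`GL_n(K) \ GL_n(𝔸_f) / GL_n(𝓞̂)` is the ideal class group**, for `n ≥ 1`. -/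
def doubleCosetEquiv [Nonempty n] :
    DoubleCoset.Quotient (glPrincipal K n : Set (GL n (FiniteAdeleRing (𝓞 K) K)))
      (glInt K n : Set (GL n (FiniteAdeleRing (𝓞 K) K))) ≃ ClassGroup (𝓞 K) :=
  Equiv.ofBijective
    (Quotient.lift (fun g : GL n (FiniteAdeleRing (𝓞 K) K) =>
      ideleClass K (GeneralLinearGroup.det g)) fun g h hgh =>
        mem_doubleCoset_iff.mp (DoubleCoset.rel_iff.mp hgh))
    (by
      constructor
      · intro a b
        refine Quotient.inductionOn₂ a b fun g h hgh => ?_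
        exact Quotient.sound (DoubleCoset.rel_iff.mpr (mem_doubleCoset_iff.mpr hgh))
      · intro c
        obtain ⟨a, rfl⟩ := surjective_ideleClass K c
        obtain ⟨i⟩ : Nonempty n := inferInstance
        refine ⟨Quotient.mk _ (diagAt i a), ?_⟩
        change ideleClass K (GeneralLinearGroup.det (diagAt i a)) = _
        rw [det_diagAt])

theorem doubleCosetEquiv_mk [Nonempty n] (g : GL n (FiniteAdeleRing (𝓞 K) K)) :
    doubleCosetEquiv K n (DoubleCoset.mk (glPrincipal K n) (glInt K n) g) =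
      ideleClass K (GeneralLinearGroup.det g) := rfl

/-- **The number of double cosets `GL_n(K) g GL_n(𝓞̂)` is the class number of `K`**, `n ≥ 1`. -/
theorem card_doubleCoset [Nonempty n] :
    Nat.card (DoubleCoset.Quotient (glPrincipal K n : Set (GL n (FiniteAdeleRing (𝓞 K) K)))
      (glInt K n : Set (GL n (FiniteAdeleRing (𝓞 K) K)))) = classNumber K := by
  rw [Nat.card_congr (doubleCosetEquiv K n), Nat.card_eq_fintype_card]
  rfl

end Fermat.Agent.Cor.Adele
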