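import Fermat.Agent.Corollaries.Adele.AutForm
import Fermat.Prelude.Def_ModularForm_HeckeOperator

/-!
# The Hecke operators as double cosets

Let `U` be a subgroup of `GL₂(𝔸_f)` and `α ∈ GL₂(𝔸_f)` such that `U α U / U` is finite (this is so
if `U` is compact and open, `finite_cosetsIn`). The Hecke operator `[U α U]` on the adelic modular
forms of level `U` is `(T F)(g) = ∑ F (g κ)`, the sum over the cosets `κ U ⊆ U α U`.

`heckeOp_T`, `heckeOp_U` : for `U = K₀(N)` and `α = diag(1, p)⁻¹`, `p` a prime number, the operator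
`[U α U]` becomes under `F ↦ F 1` the classical Hecke operator `T_p` if `p ∤ N`, and `U_p` if
`p ∣ N`.
-/

set_option autoImplicit false

open NumberField IsDedekindDomain HeightOneSpectrum WithZero Filter Topology RestrictedProduct
open Matrix UpperHalfPlane
open scoped WithZero MatrixGroups ModularForm Manifold

noncomputable section

namespace Fermat.Agent.Cor.Adele

/-- The ring of finite adeles of `ℚ`. -/
local notation "𝔸f" => FiniteAdeleRing (𝓞 ℚ) ℚ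

section General

/-- The set of the cosets `κ U` contained in `U α U`. -/
def cosetsIn (U : Subgroup (GL (Fin 2) 𝔸f)) (α : GL (Fin 2) 𝔸f) : Set (GL (Fin 2) 𝔸f ⧸ U) :=
  MulAction.orbit U (α : GL (Fin 2) 𝔸f ⧸ U)

variable {U : Subgroup (GL (Fin 2) 𝔸f)} {k : ℤ} {α : GL (Fin 2) 𝔸f}

theorem mem_cosetsIn {κ : GL (Fin 2) 𝔸f} :
    (κ : GL (Fin 2) 𝔸f ⧸ U) ∈ cosetsIn U α ↔ ∃ u ∈ U, ∃ u' ∈ U, κ = u * α * u' := by
  constructor
  · rintro ⟨u, hu⟩
    have h1 : ((u * α : GL (Fin 2) 𝔸f) : GL (Fin 2) 𝔸f ⧸ U) = κ := hu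
    exact ⟨u, u.2, (u * α)⁻¹ * κ, QuotientGroup.eq.mp h1, by group⟩
  · rintro ⟨u, hu, u', hu', rfl⟩
    refine ⟨⟨u, hu⟩, ?_⟩
    change ((u * α : GL (Fin 2) 𝔸f) : GL (Fin 2) 𝔸f ⧸ U) = _
    rw [QuotientGroup.eq]
    rw [inv_mul_cancel_left]
    exact hu'

/-- `U α U / U` is finite if `U` is compact and open. -/
theorem finite_cosetsIn (hU : IsOpen (U : Set (GL (Fin 2) 𝔸f)))
    (hc : IsCompact (U : Set (GL (Fin 2) 𝔸f))) (α : GL (Fin 2) 𝔸f) :
    (cosetsIn U α).Finite := by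
  have : DiscreteTopology (GL (Fin 2) 𝔸f ⧸ U) := QuotientGroup.discreteTopology hU
  have h : cosetsIn U α = (fun u : GL (Fin 2) 𝔸f => ((u * α : GL (Fin 2) 𝔸f) :
      GL (Fin 2) 𝔸f ⧸ U)) '' (U : Set (GL (Fin 2) 𝔸f)) := by
    ext x
    constructor
    · rintro ⟨u, rfl⟩
      exact ⟨u, u.2, rfl⟩
    · rintro ⟨u, hu, rfl⟩
      exact ⟨⟨u, hu⟩, rfl⟩
  rw [h]
  exact (hc.image (QuotientGroup.continuous_mk.comp
    (continuous_id.mul continuous_const))).finite_of_discrete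

/-- The sum over the cosets in `U α U`. -/
def heckeFun (h : (cosetsIn U α).Finite) (F : GL (Fin 2) 𝔸f → ℍ → ℂ) (g : GL (Fin 2) 𝔸f) :
    ℍ → ℂ :=
  ∑ x ∈ h.toFinset, F (g * Quotient.out x)

theorem IsAdelic.out {F : GL (Fin 2) 𝔸f → ℍ → ℂ} (hF : IsAdelic U k F) (g κ : GL (Fin 2) 𝔸f) :
    F (g * Quotient.out (κ : GL (Fin 2) 𝔸f ⧸ U)) = F (g * κ) := by
  obtain ⟨u, hu⟩ := QuotientGroup.mk_out_eq_mul U κ
  rw [hu, ← mul_assoc]
  exact hF.right _ _ u.2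

theorem IsAdelic.hecke (h : (cosetsIn U α).Finite) {F : GL (Fin 2) 𝔸f → ℍ → ℂ}
    (hF : IsAdelic U k F) : IsAdelic U k (heckeFun h F) := by
  constructor
  · intro γ hγ g
    rw [heckeFun, heckeFun, SlashAction.sum_slash]
    refine Finset.sum_congr rfl fun x _ => ?_
    rw [mul_assoc, hF.left γ hγ]
  · intro g u hu
    rw [heckeFun, heckeFun]
    refine Finset.sum_equiv (MulAction.toPerm (⟨u, hu⟩ : U)) (fun x => ?_) fun x _ => ?_
    · rw [Set.Finite.mem_toFinset, Set.Finite.mem_toFinset]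
      constructor
      · intro hx
        exact MulAction.mapsTo_smul_orbit (⟨u, hu⟩ : U) _ hx
      · intro hx
        have h2 := MulAction.mapsTo_smul_orbit (⟨u, hu⟩ : U)⁻¹ _ hx
        change (⟨u, hu⟩ : U)⁻¹ • (⟨u, hu⟩ : U) • x ∈ _ at h2
        rwa [inv_smul_smul] at h2
    · have h1 : (MulAction.toPerm (⟨u, hu⟩ : U) x : GL (Fin 2) 𝔸f ⧸ U) =
          ((u * Quotient.out x : GL (Fin 2) 𝔸f) : GL (Fin 2) 𝔸f ⧸ U) := by
        conv_lhs => rw [← QuotientGroup.out_eq' x]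
        rfl
      rw [h1, hF.out, mul_assoc]

/-- **The Hecke operator `[U α U]`** on the adelic modular forms of level `U`. -/
def heckeOp (h : (cosetsIn U α).Finite) : adelicForms U k →ₗ[ℂ] adelicForms U k where
  toFun F := ⟨heckeFun h F.1, F.2.1.hecke h, fun g =>
    ⟨MDifferentiable.sum fun x _ => (F.2.2 _).1,
      (boundedFilterSubmodule ℂ atImInfty).sum_mem fun x _ => (F.2.2 _).2⟩⟩
  map_add' F G := by
    apply Subtype.ext
    funext g
    exact Finset.sum_add_distrib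
  map_smul' c F := by
    apply Subtype.ext
    funext g
    exact (Finset.smul_sum (r := c) (f := fun x => F.1 (g * Quotient.out x))
      (s := h.toFinset)).symm

/-- **The Hecke operator `[U α U]`** on the adelic cusp forms of level `U`. -/
def heckeCuspOp (h : (cosetsIn U α).Finite) : adelicCuspForms U k →ₗ[ℂ] adelicCuspForms U k where
  toFun F := ⟨heckeFun h F.1, F.2.1.hecke h, fun g =>
    ⟨MDifferentiable.sum fun x _ => (F.2.2 _).1,
      (zeroAtFilterSubmodule ℂ atImInfty).sum_mem fun x _ => (F.2.2 _).2⟩⟩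
  map_add' F G := by
    apply Subtype.ext
    funext g
    exact Finset.sum_add_distrib
  map_smul' c F := by
    apply Subtype.ext
    funext g
    exact (Finset.smul_sum (r := c) (f := fun x => F.1 (g * Quotient.out x))
      (s := h.toFinset)).symm

/-- The Hecke operator in terms of representatives of the cosets. -/
theorem heckeFun_eq {ι : Type*} (I : Finset ι) (κ : ι → GL (Fin 2) 𝔸f)
    (hinj : Set.InjOn (fun i => (κ i : GL (Fin 2) 𝔸f ⧸ U)) I)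
    (him : ∀ x, x ∈ cosetsIn U α ↔ ∃ i ∈ I, (κ i : GL (Fin 2) 𝔸f ⧸ U) = x)
    (h : (cosetsIn U α).Finite) {F : GL (Fin 2) 𝔸f → ℍ → ℂ} (hF : IsAdelic U k F)
    (g : GL (Fin 2) 𝔸f) : heckeFun h F g = ∑ i ∈ I, F (g * κ i) := by
  symm
  refine Finset.sum_bij (fun i _ => (κ i : GL (Fin 2) 𝔸f ⧸ U)) (fun i hi => ?_)
    (fun i hi j hj hij => hinj hi hj hij) (fun x hx => ?_) fun i _ => (hF.out g (κ i)).symm
  · rw [Set.Finite.mem_toFinset]
    exact (him _).mpr ⟨i, hi, rfl⟩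
  · obtain ⟨i, hi, hx'⟩ := (him x).mp ((Set.Finite.mem_toFinset h).mp hx)
    exact ⟨i, hi, hx'⟩

end General

/-! ### The double coset of `diag(1, p)` -/

section Explicit

/-- `Ẑ = ℤ + m Ẑ`. -/
theorem exists_int_add (m : ℕ) [NeZero m] {x : 𝔸f} (hx : x ∈ finInt ℚ) :
    ∃ n : ℤ, ∃ y ∈ finInt ℚ, x = (n : 𝔸f) + (m : 𝔸f) * y := by
  have hm : (m : ℚ) ≠ 0 := by exact_mod_cast NeZero.ne m
  have hm1 : (m : 𝔸f) * algebraMap ℚ 𝔸f (m : ℚ)⁻¹ = 1 := by
    rw [← map_natCast (algebraMap ℚ 𝔸f) m, ← map_mul, mul_inv_cancel₀ hm, map_one]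
  have ho : IsOpen {z : 𝔸f | algebraMap ℚ 𝔸f (m : ℚ)⁻¹ * (x - z) ∈ finInt ℚ} :=
    (isOpen_finInt ℚ).preimage (continuous_const.mul (continuous_const.sub continuous_id))
  obtain ⟨ξ, hξ⟩ := (denseRange_finiteAdele (K := ℚ)).exists_mem_open ho ⟨x, by
    change _ * (x - x) ∈ finInt ℚ
    rw [sub_self, mul_zero]
    exact (intAdeles ℚ).zero_mem⟩
  have h1 : x = algebraMap ℚ 𝔸f ξ + (m : 𝔸f) * (algebraMap ℚ 𝔸f (m : ℚ)⁻¹ *
      (x - algebraMap ℚ 𝔸f ξ)) := by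
    rw [← mul_assoc, hm1, one_mul, add_sub_cancel]
  have h2 : algebraMap ℚ 𝔸f ξ ∈ finInt ℚ := by
    have h3 : algebraMap ℚ 𝔸f ξ = x - (m : 𝔸f) * (algebraMap ℚ 𝔸f (m : ℚ)⁻¹ *
      (x - algebraMap ℚ 𝔸f ξ)) := eq_sub_of_add_eq h1.symm
    rw [h3]
    exact (intAdeles ℚ).sub_mem hx ((intAdeles ℚ).mul_mem (natCast_mem _ m) hξ)
  obtain ⟨n, hn⟩ := exists_int_of_mem_finInt h2
  refine ⟨n, _, hξ, ?_⟩
  rw [← map_intCast (algebraMap ℚ 𝔸f) n, hn]
  exact h1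

/-- `1 ∉ p Ẑ`. -/
theorem ne_natCast_mul {p : ℕ} (hp : p.Prime) {y : 𝔸f} (hy : y ∈ finInt ℚ) :
    (1 : 𝔸f) ≠ (p : 𝔸f) * y := by
  intro h
  have hp0 : (p : ℚ) ≠ 0 := by exact_mod_cast hp.ne_zero
  have h1 : algebraMap ℚ 𝔸f (p : ℚ)⁻¹ = y := by
    rw [← mul_one (algebraMap ℚ 𝔸f (p : ℚ)⁻¹), h, ← mul_assoc,
      ← map_natCast (algebraMap ℚ 𝔸f) p, ← map_mul, inv_mul_cancel₀ hp0, map_one, one_mul]
  obtain ⟨m, hm⟩ := exists_int_of_mem_finInt (x := (p : ℚ)⁻¹) (by rw [h1]; exact hy)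
  have h2 : (p : ℤ) * m = 1 := by
    have h3 : (p : ℚ) * m = 1 := by rw [hm, mul_inv_cancel₀ hp0]
    exact_mod_cast h3
  have h4 := Int.isUnit_iff.mp (IsUnit.of_mul_eq_one _ h2)
  have h5 := hp.two_le
  omega

/-- A matrix with integral entries whose determinant is a unit idele lies in `GL₂(Ẑ)`. -/
theorem mem_glInt_of_det_mem {g : GL (Fin 2) 𝔸f}
    (h : ∀ i j, (g : Matrix (Fin 2) (Fin 2) 𝔸f) i j ∈ finInt ℚ)
    (hdet : GeneralLinearGroup.det g ∈ unitIdeles ℚ) : g ∈ glInt ℚ (Fin 2) := by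
  have hD := diagAt_mem_glInt (n := Fin 2) 0 (inv_mem hdet)
  have h1 : g * diagAt 0 (GeneralLinearGroup.det g)⁻¹ ∈ glInt ℚ (Fin 2) := by
    refine mem_glInt_of_det_one (fun i j => ?_) ?_
    · rw [Units.val_mul, Matrix.mul_apply]
      exact (intAdeles ℚ).sum_mem fun l _ =>
        (intAdeles ℚ).mul_mem (h i l) ((mem_glInt_iff.mp hD).1 l j)
    · have h2 : GeneralLinearGroup.det (g * diagAt 0 (GeneralLinearGroup.det g)⁻¹) = 1 := by
        rw [map_mul, det_diagAt, mul_inv_cancel]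
      exact congrArg Units.val h2
  have h3 : g = g * diagAt 0 (GeneralLinearGroup.det g)⁻¹ *
      (diagAt 0 (GeneralLinearGroup.det g)⁻¹)⁻¹ := by rw [mul_inv_cancel_right]
  rw [h3]
  exact mul_mem h1 (inv_mem hD)

variable (p : ℕ) [hp : Fact p.Prime]

/-- The matrix `(1 j; 0 p)`. -/
def hq (j : ℕ) : GL (Fin 2) ℚ :=
  GeneralLinearGroup.mkOfDetNeZero !![1, (j : ℚ); 0, (p : ℚ)] (by
    rw [Matrix.det_fin_two_of, one_mul, mul_zero, sub_zero]
    exact_mod_cast hp.out.ne_zero)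

/-- The matrix `(p 0; 0 1)`. -/
def hd : GL (Fin 2) ℚ :=
  GeneralLinearGroup.mkOfDetNeZero !![(p : ℚ), 0; 0, 1] (by
    rw [Matrix.det_fin_two_of, mul_one, mul_zero, sub_zero]
    exact_mod_cast hp.out.ne_zero)

theorem glReal_hq (j : ℕ) : glReal (hq p j) = ModularForm.heckeMatrix p j := by
  apply Units.ext
  rw [ModularForm.val_heckeMatrix hp.out.ne_zero]
  change (!![1, (j : ℚ); 0, (p : ℚ)] : Matrix (Fin 2) (Fin 2) ℚ).map (algebraMap ℚ ℝ) = _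
  ext i l
  fin_cases i <;> fin_cases l <;> simp

theorem glReal_hd : glReal (hd p) = ModularForm.heckeDiagMatrix p := by
  apply Units.ext
  rw [ModularForm.val_heckeDiagMatrix hp.out.ne_zero]
  change (!![(p : ℚ), 0; 0, 1] : Matrix (Fin 2) (Fin 2) ℚ).map (algebraMap ℚ ℝ) = _
  ext i l
  fin_cases i <;> fin_cases l <;> simp

theorem det_hq_pos (j : ℕ) : 0 < (hq p j : Matrix (Fin 2) (Fin 2) ℚ).det := by
  change 0 < (!![1, (j : ℚ); 0, (p : ℚ)] : Matrix (Fin 2) (Fin 2) ℚ).det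
  rw [Matrix.det_fin_two_of, one_mul, mul_zero, sub_zero]
  exact_mod_cast hp.out.pos

theorem det_hd_pos : 0 < (hd p : Matrix (Fin 2) (Fin 2) ℚ).det := by
  change 0 < (!![(p : ℚ), 0; 0, 1] : Matrix (Fin 2) (Fin 2) ℚ).det
  rw [Matrix.det_fin_two_of, mul_one, mul_zero, sub_zero]
  exact_mod_cast hp.out.pos

theorem val_glFin_hq (j : ℕ) : (glFin (Fin 2) (hq p j) : Matrix (Fin 2) (Fin 2) 𝔸f) =
    !![1, (j : 𝔸f); 0, (p : 𝔸f)] := by
  change (!![1, (j : ℚ); 0, (p : ℚ)] : Matrix (Fin 2) (Fin 2) ℚ).map (algebraMap ℚ 𝔸f) = _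
  ext i l
  fin_cases i <;> fin_cases l <;> simp

theorem val_glFin_hd : (glFin (Fin 2) (hd p) : Matrix (Fin 2) (Fin 2) 𝔸f) =
    !![(p : 𝔸f), 0; 0, 1] := by
  change (!![(p : ℚ), 0; 0, 1] : Matrix (Fin 2) (Fin 2) ℚ).map (algebraMap ℚ 𝔸f) = _
  ext i l
  fin_cases i <;> fin_cases l <;> simp

omit hp in
theorem val_mul_inv_eq {R : Type*} [CommRing R] {Y B : GL (Fin 2) R}
    {M : Matrix (Fin 2) (Fin 2) R} (h : M * (B : Matrix (Fin 2) (Fin 2) R) = Y) :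
    ((Y * B⁻¹ : GL (Fin 2) R) : Matrix (Fin 2) (Fin 2) R) = M := by
  rw [Units.val_mul, ← h]
  exact Units.mul_inv_cancel_right M B

variable {p} in
/-- `(1 j; 0 p) u diag(1, p)⁻¹ ∈ K₀(N)` if `u = (a b; c d) ∈ K₀(N)` and `b + j d ∈ p Ẑ`. -/
theorem hq_mul_mem {N : ℕ} {u : GL (Fin 2) 𝔸f} (hu : u ∈ K0 N) (j : ℕ) {y : 𝔸f}
    (hy : y ∈ finInt ℚ) (h : (u : Matrix (Fin 2) (Fin 2) 𝔸f) 0 1 +
      (j : 𝔸f) * (u : Matrix (Fin 2) (Fin 2) 𝔸f) 1 1 = (p : 𝔸f) * y) :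
    glFin (Fin 2) (hq p j) * u * (glFin (Fin 2) (hq p 0))⁻¹ ∈ K0 N := by
  have hint := (mem_glInt_iff.mp hu.1).1
  have hdetu := det_glInt hu.1
  obtain ⟨-, w, hw, hcw⟩ := hu
  set a := (u : Matrix (Fin 2) (Fin 2) 𝔸f) 0 0 with ha
  set b := (u : Matrix (Fin 2) (Fin 2) 𝔸f) 0 1 with hb
  set c := (u : Matrix (Fin 2) (Fin 2) 𝔸f) 1 0 with hc
  set d := (u : Matrix (Fin 2) (Fin 2) 𝔸f) 1 1 with hd'
  have hu' : (u : Matrix (Fin 2) (Fin 2) 𝔸f) = !![a, b; c, d] := Matrix.eta_fin_two _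
  have hX : ((glFin (Fin 2) (hq p j) * u * (glFin (Fin 2) (hq p 0))⁻¹ : GL (Fin 2) 𝔸f) :
      Matrix (Fin 2) (Fin 2) 𝔸f) = !![a + j * c, y; p * c, d] := by
    refine val_mul_inv_eq ?_
    rw [Units.val_mul, val_glFin_hq, val_glFin_hq, hu', Matrix.mul_fin_two, Matrix.mul_fin_two]
    refine Matrix.ext fun i l => ?_
    fin_cases i <;> fin_cases l
    · simp
    · simp only [Nat.cast_zero, mul_zero, zero_add, one_mul]
      exact (mul_comm _ _).trans h.symm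
    · simp
    · simp only [Nat.cast_zero, mul_zero, zero_add, zero_mul]
      exact mul_comm _ _
  refine ⟨mem_glInt_of_det_mem (fun i l => ?_) ?_, p * w, (intAdeles ℚ).mul_mem
    (natCast_mem _ p) hw, ?_⟩
  · rw [hX]
    fin_cases i <;> fin_cases l
    · exact (intAdeles ℚ).add_mem (hint 0 0) ((intAdeles ℚ).mul_mem (natCast_mem _ j) (hint 1 0))
    · exact hy
    · exact (intAdeles ℚ).mul_mem (natCast_mem _ p) (hint 1 0)
    · exact hint 1 1
  · have h1 : GeneralLinearGroup.det (glFin (Fin 2) (hq p j)) =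
        GeneralLinearGroup.det (glFin (Fin 2) (hq p 0)) := by
      apply Units.ext
      change (glFin (Fin 2) (hq p j) : Matrix (Fin 2) (Fin 2) 𝔸f).det =
        (glFin (Fin 2) (hq p 0) : Matrix (Fin 2) (Fin 2) 𝔸f).det
      rw [val_glFin_hq, val_glFin_hq, Matrix.det_fin_two_of, Matrix.det_fin_two_of]
      ring
    rw [map_mul, map_mul, map_inv, h1, mul_comm (GeneralLinearGroup.det (glFin (Fin 2) (hq p 0))),
      mul_inv_cancel_right]
    exact hdetu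
  · rw [hX]
    change (p : 𝔸f) * c = _
    rw [hcw]
    ring

variable {p} in
/-- `(p 0; 0 1) u diag(1, p)⁻¹ ∈ K₀(N)` if `u = (a b; c d) ∈ K₀(N)` and `d ∈ p Ẑ`. -/
theorem hd_mul_mem {N : ℕ} {u : GL (Fin 2) 𝔸f} (hu : u ∈ K0 N) {y : 𝔸f}
    (hy : y ∈ finInt ℚ) (h : (u : Matrix (Fin 2) (Fin 2) 𝔸f) 1 1 = (p : 𝔸f) * y) :
    glFin (Fin 2) (hd p) * u * (glFin (Fin 2) (hq p 0))⁻¹ ∈ K0 N := by
  have hint := (mem_glInt_iff.mp hu.1).1
  have hdetu := det_glInt hu.1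
  obtain ⟨-, w, hw, hcw⟩ := hu
  set a := (u : Matrix (Fin 2) (Fin 2) 𝔸f) 0 0 with ha
  set b := (u : Matrix (Fin 2) (Fin 2) 𝔸f) 0 1 with hb
  set c := (u : Matrix (Fin 2) (Fin 2) 𝔸f) 1 0 with hc
  set d := (u : Matrix (Fin 2) (Fin 2) 𝔸f) 1 1 with hd'
  have hu' : (u : Matrix (Fin 2) (Fin 2) 𝔸f) = !![a, b; c, d] := Matrix.eta_fin_two _
  have hX : ((glFin (Fin 2) (hd p) * u * (glFin (Fin 2) (hq p 0))⁻¹ : GL (Fin 2) 𝔸f) :
      Matrix (Fin 2) (Fin 2) 𝔸f) = !![p * a, b; c, y] := by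
    refine val_mul_inv_eq ?_
    rw [Units.val_mul, val_glFin_hd, val_glFin_hq, hu', Matrix.mul_fin_two, Matrix.mul_fin_two]
    refine Matrix.ext fun i l => ?_
    fin_cases i <;> fin_cases l
    · simp
    · simp only [Nat.cast_zero, mul_zero, zero_add, zero_mul, add_zero]
      exact mul_comm _ _
    · simp
    · simp only [Nat.cast_zero, mul_zero, zero_add, zero_mul, one_mul]
      exact (mul_comm _ _).trans h.symm
  refine ⟨mem_glInt_of_det_mem (fun i l => ?_) ?_, w, hw, ?_⟩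
  · rw [hX]
    fin_cases i <;> fin_cases l
    · exact (intAdeles ℚ).mul_mem (natCast_mem _ p) (hint 0 0)
    · exact hint 0 1
    · exact hint 1 0
    · exact hy
  · have h1 : GeneralLinearGroup.det (glFin (Fin 2) (hd p)) =
        GeneralLinearGroup.det (glFin (Fin 2) (hq p 0)) := by
      apply Units.ext
      change (glFin (Fin 2) (hd p) : Matrix (Fin 2) (Fin 2) 𝔸f).det =
        (glFin (Fin 2) (hq p 0) : Matrix (Fin 2) (Fin 2) 𝔸f).det
      rw [val_glFin_hd, val_glFin_hq, Matrix.det_fin_two_of, Matrix.det_fin_two_of]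
      ring
    rw [map_mul, map_mul, map_inv, h1, mul_comm (GeneralLinearGroup.det (glFin (Fin 2) (hq p 0))),
      mul_inv_cancel_right]
    exact hdetu
  · rw [hX]
    exact hcw

/-- The representatives of the cosets: `(1 j; 0 p)⁻¹` and `(p 0; 0 1)⁻¹`. -/
def rep : Option ℕ → GL (Fin 2) 𝔸f
  | none => (glFin (Fin 2) (hd p))⁻¹
  | some j => (glFin (Fin 2) (hq p j))⁻¹

/-- Two cosets which are equal have the same index. -/
theorem rep_injOn {N : ℕ} {s t : Option ℕ} (hs : ∀ j ∈ s, j < p) (ht : ∀ j ∈ t, j < p)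
    (h : (rep p s : GL (Fin 2) 𝔸f ⧸ K0 N) = rep p t) : s = t := by
  have hp0 : (p : ℚ) ≠ 0 := by exact_mod_cast hp.out.ne_zero
  -- the entries of `rep s⁻¹ * rep t` are integral
  rw [QuotientGroup.eq] at h
  have hint := (mem_glInt_iff.mp h.1).1
  have key : ∀ (A B : GL (Fin 2) ℚ), (glFin (Fin 2) A)⁻¹⁻¹ * (glFin (Fin 2) B)⁻¹ ∈ K0 N →
      ∀ i l, ∃ m : ℤ, (m : ℚ) = ((A * B⁻¹ : GL (Fin 2) ℚ) : Matrix (Fin 2) (Fin 2) ℚ) i l := by
    intro A B hAB i l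
    rw [inv_inv, ← map_inv, ← map_mul] at hAB
    exact exists_int_of_mem_finInt ((mem_glInt_iff.mp hAB.1).1 i l)
  cases s with
  | none =>
    cases t with
    | none => rfl
    | some j =>
      exfalso
      obtain ⟨m, hm⟩ := key (hd p) (hq p j) h 1 1
      have h1 : ((hd p * (hq p j)⁻¹ : GL (Fin 2) ℚ) : Matrix (Fin 2) (Fin 2) ℚ) =
          !![(p : ℚ), -j; 0, (p : ℚ)⁻¹] := by
        refine val_mul_inv_eq ?_
        change !![(p : ℚ), -j; 0, (p : ℚ)⁻¹] * !![1, (j : ℚ); 0, (p : ℚ)] = !![(p : ℚ), 0; 0, 1]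
        rw [Matrix.mul_fin_two]
        ext i l
        fin_cases i <;> fin_cases l <;> simp [hp0]
        ring
      rw [h1] at hm
      have h2 : (p : ℤ) * m = 1 := by
        have h3 : (p : ℚ) * m = 1 := by
          rw [hm]
          exact mul_inv_cancel₀ hp0
        exact_mod_cast h3
      have h4 := Int.isUnit_iff.mp (IsUnit.of_mul_eq_one _ h2)
      have h5 := hp.out.two_le
      omega
  | some i =>
    cases t with
    | none =>
      exfalso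
      obtain ⟨m, hm⟩ := key (hq p i) (hd p) h 0 0
      have h1 : ((hq p i * (hd p)⁻¹ : GL (Fin 2) ℚ) : Matrix (Fin 2) (Fin 2) ℚ) =
          !![(p : ℚ)⁻¹, i; 0, (p : ℚ)] := by
        refine val_mul_inv_eq ?_
        change !![(p : ℚ)⁻¹, (i : ℚ); 0, (p : ℚ)] * !![(p : ℚ), 0; 0, 1] = !![1, (i : ℚ); 0, (p : ℚ)]
        rw [Matrix.mul_fin_two]
        ext i l
        fin_cases i <;> fin_cases l <;> simp [hp0]
      rw [h1] at hm
      have h2 : (p : ℤ) * m = 1 := by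
        have h3 : (p : ℚ) * m = 1 := by
          rw [hm]
          exact mul_inv_cancel₀ hp0
        exact_mod_cast h3
      have h4 := Int.isUnit_iff.mp (IsUnit.of_mul_eq_one _ h2)
      have h5 := hp.out.two_le
      omega
    | some j =>
      obtain ⟨m, hm⟩ := key (hq p i) (hq p j) h 0 1
      have h1 : ((hq p i * (hq p j)⁻¹ : GL (Fin 2) ℚ) : Matrix (Fin 2) (Fin 2) ℚ) =
          !![1, ((i : ℚ) - j) / p; 0, 1] := by
        refine val_mul_inv_eq ?_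
        change !![1, ((i : ℚ) - j) / p; 0, 1] * !![1, (j : ℚ); 0, (p : ℚ)] =
          !![1, (i : ℚ); 0, (p : ℚ)]
        rw [Matrix.mul_fin_two]
        ext i l
        fin_cases i <;> fin_cases l <;> simp [hp0]
      rw [h1] at hm
      have h2 : ((i : ℤ) - j) = p * m := by
        have h3 : ((i : ℚ) - j) = p * m := by
          rw [hm]
          change _ = (p : ℚ) * (((i : ℚ) - j) / p)
          field_simp
        exact_mod_cast h3
      have h4 := hs i rfl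
      have h5 := ht j rfl
      have h6 : m = 0 := by
        by_contra hm0
        rcases lt_or_gt_of_ne hm0 with h7 | h7
        · have h8 : (p : ℤ) * m ≤ p * (-1) := mul_le_mul_of_nonneg_left (by omega) (by omega)
          omega
        · have h8 : (p : ℤ) * 1 ≤ p * m := mul_le_mul_of_nonneg_left (by omega) (by omega)
          omega
      rw [h6, mul_zero] at h2
      congr 1
      omega

/-- The index set: `j < p`, and `none` if `p ∤ N`. -/
def repIdx (N : ℕ) : Finset (Option ℕ) :=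
  if p ∣ N then (Finset.range p).map Function.Embedding.some else (Finset.range p).insertNone

omit hp in
theorem mem_repIdx {N : ℕ} {s : Option ℕ} :
    s ∈ repIdx p N ↔ (∀ j ∈ s, j < p) ∧ (s = none → ¬ p ∣ N) := by
  unfold repIdx
  cases s with
  | none => by_cases h : p ∣ N <;> simp [h]
  | some j => by_cases h : p ∣ N <;> simp [h]

variable {p} in
/-- `p ∣ N`, `(a b; c d) ∈ K₀(N)` imply `d ∉ p Ẑ`. -/
theorem not_dvd_of_mem {N : ℕ} {u : GL (Fin 2) 𝔸f} (hu : u ∈ K0 N) {y : 𝔸f}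
    (hy : y ∈ finInt ℚ) (h : (u : Matrix (Fin 2) (Fin 2) 𝔸f) 1 1 = (p : 𝔸f) * y) : ¬ p ∣ N := by
  rintro ⟨M, rfl⟩
  have hint := (mem_glInt_iff.mp hu.1).1
  have hint' := (mem_glInt_iff.mp hu.1).2
  obtain ⟨-, w, hw, hcw⟩ := hu
  have h1 : ((u : Matrix (Fin 2) (Fin 2) 𝔸f) * ((u⁻¹ : GL (Fin 2) 𝔸f) :
      Matrix (Fin 2) (Fin 2) 𝔸f)) 1 1 = 1 := by
    rw [Units.mul_inv, Matrix.one_apply_eq]
  rw [Matrix.mul_apply, Fin.sum_univ_two, hcw, h, Nat.cast_mul] at h1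
  refine ne_natCast_mul hp.out (y := (M : 𝔸f) * w * ((u⁻¹ : GL (Fin 2) 𝔸f) :
    Matrix (Fin 2) (Fin 2) 𝔸f) 0 1 + y * ((u⁻¹ : GL (Fin 2) 𝔸f) :
    Matrix (Fin 2) (Fin 2) 𝔸f) 1 1) ?_ ?_
  · exact (intAdeles ℚ).add_mem ((intAdeles ℚ).mul_mem ((intAdeles ℚ).mul_mem (natCast_mem _ M) hw)
      (hint' 0 1)) ((intAdeles ℚ).mul_mem hy (hint' 1 1))
  · rw [← h1]
    ring

/-- The cosets in `K₀(N) diag(1, p)⁻¹ K₀(N)`. -/
theorem mem_cosetsIn_iff (N : ℕ) [NeZero N] (x : GL (Fin 2) 𝔸f ⧸ K0 N) :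
    x ∈ cosetsIn (K0 N) (glFin (Fin 2) (hq p 0))⁻¹ ↔
      ∃ s ∈ repIdx p N, (rep p s : GL (Fin 2) 𝔸f ⧸ K0 N) = x := by
  have : NeZero p := ⟨hp.out.ne_zero⟩
  constructor
  · rintro ⟨⟨u, hu⟩, rfl⟩
    change ∃ s ∈ repIdx p N, (rep p s : GL (Fin 2) 𝔸f ⧸ K0 N) =
      ((u * (glFin (Fin 2) (hq p 0))⁻¹ : GL (Fin 2) 𝔸f) : GL (Fin 2) 𝔸f ⧸ K0 N)
    have hint := (mem_glInt_iff.mp hu.1).1
    obtain ⟨md, yd, hyd, hd'⟩ := exists_int_add p (hint 1 1)
    obtain ⟨mb, yb, hyb, hb'⟩ := exists_int_add p (hint 0 1)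
    by_cases hdiv : (p : ℤ) ∣ md
    · obtain ⟨m', hm'⟩ := hdiv
      have h1 : (u : Matrix (Fin 2) (Fin 2) 𝔸f) 1 1 = (p : 𝔸f) * ((m' : 𝔸f) + yd) := by
        rw [hd', hm']
        push_cast
        ring
      have h2 : (m' : 𝔸f) + yd ∈ finInt ℚ := (intAdeles ℚ).add_mem (intCast_mem _ m') hyd
      refine ⟨none, (mem_repIdx p).mpr ⟨by simp, fun _ => not_dvd_of_mem hu h2 h1⟩, ?_⟩
      rw [QuotientGroup.eq]
      change (glFin (Fin 2) (hd p))⁻¹⁻¹ * (u * (glFin (Fin 2) (hq p 0))⁻¹) ∈ K0 N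
      rw [inv_inv, ← mul_assoc]
      exact hd_mul_mem hu h2 h1
    · have hmd : ((md : ℤ) : ZMod p) ≠ 0 := fun h =>
        hdiv ((ZMod.intCast_zmod_eq_zero_iff_dvd md p).mp h)
      set j : ℕ := (-(mb : ZMod p) / (md : ZMod p)).val with hj
      have hjp : j < p := ZMod.val_lt _
      have h1 : ((mb + j * md : ℤ) : ZMod p) = 0 := by
        push_cast
        rw [hj, ZMod.natCast_zmod_val, div_mul_cancel₀ _ hmd, add_neg_cancel]
      rw [ZMod.intCast_zmod_eq_zero_iff_dvd] at h1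
      obtain ⟨m', hm'⟩ := h1
      have h2 : (u : Matrix (Fin 2) (Fin 2) 𝔸f) 0 1 + (j : 𝔸f) *
          (u : Matrix (Fin 2) (Fin 2) 𝔸f) 1 1 = (p : 𝔸f) * ((m' : 𝔸f) + yb + j * yd) := by
        have h3 : (mb : 𝔸f) + (j : 𝔸f) * (md : 𝔸f) = (p : 𝔸f) * m' := by
          have h4 := congrArg (fun z : ℤ => (z : 𝔸f)) hm'
          push_cast at h4
          exact h4
        rw [hd', hb']
        linear_combination h3
      have h3 : (m' : 𝔸f) + yb + j * yd ∈ finInt ℚ := (intAdeles ℚ).add_mem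
        ((intAdeles ℚ).add_mem (intCast_mem _ m') hyb) ((intAdeles ℚ).mul_mem (natCast_mem _ j) hyd)
      refine ⟨some j, (mem_repIdx p).mpr ⟨by simpa using hjp, by simp⟩, ?_⟩
      rw [QuotientGroup.eq]
      change (glFin (Fin 2) (hq p j))⁻¹⁻¹ * (u * (glFin (Fin 2) (hq p 0))⁻¹) ∈ K0 N
      rw [inv_inv, ← mul_assoc]
      exact hq_mul_mem hu j h3 h2
  · rintro ⟨s, hs, rfl⟩
    rw [mem_repIdx] at hs
    have key : ∀ u ∈ K0 N, (rep p s)⁻¹ * u * (glFin (Fin 2) (hq p 0))⁻¹ ∈ K0 N →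
        (rep p s : GL (Fin 2) 𝔸f ⧸ K0 N) ∈ cosetsIn (K0 N) (glFin (Fin 2) (hq p 0))⁻¹ := by
      intro u hu h
      refine ⟨⟨u, hu⟩, ?_⟩
      change ((u * (glFin (Fin 2) (hq p 0))⁻¹ : GL (Fin 2) 𝔸f) : GL (Fin 2) 𝔸f ⧸ K0 N) = _
      rw [eq_comm, QuotientGroup.eq, ← mul_assoc]
      exact h
    -- matrices in `Γ₀(N)`
    have hΓ : ∀ δ : SL(2, ℤ), δ ∈ CongruenceSubgroup.Gamma0 N →
        glFin (Fin 2) (Matrix.SpecialLinearGroup.mapGL ℚ δ) ∈ K0 N := fun δ hδ =>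
      ((mem_levelGroup_K0 N).mpr ⟨δ, hδ, rfl⟩).2
    have hent : ∀ (δ : SL(2, ℤ)) i j, (glFin (Fin 2) (Matrix.SpecialLinearGroup.mapGL ℚ δ) :
        Matrix (Fin 2) (Fin 2) 𝔸f) i j = ((δ i j : ℤ) : 𝔸f) := fun δ i j =>
      map_intCast (algebraMap ℚ 𝔸f) (δ i j)
    cases s with
    | none =>
      have hpN : ¬ p ∣ N := hs.2 rfl
      obtain ⟨x, y, hxy⟩ : ∃ x y : ℤ, (p : ℤ) * x - N * y = 1 := by
        have h1 : IsCoprime (p : ℤ) (N : ℤ) :=
          Nat.isCoprime_iff_coprime.mpr ((Nat.Prime.coprime_iff_not_dvd hp.out).mpr hpN)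
        obtain ⟨a, b, hab⟩ := h1
        exact ⟨a, -b, by linear_combination hab⟩
      let δ : SL(2, ℤ) := ⟨!![1, 1; N * y, p * x], by
        rw [Matrix.det_fin_two_of]
        linear_combination hxy⟩
      have hδ : δ ∈ CongruenceSubgroup.Gamma0 N := by
        rw [CongruenceSubgroup.Gamma0_mem]
        change ((N * y : ℤ) : ZMod N) = 0
        push_cast
        rw [ZMod.natCast_self, zero_mul]
      refine key _ (hΓ δ hδ) ?_
      change (glFin (Fin 2) (hd p))⁻¹⁻¹ * _ * _ ∈ _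
      rw [inv_inv]
      refine hd_mul_mem (hΓ δ hδ) (y := (x : 𝔸f)) (intCast_mem (intAdeles ℚ) x) ?_
      rw [hent]
      change ((p * x : ℤ) : 𝔸f) = _
      push_cast
      rfl
    | some j =>
      let δ : SL(2, ℤ) := ⟨!![1, -j; 0, 1], by
        rw [Matrix.det_fin_two_of]
        ring⟩
      have hδ : δ ∈ CongruenceSubgroup.Gamma0 N := by
        rw [CongruenceSubgroup.Gamma0_mem]
        change ((0 : ℤ) : ZMod N) = 0
        exact Int.cast_zero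
      refine key _ (hΓ δ hδ) ?_
      change (glFin (Fin 2) (hq p j))⁻¹⁻¹ * _ * _ ∈ _
      rw [inv_inv]
      refine hq_mul_mem (hΓ δ hδ) j (y := 0) (intAdeles ℚ).zero_mem ?_
      rw [hent, hent]
      change ((-j : ℤ) : 𝔸f) + (j : 𝔸f) * ((1 : ℤ) : 𝔸f) = _
      push_cast
      ring

/-- `K₀(N) diag(1, p)⁻¹ K₀(N) / K₀(N)` is finite. -/
theorem finite_cosetsIn_K0 (N : ℕ) [NeZero N] :
    (cosetsIn (K0 N) (glFin (Fin 2) (hq p 0))⁻¹).Finite := by
  refine ((repIdx p N).finite_toSet.image fun s => (rep p s : GL (Fin 2) 𝔸f ⧸ K0 N)).subset ?_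
  intro x hx
  obtain ⟨s, hs, hx'⟩ := (mem_cosetsIn_iff p N x).mp hx
  exact ⟨s, hs, hx'⟩

/-- The operator `[K₀(N) diag(1, p)⁻¹ K₀(N)]` on functions. -/
theorem heckeFun_one (N : ℕ) [NeZero N] {k : ℤ} {F : GL (Fin 2) 𝔸f → ℍ → ℂ}
    (hF : IsAdelic (K0 N) k F) : heckeFun (finite_cosetsIn_K0 p N) F 1 =
      if p ∣ N then ModularForm.heckeU k p (F 1) else ModularForm.heckeT k p (F 1) := by
  rw [heckeFun_eq (repIdx p N) (rep p) (fun s hs t ht h =>
    rep_injOn p ((mem_repIdx p).mp hs).1 ((mem_repIdx p).mp ht).1 h) (mem_cosetsIn_iff p N)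
    (finite_cosetsIn_K0 p N) hF]
  have h1 : ∀ j, F (1 * rep p (some j)) = F 1 ∣[k] ModularForm.heckeMatrix p j := fun j => by
    rw [one_mul, ← glReal_hq]
    exact hF.apply_inv (det_hq_pos p j)
  have h2 : F (1 * rep p none) = F 1 ∣[k] ModularForm.heckeDiagMatrix p := by
    rw [one_mul, ← glReal_hd]
    exact hF.apply_inv (det_hd_pos p)
  unfold repIdx
  split_ifs with h
  · rw [Finset.sum_map, ModularForm.heckeU_def]
    exact Finset.sum_congr rfl fun j _ => h1 j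
  · rw [Finset.sum_insertNone, ModularForm.heckeT_def, h2, add_comm]
    congr 1
    exact Finset.sum_congr rfl fun j _ => h1 j

/-- **`[K₀(N) diag(1, p)⁻¹ K₀(N)] = T_p` for `p ∤ N`.** -/
theorem heckeOp_T (N : ℕ) [NeZero N] {k : ℤ} (h : ¬ p ∣ N) (F : adelicForms (K0 N) k) :
    (gamma0FormEquiv N k (heckeOp (finite_cosetsIn_K0 p N) F) : ℍ → ℂ) =
      ModularForm.heckeT k p (gamma0FormEquiv N k F) := by
  refine (heckeFun_one p N F.2.1).trans ?_
  rw [if_neg h]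
  rfl

/-- **`[K₀(N) diag(1, p)⁻¹ K₀(N)] = U_p` for `p ∣ N`.** -/
theorem heckeOp_U (N : ℕ) [NeZero N] {k : ℤ} (h : p ∣ N) (F : adelicForms (K0 N) k) :
    (gamma0FormEquiv N k (heckeOp (finite_cosetsIn_K0 p N) F) : ℍ → ℂ) =
      ModularForm.heckeU k p (gamma0FormEquiv N k F) := by
  refine (heckeFun_one p N F.2.1).trans ?_
  rw [if_pos h]
  rfl

theorem heckeCuspOp_T (N : ℕ) [NeZero N] {k : ℤ} (h : ¬ p ∣ N) (F : adelicCuspForms (K0 N) k) :
    (gamma0CuspFormEquiv N k (heckeCuspOp (finite_cosetsIn_K0 p N) F) : ℍ → ℂ) =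
      ModularForm.heckeT k p (gamma0CuspFormEquiv N k F) := by
  refine (heckeFun_one p N F.2.1).trans ?_
  rw [if_neg h]
  rfl

theorem heckeCuspOp_U (N : ℕ) [NeZero N] {k : ℤ} (h : p ∣ N) (F : adelicCuspForms (K0 N) k) :
    (gamma0CuspFormEquiv N k (heckeCuspOp (finite_cosetsIn_K0 p N) F) : ℍ → ℂ) =
      ModularForm.heckeU k p (gamma0CuspFormEquiv N k F) := by
  refine (heckeFun_one p N F.2.1).trans ?_
  rw [if_pos h]
  rfl

end Explicit

end Fermat.Agent.Cor.Adele
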