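import Fermat.Agent.Corollaries.Adele.Double
import Mathlib.NumberTheory.ModularForms.CongruenceSubgroups

/-!
# The adelic description of the modular curves

* `exists_pos_mul_mem` : `GL_n(𝔸_f) = GL_n(ℚ)⁺ U` for every open subgroup `U` of `GL_n(𝔸_f)` with
  `det U ⊇ Ẑˣ`, `n ≥ 1`.
* `modularCurveEquiv` : **`Γ_U \ ℍ ≃ GL₂(ℚ)⁺ \ (ℍ × GL₂(𝔸_f)) / U`** for these `U` (`n = 2`), where
  `Γ_U = GL₂(ℚ)⁺ ∩ U`, by `z ↦ (z, 1)`.
* `gamma0Equiv` : **`Γ₀(N) \ ℍ ≃ GL₂(ℚ)⁺ \ (ℍ × GL₂(𝔸_f)) / K₀(N)`**.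
-/

set_option autoImplicit false

open NumberField IsDedekindDomain HeightOneSpectrum WithZero Filter Topology RestrictedProduct
open Matrix UpperHalfPlane
open scoped WithZero MatrixGroups

noncomputable section

namespace Fermat.Agent.Cor.Adele

open Fermat.Agent.LT.Loc

/-- The ring of finite adeles of `ℚ`. -/
local notation "𝔸f" => FiniteAdeleRing (𝓞 ℚ) ℚ

section General

variable {n : Type*} [Fintype n] [DecidableEq n]

/-- `GL_n(ℚ) → GL_n(𝔸_f)`. -/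
def glFin (n : Type*) [Fintype n] [DecidableEq n] : GL n ℚ →* GL n 𝔸f :=
  GeneralLinearGroup.map (n := n) (algebraMap ℚ 𝔸f)

/-- Every finite idele of `ℚ` is the product of a positive rational number and of a unit idele. -/
theorem exists_pos_mul_unit (a : 𝔸fˣ) : ∃ x : ℚˣ, 0 < (x : ℚ) ∧ ∃ u ∈ unitIdeles ℚ,
    a = FiniteAdeleRing.unitEmbedding (𝓞 ℚ) ℚ x * u := by
  have hcl : Subsingleton (ClassGroup (𝓞 ℚ)) := by
    rw [← Fintype.card_le_one_iff_subsingleton]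
    exact Rat.classNumber_eq.le
  obtain ⟨x, u, hu, h⟩ := ideleClass_eq_one_iff.mp (Subsingleton.elim (ideleClass ℚ a) 1)
  rcases lt_or_gt_of_ne x.ne_zero with hx | hx
  · refine ⟨-x, by rw [Units.val_neg]; linarith, -u, fun v => ?_, ?_⟩
    · have h1 : ((-u : 𝔸fˣ) : 𝔸f) v = -((u : 𝔸f) v) := rfl
      rw [h1, Valuation.map_neg]
      exact hu v
    · rw [h]
      apply Units.ext
      have h1 : ((FiniteAdeleRing.unitEmbedding (𝓞 ℚ) ℚ (-x) : 𝔸fˣ) : 𝔸f) =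
          -((FiniteAdeleRing.unitEmbedding (𝓞 ℚ) ℚ x : 𝔸fˣ) : 𝔸f) := by
        change algebraMap ℚ 𝔸f ((-x : ℚˣ) : ℚ) = -(algebraMap ℚ 𝔸f (x : ℚ))
        rw [Units.val_neg, map_neg]
      rw [Units.val_mul, Units.val_mul, h1, Units.val_neg, neg_mul_neg]
  · exact ⟨x, hx, u, hu, h⟩

/-- **`GL_n(𝔸_f) = GL_n(ℚ)⁺ U`** for every open subgroup `U` with `det U ⊇ Ẑˣ`, `n ≥ 1`. -/
theorem exists_pos_mul_mem [Nonempty n] {U : Subgroup (GL n 𝔸f)}
    (hU : IsOpen (U : Set (GL n 𝔸f))) (hdet : unitIdeles ℚ ≤ U.map GeneralLinearGroup.det)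
    (g : GL n 𝔸f) :
    ∃ γ : GL n ℚ, 0 < (γ : Matrix n n ℚ).det ∧ ∃ κ ∈ U, g = glFin n γ * κ := by
  obtain ⟨i⟩ : Nonempty n := inferInstance
  obtain ⟨x, hx, u, hu, hxu⟩ := exists_pos_mul_unit (GeneralLinearGroup.det g)
  obtain ⟨κ₀, hκ₀, rfl⟩ := hdet hu
  have h1 : GeneralLinearGroup.det (glFin n (diagAt i x) * κ₀) = GeneralLinearGroup.det g := by
    rw [hxu, map_mul, glFin, map_diagAt, det_diagAt]
    rfl
  obtain ⟨γ, κ, hκ, h2⟩ := exists_of_det_eq_of_isOpen hU h1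
  refine ⟨Matrix.SpecialLinearGroup.toGL γ * diagAt i x, ?_, κ₀ * κ, mul_mem hκ₀ hκ, ?_⟩
  · have h3 : ((Matrix.SpecialLinearGroup.toGL γ * diagAt i x : GL n ℚ) : Matrix n n ℚ).det =
        (x : ℚ) := by
      rw [Units.val_mul, det_mul]
      have h4 : ((Matrix.SpecialLinearGroup.toGL γ : GL n ℚ) : Matrix n n ℚ).det = 1 := γ.2
      have h5 : ((diagAt i x : GL n ℚ) : Matrix n n ℚ).det = x :=
        congrArg Units.val (det_diagAt (n := n) i x)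
      rw [h4, h5, one_mul]
    rw [h3]
    exact hx
  · rw [h2, map_mul]
    change _ = glFin n (Matrix.SpecialLinearGroup.toGL γ) * _ * _
    rw [← mul_assoc, ← mul_assoc]
    rfl

end General

/-! ### The upper half plane -/

/-- `GL₂(ℚ) → GL₂(ℝ)`. -/
def glReal : GL (Fin 2) ℚ →* GL (Fin 2) ℝ := GeneralLinearGroup.map (algebraMap ℚ ℝ)

/-- The group `Γ_U = GL₂(ℚ)⁺ ∩ U`. -/
def levelGroup (U : Subgroup (GL (Fin 2) 𝔸f)) : Subgroup (GL (Fin 2) ℚ) where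
  carrier := {γ | 0 < (γ : Matrix (Fin 2) (Fin 2) ℚ).det ∧ glFin (Fin 2) γ ∈ U}
  one_mem' := ⟨by rw [Units.val_one, det_one]; exact one_pos, by rw [map_one]; exact one_mem U⟩
  mul_mem' {a b} ha hb := ⟨by rw [Units.val_mul, det_mul]; exact mul_pos ha.1 hb.1,
    by rw [map_mul]; exact mul_mem ha.2 hb.2⟩
  inv_mem' {a} ha := by
    refine ⟨?_, by rw [map_inv]; exact inv_mem ha.2⟩
    have h1 : (a : Matrix (Fin 2) (Fin 2) ℚ).det *
        ((a⁻¹ : GL (Fin 2) ℚ) : Matrix (Fin 2) (Fin 2) ℚ).det = 1 := by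
      rw [← det_mul, ← Units.val_mul, mul_inv_cancel, Units.val_one, det_one]
    exact (pos_iff_pos_of_mul_pos (by rw [h1]; exact one_pos)).mp ha.1

/-- The equivalence relation on `ℍ` whose classes are the orbits of `Γ_U`. -/
def levelSetoid (U : Subgroup (GL (Fin 2) 𝔸f)) : Setoid ℍ where
  r z z' := ∃ γ ∈ levelGroup U, z' = glReal γ • z
  iseqv := by
    refine ⟨fun z => ⟨1, one_mem _, by rw [map_one, one_smul]⟩, ?_, ?_⟩
    · rintro z z' ⟨γ, hγ, rfl⟩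
      exact ⟨γ⁻¹, inv_mem hγ, by rw [map_inv, inv_smul_smul]⟩
    · rintro z z' z'' ⟨γ, hγ, rfl⟩ ⟨δ, hδ, rfl⟩
      exact ⟨δ * γ, mul_mem hδ hγ, by rw [map_mul, mul_smul]⟩

/-- The equivalence relation on `ℍ × GL₂(𝔸_f)` whose classes are the double cosets modulo
`GL₂(ℚ)⁺` (diagonally, from the left) and `U` (from the right). -/
def adelicSetoid (U : Subgroup (GL (Fin 2) 𝔸f)) : Setoid (ℍ × GL (Fin 2) 𝔸f) where
  r p q := ∃ γ : GL (Fin 2) ℚ, 0 < (γ : Matrix (Fin 2) (Fin 2) ℚ).det ∧ ∃ κ ∈ U,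
    q.1 = glReal γ • p.1 ∧ q.2 = glFin (Fin 2) γ * p.2 * κ
  iseqv := by
    refine ⟨fun p => ⟨1, by rw [Units.val_one, det_one]; exact one_pos, 1, one_mem _,
      by rw [map_one, one_smul], by rw [map_one, one_mul, mul_one]⟩, ?_, ?_⟩
    · rintro p q ⟨γ, hγ, κ, hκ, h1, h2⟩
      refine ⟨γ⁻¹, (inv_mem (show γ ∈ levelGroup ⊤ from ⟨hγ, Subgroup.mem_top _⟩)).1, κ⁻¹,
        inv_mem hκ, by rw [h1, map_inv, inv_smul_smul], ?_⟩
      rw [h2, map_inv]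
      group
    · rintro p q r ⟨γ, hγ, κ, hκ, h1, h2⟩ ⟨δ, hδ, μ, hμ, h3, h4⟩
      refine ⟨δ * γ, by rw [Units.val_mul, det_mul]; exact mul_pos hδ hγ, κ * μ, mul_mem hκ hμ,
        by rw [h3, h1, map_mul, mul_smul], ?_⟩
      rw [h4, h2, map_mul]
      group

/-- `(z, 1)` and `(z', 1)` are equivalent if and only if `z'` is in the orbit of `z`. -/
theorem adelic_iff_level (U : Subgroup (GL (Fin 2) 𝔸f)) (z z' : ℍ) :
    (adelicSetoid U).r (z, 1) (z', 1) ↔ (levelSetoid U).r z z' := by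
  constructor
  · rintro ⟨γ, hγ, κ, hκ, h1, h2⟩
    refine ⟨γ, ⟨hγ, ?_⟩, h1⟩
    have h3 : glFin (Fin 2) γ = κ⁻¹ := by
      rw [mul_one] at h2
      exact eq_inv_of_mul_eq_one_left h2.symm
    rw [h3]
    exact inv_mem hκ
  · rintro ⟨γ, hγ, h1⟩
    refine ⟨γ, hγ.1, (glFin (Fin 2) γ)⁻¹, inv_mem hγ.2, h1, ?_⟩
    rw [mul_one, mul_inv_cancel]

/-- **`Γ_U \ ℍ ≃ GL₂(ℚ)⁺ \ (ℍ × GL₂(𝔸_f)) / U`** for every open subgroup `U` of `GL₂(𝔸_f)` with
`det U ⊇ Ẑˣ`. -/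
def modularCurveEquiv (U : Subgroup (GL (Fin 2) 𝔸f)) (hU : IsOpen (U : Set (GL (Fin 2) 𝔸f)))
    (hdet : unitIdeles ℚ ≤ U.map GeneralLinearGroup.det) :
    Quotient (levelSetoid U) ≃ Quotient (adelicSetoid U) :=
  Equiv.ofBijective
    (Quotient.lift (fun z : ℍ => (Quotient.mk (adelicSetoid U) (z, 1))) fun z z' h =>
      Quotient.sound ((adelic_iff_level U z z').mpr h))
    (by
      constructor
      · intro a b
        refine Quotient.inductionOn₂ a b fun z z' h => ?_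
        exact Quotient.sound ((adelic_iff_level U z z').mp (Quotient.exact h))
      · intro c
        refine Quotient.inductionOn c fun p => ?_
        obtain ⟨γ, hγ, κ, hκ, h⟩ := exists_pos_mul_mem hU hdet p.2
        refine ⟨Quotient.mk _ ((glReal γ)⁻¹ • p.1), Quotient.sound ?_⟩
        exact ⟨γ, hγ, κ, hκ, (smul_inv_smul _ _).symm, by rw [mul_one]; exact h⟩)

theorem modularCurveEquiv_mk (U : Subgroup (GL (Fin 2) 𝔸f))
    (hU : IsOpen (U : Set (GL (Fin 2) 𝔸f)))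
    (hdet : unitIdeles ℚ ≤ U.map GeneralLinearGroup.det) (z : ℍ) :
    modularCurveEquiv U hU hdet (Quotient.mk _ z) = Quotient.mk _ (z, 1) := rfl

/-! ### `GL_n(𝓞̂)` is open -/

theorem mem_glInt_iff {K : Type*} [Field K] [NumberField K] {n : Type*} [Fintype n] [DecidableEq n]
    {g : GL n (FiniteAdeleRing (𝓞 K) K)} : g ∈ glInt K n ↔
      (∀ i j, (g : Matrix n n (FiniteAdeleRing (𝓞 K) K)) i j ∈ finInt K) ∧
        ∀ i j, ((g⁻¹ : GL n (FiniteAdeleRing (𝓞 K) K)) :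
          Matrix n n (FiniteAdeleRing (𝓞 K) K)) i j ∈ finInt K := by
  constructor
  · intro hg
    have h : ∀ g ∈ glInt K n, ∀ i j, (g : Matrix n n (FiniteAdeleRing (𝓞 K) K)) i j ∈ finInt K := by
      rintro _ ⟨κ, rfl⟩ i j
      exact ((κ : Matrix n n (intAdeles K)) i j).2
    exact ⟨h g hg, h g⁻¹ (inv_mem hg)⟩
  · rintro ⟨h1, h2⟩
    let T : Matrix n n (intAdeles K) := Matrix.of fun i j => ⟨_, h1 i j⟩
    let T' : Matrix n n (intAdeles K) := Matrix.of fun i j => ⟨_, h2 i j⟩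
    have hT : T.map (intAdeles K).subtype = (g : Matrix n n (FiniteAdeleRing (𝓞 K) K)) := by
      ext i j
      rfl
    have hT' : T'.map (intAdeles K).subtype = ((g⁻¹ : GL n (FiniteAdeleRing (𝓞 K) K)) :
        Matrix n n (FiniteAdeleRing (𝓞 K) K)) := by
      ext i j
      rfl
    have hinj : Function.Injective fun M : Matrix n n (intAdeles K) =>
        M.map (intAdeles K).subtype := Matrix.map_injective Subtype.val_injective
    refine ⟨⟨T, T', hinj ?_, hinj ?_⟩, Units.ext hT⟩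
    · change (T * T').map (intAdeles K).subtype = (1 : Matrix n n (intAdeles K)).map _
      rw [Matrix.map_mul, hT, hT', Matrix.map_one _ (map_zero _) (map_one _), Units.mul_inv]
    · change (T' * T).map (intAdeles K).subtype = (1 : Matrix n n (intAdeles K)).map _
      rw [Matrix.map_mul, hT, hT', Matrix.map_one _ (map_zero _) (map_one _), Units.inv_mul]

theorem isOpen_glInt (K : Type*) [Field K] [NumberField K] (n : Type*) [Fintype n]
    [DecidableEq n] : IsOpen (glInt K n : Set (GL n (FiniteAdeleRing (𝓞 K) K))) := by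
  have h : (glInt K n : Set (GL n (FiniteAdeleRing (𝓞 K) K))) =
      (⋂ i, ⋂ j, {g : GL n (FiniteAdeleRing (𝓞 K) K) |
        (g : Matrix n n (FiniteAdeleRing (𝓞 K) K)) i j ∈ finInt K}) ∩
      ⋂ i, ⋂ j, {g : GL n (FiniteAdeleRing (𝓞 K) K) | ((g⁻¹ : GL n (FiniteAdeleRing (𝓞 K) K)) :
        Matrix n n (FiniteAdeleRing (𝓞 K) K)) i j ∈ finInt K} := by
    ext g
    rw [SetLike.mem_coe, mem_glInt_iff, Set.mem_inter_iff, Set.mem_iInter, Set.mem_iInter]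
    simp only [Set.mem_iInter]
    rfl
  rw [h]
  refine (isOpen_iInter_of_finite fun i => isOpen_iInter_of_finite fun j => ?_).inter
    (isOpen_iInter_of_finite fun i => isOpen_iInter_of_finite fun j => ?_)
  · exact (isOpen_finInt K).preimage (Units.continuous_val.matrix_elem i j)
  · exact (isOpen_finInt K).preimage ((Units.continuous_val.comp continuous_inv).matrix_elem i j)

/-! ### `Γ₀(N)` -/

/-- `K₀(N)` : the matrices in `GL₂(Ẑ)` with lower left entry in `N Ẑ`. -/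
def K0 (N : ℕ) : Subgroup (GL (Fin 2) 𝔸f) where
  carrier := {g | g ∈ glInt ℚ (Fin 2) ∧
    ∃ y ∈ finInt ℚ, (g : Matrix (Fin 2) (Fin 2) 𝔸f) 1 0 = (N : 𝔸f) * y}
  one_mem' := by
    refine ⟨one_mem _, 0, (intAdeles ℚ).zero_mem, ?_⟩
    rw [mul_zero, Units.val_one]
    exact Matrix.one_apply_ne (by decide)
  mul_mem' {a b} ha hb := by
    obtain ⟨ha, y, hy, hay⟩ := ha
    obtain ⟨hb, z, hz, hbz⟩ := hb
    refine ⟨mul_mem ha hb, y * (b : Matrix (Fin 2) (Fin 2) 𝔸f) 0 0 +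
      (a : Matrix (Fin 2) (Fin 2) 𝔸f) 1 1 * z, (intAdeles ℚ).add_mem
        ((intAdeles ℚ).mul_mem hy ((mem_glInt_iff.mp hb).1 0 0))
        ((intAdeles ℚ).mul_mem ((mem_glInt_iff.mp ha).1 1 1) hz), ?_⟩
    rw [Units.val_mul, Matrix.mul_apply, Fin.sum_univ_two, hay, hbz]
    ring
  inv_mem' {a} ha := by
    obtain ⟨ha, y, hy, hay⟩ := ha
    have hd : ((GeneralLinearGroup.det a)⁻¹ : 𝔸fˣ) ∈ unitIdeles ℚ := inv_mem (det_glInt ha)
    refine ⟨inv_mem ha, -(y * (((GeneralLinearGroup.det a)⁻¹ : 𝔸fˣ) : 𝔸f)),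
      (intAdeles ℚ).neg_mem ((intAdeles ℚ).mul_mem hy fun v => (hd v).le), ?_⟩
    set A : Matrix (Fin 2) (Fin 2) 𝔸f := (a : Matrix (Fin 2) (Fin 2) 𝔸f) with hA
    set B : Matrix (Fin 2) (Fin 2) 𝔸f := ((a⁻¹ : GL (Fin 2) 𝔸f) : Matrix (Fin 2) (Fin 2) 𝔸f)
    have hBA : B * A = 1 := Units.inv_mul a
    have h10 := congrFun (congrFun hBA 1) 0
    have h11 := congrFun (congrFun hBA 1) 1
    rw [Matrix.mul_apply, Fin.sum_univ_two, Matrix.one_apply_ne (by decide)] at h10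
    rw [Matrix.mul_apply, Fin.sum_univ_two, Matrix.one_apply_eq] at h11
    have h1 : B 1 0 * A.det = -(A 1 0) := by
      rw [Matrix.det_fin_two]
      linear_combination A 1 1 * h10 - A 1 0 * h11
    have h2 : A.det * (((GeneralLinearGroup.det a)⁻¹ : 𝔸fˣ) : 𝔸f) = 1 :=
      Units.mul_inv (GeneralLinearGroup.det a)
    have h3 : B 1 0 = B 1 0 * A.det * (((GeneralLinearGroup.det a)⁻¹ : 𝔸fˣ) : 𝔸f) := by
      rw [mul_assoc, h2, mul_one]
    rw [h3, h1, hay]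
    ring

theorem isOpen_K0 (N : ℕ) [NeZero N] : IsOpen (K0 N : Set (GL (Fin 2) 𝔸f)) := by
  have hN : (N : ℚ) ≠ 0 := by exact_mod_cast NeZero.ne N
  have hN1 : algebraMap ℚ 𝔸f (N : ℚ)⁻¹ * (N : 𝔸f) = 1 := by
    rw [← map_natCast (algebraMap ℚ 𝔸f) N, ← map_mul, inv_mul_cancel₀ hN, map_one]
  have h : (K0 N : Set (GL (Fin 2) 𝔸f)) = (glInt ℚ (Fin 2) : Set (GL (Fin 2) 𝔸f)) ∩
      {g | algebraMap ℚ 𝔸f (N : ℚ)⁻¹ * (g : Matrix (Fin 2) (Fin 2) 𝔸f) 1 0 ∈ finInt ℚ} := by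
    ext g
    constructor
    · rintro ⟨h1, y, hy, h2⟩
      refine ⟨h1, ?_⟩
      change algebraMap ℚ 𝔸f (N : ℚ)⁻¹ * (g : Matrix (Fin 2) (Fin 2) 𝔸f) 1 0 ∈ finInt ℚ
      rw [h2, ← mul_assoc, hN1, one_mul]
      exact hy
    · rintro ⟨h1, h2⟩
      refine ⟨h1, _, h2, ?_⟩
      rw [← mul_assoc, mul_comm (N : 𝔸f), hN1, one_mul]
  rw [h]
  refine (isOpen_glInt ℚ (Fin 2)).inter ((isOpen_finInt ℚ).preimage ?_)
  exact continuous_const.mul (Units.continuous_val.matrix_elem 1 0)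

theorem le_map_det_K0 (N : ℕ) : unitIdeles ℚ ≤ (K0 N).map GeneralLinearGroup.det := by
  intro u hu
  refine ⟨diagAt 0 u, ⟨diagAt_mem_glInt 0 hu, 0, (intAdeles ℚ).zero_mem, ?_⟩, det_diagAt 0 u⟩
  rw [mul_zero]
  exact Matrix.diagonal_apply_ne _ (by decide)

theorem exists_int_of_mem_finInt {x : ℚ} (h : algebraMap ℚ 𝔸f x ∈ finInt ℚ) :
    ∃ m : ℤ, (m : ℚ) = x := by
  obtain ⟨r, hr⟩ := HeightOneSpectrum.mem_integers_of_valuation_le_one ℚ x fun v => by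
    rw [← v_ι]
    exact h v
  exact ⟨Rat.ringOfIntegersEquiv r, (Rat.ringOfIntegersEquiv_apply_coe r).trans hr⟩

/-- `GL₂(ℚ)⁺ ∩ K₀(N) = Γ₀(N)`. -/
theorem mem_levelGroup_K0 (N : ℕ) [NeZero N] {γ : GL (Fin 2) ℚ} : γ ∈ levelGroup (K0 N) ↔
    ∃ δ ∈ CongruenceSubgroup.Gamma0 N, Matrix.SpecialLinearGroup.mapGL ℚ δ = γ := by
  have hN : (N : ℚ) ≠ 0 := by exact_mod_cast NeZero.ne N
  constructor
  · rintro ⟨hpos, hint, y, hy, h10⟩
    have hent : ∀ i j, ∃ m : ℤ, (m : ℚ) = (γ : Matrix (Fin 2) (Fin 2) ℚ) i j := fun i j =>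
      exists_int_of_mem_finInt ((mem_glInt_iff.mp hint).1 i j)
    choose m hm using hent
    -- the determinant
    have hdet : FiniteAdeleRing.unitEmbedding (𝓞 ℚ) ℚ (GeneralLinearGroup.det γ) ∈
        unitIdeles ℚ := by
      have h1 : FiniteAdeleRing.unitEmbedding (𝓞 ℚ) ℚ (GeneralLinearGroup.det γ) =
          GeneralLinearGroup.det (glFin (Fin 2) γ) := by
        apply Units.ext
        change algebraMap ℚ 𝔸f (γ : Matrix (Fin 2) (Fin 2) ℚ).det =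
          ((γ : Matrix (Fin 2) (Fin 2) ℚ).map (algebraMap ℚ 𝔸f)).det
        rw [RingHom.map_det]
        rfl
      rw [h1]
      exact det_glInt hint
    obtain ⟨d, hd⟩ := exists_int_of_mem_finInt
      (x := ((GeneralLinearGroup.det γ : ℚˣ) : ℚ)) fun v => (hdet v).le
    obtain ⟨d', hd'⟩ := exists_int_of_mem_finInt
      (x := (((GeneralLinearGroup.det γ)⁻¹ : ℚˣ) : ℚ)) fun v => by
        have h1 := inv_mem hdet
        rw [← map_inv] at h1
        exact (h1 v).le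
    have hdd : d * d' = 1 := by
      have h1 : (d : ℚ) * d' = 1 := by rw [hd, hd', Units.mul_inv]
      exact_mod_cast h1
    have hd0 : 0 < d := by
      have h1 : (0 : ℚ) < d := by rw [hd]; exact hpos
      exact_mod_cast h1
    have hd1 : d = 1 := by
      rcases Int.eq_one_or_neg_one_of_mul_eq_one hdd with h1 | h1
      · exact h1
      · omega
    have hmdet : (Matrix.of m).det = 1 := by
      have h1 : (((Matrix.of m).det : ℤ) : ℚ) = (γ : Matrix (Fin 2) (Fin 2) ℚ).det := by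
        rw [Matrix.det_fin_two, Matrix.det_fin_two, ← hm, ← hm, ← hm, ← hm]
        push_cast
        rfl
      have h2 : (γ : Matrix (Fin 2) (Fin 2) ℚ).det = ((1 : ℤ) : ℚ) := by
        rw [← hd1, hd]
        rfl
      rw [h2] at h1
      exact_mod_cast h1
    refine ⟨⟨Matrix.of m, hmdet⟩, ?_, ?_⟩
    · change ((m 1 0 : ℤ) : ZMod N) = 0
      rw [ZMod.intCast_zmod_eq_zero_iff_dvd]
      obtain ⟨k, hk⟩ : ∃ k : ℤ, (k : ℚ) = (N : ℚ)⁻¹ * (γ : Matrix (Fin 2) (Fin 2) ℚ) 1 0 := by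
        refine exists_int_of_mem_finInt ?_
        have h1 : algebraMap ℚ 𝔸f ((γ : Matrix (Fin 2) (Fin 2) ℚ) 1 0) = (N : 𝔸f) * y := h10
        rw [map_mul, h1, ← mul_assoc, ← map_natCast (algebraMap ℚ 𝔸f) N, ← map_mul,
          inv_mul_cancel₀ hN, map_one, one_mul]
        exact hy
      refine ⟨k, ?_⟩
      have h1 : ((m 1 0 : ℤ) : ℚ) = N * k := by
        rw [hm, hk, mul_inv_cancel_left₀ hN]
      exact_mod_cast h1
    · apply Units.ext
      ext i j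
      exact hm i j
  · rintro ⟨δ, hδ, rfl⟩
    have hent : ∀ i j, (glFin (Fin 2) (Matrix.SpecialLinearGroup.mapGL ℚ δ) :
        Matrix (Fin 2) (Fin 2) 𝔸f) i j = ((δ i j : ℤ) : 𝔸f) := fun i j =>
      map_intCast (algebraMap ℚ 𝔸f) (δ i j)
    have hdet : ((Matrix.SpecialLinearGroup.mapGL ℚ δ : GL (Fin 2) ℚ) :
        Matrix (Fin 2) (Fin 2) ℚ).det = 1 :=
      (Matrix.SpecialLinearGroup.map (algebraMap ℤ ℚ) δ).2
    refine ⟨by rw [hdet]; exact one_pos, mem_glInt_of_det_one (fun i j => ?_) ?_, ?_⟩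
    · rw [hent]
      exact intCast_mem (intAdeles ℚ) _
    · change ((((Matrix.SpecialLinearGroup.mapGL ℚ δ : GL (Fin 2) ℚ) :
        Matrix (Fin 2) (Fin 2) ℚ)).map (algebraMap ℚ 𝔸f)).det = 1
      rw [← RingHom.mapMatrix_apply, ← RingHom.map_det, hdet, map_one]
    · have h1 : ((δ 1 0 : ℤ) : ZMod N) = 0 := hδ
      rw [ZMod.intCast_zmod_eq_zero_iff_dvd] at h1
      obtain ⟨k, hk⟩ := h1
      refine ⟨(k : 𝔸f), intCast_mem (intAdeles ℚ) k, ?_⟩
      rw [hent, hk]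
      push_cast
      rfl

theorem levelSetoid_K0_iff (N : ℕ) [NeZero N] (z z' : ℍ) :
    (levelSetoid (K0 N)).r z z' ↔ ∃ δ ∈ CongruenceSubgroup.Gamma0 N, δ • z = z' := by
  have h : ∀ δ : SL(2, ℤ), glReal (Matrix.SpecialLinearGroup.mapGL ℚ δ) • z = δ • z := by
    intro δ
    have h1 : glReal (Matrix.SpecialLinearGroup.mapGL ℚ δ) =
        Matrix.SpecialLinearGroup.mapGL ℝ δ := by
      apply Units.ext
      ext i j
      change algebraMap ℚ ℝ (algebraMap ℤ ℚ (δ i j)) = algebraMap ℤ ℝ (δ i j)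
      simp
    rw [h1]
    rfl
  constructor
  · rintro ⟨γ, hγ, rfl⟩
    obtain ⟨δ, hδ, rfl⟩ := (mem_levelGroup_K0 N).mp hγ
    exact ⟨δ, hδ, (h δ).symm⟩
  · rintro ⟨δ, hδ, rfl⟩
    exact ⟨_, (mem_levelGroup_K0 N).mpr ⟨δ, hδ, rfl⟩, (h δ).symm⟩

/-- **`Γ₀(N) \ ℍ ≃ GL₂(ℚ)⁺ \ (ℍ × GL₂(𝔸_f)) / K₀(N)`**: the adelic description of the modular
curve `Y₀(N)`. -/
def gamma0Equiv (N : ℕ) [NeZero N] :
    MulAction.orbitRel.Quotient (CongruenceSubgroup.Gamma0 N) ℍ ≃ Quotient (adelicSetoid (K0 N)) :=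
  (Quotient.congr (Equiv.refl ℍ) fun z z' => by
    change MulAction.orbitRel (CongruenceSubgroup.Gamma0 N) ℍ z z' ↔ (levelSetoid (K0 N)).r z z'
    rw [levelSetoid_K0_iff, MulAction.orbitRel_apply]
    constructor
    · rintro ⟨δ, hδ⟩
      refine ⟨(δ⁻¹ : CongruenceSubgroup.Gamma0 N), (δ⁻¹).2, ?_⟩
      rw [← hδ]
      exact inv_smul_smul δ z'
    · rintro ⟨δ, hδ, rfl⟩
      exact ⟨(⟨δ, hδ⟩ : CongruenceSubgroup.Gamma0 N)⁻¹, inv_smul_smul
        (⟨δ, hδ⟩ : CongruenceSubgroup.Gamma0 N) z⟩).trans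
    (modularCurveEquiv (K0 N) (isOpen_K0 N) (le_map_det_K0 N))

theorem gamma0Equiv_mk (N : ℕ) [NeZero N] (z : ℍ) :
    gamma0Equiv N (Quotient.mk _ z) = Quotient.mk _ (z, 1) := rfl

end Fermat.Agent.Cor.Adele
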