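import Fermat.Agent.LT.SUnitBound
import Fermat.Agent.Corollaries.Adele.GLn

/-!
# The compactness of the norm one idele class group

`K` a number field, `𝔸 = AdeleRing (𝓞 K) K` its ring of adeles.

* `ideleNorm` : the norm `|x| = ∏_w |x_w|^{m_w} · ∏_v |x_v|_v` of an idele, a continuous
  homomorphism `𝔸ˣ → ℝ` (`continuous_ideleNorm`), trivial on `Kˣ` (`ideleNorm_principal`, the product
  formula).
* `discreteTopology_principalUnits` : `Kˣ` is discrete in `𝔸ˣ`.
* `compactSpace_ideleOne_quotient` : **`𝔸ˣ¹ / Kˣ` is compact**.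
-/

set_option autoImplicit false

open NumberField IsDedekindDomain HeightOneSpectrum WithZero Filter Topology RestrictedProduct
open scoped WithZero Pointwise

noncomputable section

namespace Fermat.Agent.Cor.Adele

open Fermat.Agent.LT.Loc

variable {K : Type*} [Field K] [NumberField K]

/-! ### The finite part of the norm -/

theorem norm_eq_one_of_valued {v : HeightOneSpectrum (𝓞 K)} {x : v.adicCompletion K}
    (h : Valued.v x = 1) : ‖x‖ = 1 := by
  rw [FinitePlace.norm_def, h, map_one]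
  rfl

theorem hasFiniteMulSupport_norm (a : (FiniteAdeleRing (𝓞 K) K)ˣ) :
    Function.HasFiniteMulSupport fun v : HeightOneSpectrum (𝓞 K) =>
      ‖(a : FiniteAdeleRing (𝓞 K) K) v‖ := by
  refine (finite_iord_ne_zero a).subset fun v hv => ?_
  rw [Function.mem_mulSupport] at hv
  intro h
  exact hv (norm_eq_one_of_valued ((iord_eq_zero_iff v a).mp h))

variable (K) in
/-- The norm `∏_v |a_v|_v` of a finite idele. -/
def finNorm : (FiniteAdeleRing (𝓞 K) K)ˣ →* ℝ where
  toFun a := ∏ᶠ v : HeightOneSpectrum (𝓞 K), ‖(a : FiniteAdeleRing (𝓞 K) K) v‖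
  map_one' := (finprod_congr fun v : HeightOneSpectrum (𝓞 K) =>
    norm_one (α := v.adicCompletion K)).trans finprod_one
  map_mul' a b := by
    rw [← finprod_mul_distrib (hasFiniteMulSupport_norm a) (hasFiniteMulSupport_norm b)]
    exact finprod_congr fun v : HeightOneSpectrum (𝓞 K) =>
      norm_mul (α := v.adicCompletion K) _ _

theorem finNorm_unit {a : (FiniteAdeleRing (𝓞 K) K)ˣ} (ha : a ∈ unitIdeles K) :
    finNorm K a = 1 := by
  rw [← finprod_one (α := HeightOneSpectrum (𝓞 K))]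
  exact finprod_congr fun v => norm_eq_one_of_valued (ha v)

theorem finNorm_pos (a : (FiniteAdeleRing (𝓞 K) K)ˣ) : 0 < finNorm K a := by
  have h1 : 0 ≤ finNorm K a := finprod_nonneg fun v => norm_nonneg _
  refine lt_of_le_of_ne h1 fun h => ?_
  have h2 : finNorm K a * finNorm K a⁻¹ = 1 := by rw [← map_mul, mul_inv_cancel, map_one]
  rw [← h, zero_mul] at h2
  exact zero_ne_one h2

variable (K) in
theorem isOpen_unitIdeles : IsOpen (unitIdeles K : Set (FiniteAdeleRing (𝓞 K) K)ˣ) := by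
  have h : (unitIdeles K : Set (FiniteAdeleRing (𝓞 K) K)ˣ) =
      {a : (FiniteAdeleRing (𝓞 K) K)ˣ | (a : FiniteAdeleRing (𝓞 K) K) ∈ finInt K} ∩
        {a : (FiniteAdeleRing (𝓞 K) K)ˣ |
          ((a⁻¹ : (FiniteAdeleRing (𝓞 K) K)ˣ) : FiniteAdeleRing (𝓞 K) K) ∈ finInt K} := by
    ext a
    constructor
    · intro ha
      exact ⟨fun v => (ha v).le, fun v => ((inv_mem ha : a⁻¹ ∈ unitIdeles K) v).le⟩
    · rintro ⟨h1, h2⟩
      exact mem_unitIdeles_of_int h1 h2
  rw [h]
  exact ((isOpen_finInt K).preimage Units.continuous_val).inter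
    ((isOpen_finInt K).preimage (Units.continuous_val.comp continuous_inv))

variable (K) in
theorem continuous_finNorm : Continuous (finNorm K) := by
  rw [continuous_iff_continuousAt]
  intro a
  have h1 : {b : (FiniteAdeleRing (𝓞 K) K)ˣ | a⁻¹ * b ∈ unitIdeles K} ∈ 𝓝 a := by
    refine ((isOpen_unitIdeles K).preimage (continuous_const.mul continuous_id)).mem_nhds ?_
    change a⁻¹ * a ∈ unitIdeles K
    rw [inv_mul_cancel]
    exact one_mem _
  refine (continuousAt_const (y := finNorm K a)).congr ?_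
  filter_upwards [h1] with b hb
  have h2 : b = a * (a⁻¹ * b) := by group
  rw [h2, map_mul, finNorm_unit hb, mul_one]

/-! ### The norm of an idele -/

variable (K) in
/-- The finite part of an adele. -/
def sndHom : AdeleRing (𝓞 K) K →* FiniteAdeleRing (𝓞 K) K where
  toFun x := x.2
  map_one' := rfl
  map_mul' _ _ := rfl

variable (K) in
/-- The finite part of an idele. -/
def finPart : (AdeleRing (𝓞 K) K)ˣ →* (FiniteAdeleRing (𝓞 K) K)ˣ := Units.map (sndHom K)

variable (K) in
theorem continuous_finPart : Continuous (finPart K) :=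
  Continuous.units_map (sndHom K) continuous_snd

variable (K) in
/-- The norm of the infinite part of an idele. -/
def infNorm : (AdeleRing (𝓞 K) K)ˣ →* ℝ where
  toFun x := ∏ w : InfinitePlace K, ‖(x : AdeleRing (𝓞 K) K).1 w‖ ^ w.mult
  map_one' := Finset.prod_eq_one fun w _ => by
    have h : ‖((1 : (AdeleRing (𝓞 K) K)ˣ) : AdeleRing (𝓞 K) K).1 w‖ = 1 :=
      norm_one (α := w.Completion)
    rw [h, one_pow]
  map_mul' x y := by
    rw [← Finset.prod_mul_distrib]
    refine Finset.prod_congr rfl fun w _ => ?_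
    rw [← mul_pow]
    congr 1
    exact norm_mul (α := w.Completion) _ _

variable (K) in
theorem continuous_infNorm : Continuous (infNorm K) := by
  refine continuous_finsetProd _ fun w _ => Continuous.pow ?_ _
  have h1 : Continuous fun x : (AdeleRing (𝓞 K) K)ˣ => (x : AdeleRing (𝓞 K) K).1 :=
    continuous_fst.comp Units.continuous_val
  have h2 : Continuous fun x : InfiniteAdeleRing K => x w := continuous_apply w
  exact continuous_norm.comp (h2.comp h1)

variable (K) in
/-- **The norm of an idele**: the product of the normalised absolute values. -/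
def ideleNorm : (AdeleRing (𝓞 K) K)ˣ →* ℝ := infNorm K * (finNorm K).comp (finPart K)

theorem ideleNorm_apply (x : (AdeleRing (𝓞 K) K)ˣ) :
    ideleNorm K x = (∏ w : InfinitePlace K, ‖(x : AdeleRing (𝓞 K) K).1 w‖ ^ w.mult) *
      ∏ᶠ v : HeightOneSpectrum (𝓞 K), ‖(x : AdeleRing (𝓞 K) K).2 v‖ := rfl

variable (K) in
theorem continuous_ideleNorm : Continuous (ideleNorm K) :=
  (continuous_infNorm K).mul ((continuous_finNorm K).comp (continuous_finPart K))

variable (K) in
/-- The principal ideles. -/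
def principalUnit : Kˣ →* (AdeleRing (𝓞 K) K)ˣ := Units.map (algebraMap K (AdeleRing (𝓞 K) K))

theorem norm_principalUnit_fst (x : Kˣ) (w : InfinitePlace K) :
    ‖((principalUnit K x : (AdeleRing (𝓞 K) K)ˣ) : AdeleRing (𝓞 K) K).1 w‖ = w (x : K) := by
  change ‖algebraMap K (InfiniteAdeleRing K) (x : K) w‖ = _
  rw [InfiniteAdeleRing.algebraMap_apply]
  exact InfinitePlace.Completion.norm_coe w _

theorem finPart_principalUnit (x : Kˣ) :
    finPart K (principalUnit K x) = FiniteAdeleRing.unitEmbedding (𝓞 K) K x := rfl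

/-- **The product formula**: principal ideles have norm `1`. -/
theorem ideleNorm_principal (x : Kˣ) : ideleNorm K (principalUnit K x) = 1 := by
  rw [ideleNorm_apply, ← NumberField.prod_abs_eq_one x.ne_zero]
  congr 1
  · exact Finset.prod_congr rfl fun w _ => by rw [norm_principalUnit_fst]
  · rw [← finprod_comp_equiv FinitePlace.equivHeightOneSpectrum.symm]
    refine finprod_congr fun v => ?_
    rw [FinitePlace.equivHeightOneSpectrum_symm_apply]
    rfl

/-! ### Discreteness -/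

variable (K) in
/-- The group of principal ideles. -/
def principalUnits : Subgroup (AdeleRing (𝓞 K) K)ˣ := (principalUnit K).range

/-- **`Kˣ` is discrete in the group of ideles.** -/
instance discreteTopology_principalUnits : DiscreteTopology (principalUnits K) := by
  have hc : Continuous fun x : principalUnits K =>
      (⟨((x : (AdeleRing (𝓞 K) K)ˣ) : AdeleRing (𝓞 K) K), by
        obtain ⟨_, ⟨k, rfl⟩⟩ := x
        exact ⟨(k : K), rfl⟩⟩ : AdeleRing.principalSubgroup (𝓞 K) K) :=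
    Continuous.subtype_mk (Units.continuous_val.comp continuous_subtype_val) _
  refine discreteTopology_iff_isOpen_singleton.mpr fun x => ?_
  have h1 := (isOpen_discrete ({⟨((x : (AdeleRing (𝓞 K) K)ˣ) : AdeleRing (𝓞 K) K), by
        obtain ⟨_, ⟨k, rfl⟩⟩ := x
        exact ⟨(k : K), rfl⟩⟩} : Set (AdeleRing.principalSubgroup (𝓞 K) K))).preimage hc
  refine Eq.mp (congrArg IsOpen ?_) h1
  ext y
  rw [Set.mem_preimage, Set.mem_singleton_iff, Set.mem_singleton_iff]
  constructor
  · intro h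
    exact Subtype.ext (Units.ext (congrArg Subtype.val h))
  · rintro rfl
    rfl

/-! ### Compactness -/

variable (K) in
/-- The group of ideles of norm `1`. -/
def ideleOne : Subgroup (AdeleRing (𝓞 K) K)ˣ := (ideleNorm K).ker

theorem mem_ideleOne {x : (AdeleRing (𝓞 K) K)ˣ} : x ∈ ideleOne K ↔ ideleNorm K x = 1 := Iff.rfl

variable (K) in
theorem isClosed_ideleOne : IsClosed (ideleOne K : Set (AdeleRing (𝓞 K) K)ˣ) :=
  isClosed_singleton.preimage (continuous_ideleNorm K)

variable (K) in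
theorem principalUnits_le : principalUnits K ≤ ideleOne K := by
  rintro _ ⟨k, rfl⟩
  exact ideleNorm_principal k

/-- The units of `𝓞_K` are unit ideles. -/
theorem unit_mem_unitIdeles (ε : (𝓞 K)ˣ) : FiniteAdeleRing.unitEmbedding (𝓞 K) K
    (Units.map (algebraMap (𝓞 K) K) ε) ∈ unitIdeles K := by
  have h : ∀ ε : (𝓞 K)ˣ, ((FiniteAdeleRing.unitEmbedding (𝓞 K) K
      (Units.map (algebraMap (𝓞 K) K) ε) : (FiniteAdeleRing (𝓞 K) K)ˣ) :
        FiniteAdeleRing (𝓞 K) K) ∈ finInt K := by
    intro ε v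
    change Valued.v (ι v ((ε : 𝓞 K) : K)) ≤ 1
    rw [v_ι]
    exact v.valuation_le_one _
  refine mem_unitIdeles_of_int (h ε) ?_
  have h2 := h ε⁻¹
  rw [map_inv, map_inv] at h2
  exact h2

/-- A set of ideles with bounded infinite part and with finite part in a compact set, together with
its inverses, is relatively compact. -/
theorem isCompact_of_bounded (B : ℝ) {Q Q' : Set (FiniteAdeleRing (𝓞 K) K)} (hQ : IsCompact Q)
    (hQ' : IsCompact Q') : IsCompact {x : (AdeleRing (𝓞 K) K)ˣ |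
      ((x : AdeleRing (𝓞 K) K).1 ∈ infBall K B ∧ (x : AdeleRing (𝓞 K) K).2 ∈ Q) ∧
      (((x⁻¹ : (AdeleRing (𝓞 K) K)ˣ) : AdeleRing (𝓞 K) K).1 ∈ infBall K B ∧
        ((x⁻¹ : (AdeleRing (𝓞 K) K)ˣ) : AdeleRing (𝓞 K) K).2 ∈ Q')} := by
  have h1 : IsCompact {x : AdeleRing (𝓞 K) K | x.1 ∈ infBall K B ∧ x.2 ∈ Q} :=
    (isCompact_infBall K B).prod hQ
  have h2 : IsCompact {x : AdeleRing (𝓞 K) K | x.1 ∈ infBall K B ∧ x.2 ∈ Q'} :=
    (isCompact_infBall K B).prod hQ'
  have h3 : IsCompact (MulOpposite.unop ⁻¹' {x : AdeleRing (𝓞 K) K |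
      x.1 ∈ infBall K B ∧ x.2 ∈ Q'}) :=
    (MulOpposite.opHomeomorph.symm.isClosedEmbedding).isCompact_preimage h2
  exact (Units.isClosedEmbedding_embedProduct (α := AdeleRing (𝓞 K) K)).isCompact_preimage
    (h1.prod h3)

theorem compactSpace_quotient_group {G : Type*} [CommGroup G] [TopologicalSpace G]
    (H : Subgroup G) {C : Set G} (hC : IsCompact C) (h : ∀ x : G, ∃ a ∈ H, a * x ∈ C) :
    CompactSpace (G ⧸ H) := by
  have h1 : (QuotientGroup.mk : G → G ⧸ H) '' C = Set.univ := by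
    rw [Set.eq_univ_iff_forall]
    intro y
    obtain ⟨x, rfl⟩ := QuotientGroup.mk_surjective y
    obtain ⟨a, ha, hx⟩ := h x
    refine ⟨a * x, hx, ?_⟩
    rw [QuotientGroup.eq]
    have h2 : (a * x)⁻¹ * x = a⁻¹ := by
      rw [mul_inv_rev, mul_comm x⁻¹, inv_mul_cancel_right]
    rw [h2]
    exact inv_mem ha
  rw [← isCompact_univ_iff, ← h1]
  exact hC.image continuous_quot_mk

variable (K) in
/-- There is a compact set `D` of ideles with `𝔸ˣ¹ ⊆ Kˣ D`. -/
theorem exists_compact_ideles : ∃ D : Set (AdeleRing (𝓞 K) K)ˣ, IsCompact D ∧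
    ∀ x ∈ ideleOne K, ∃ k : Kˣ, principalUnit K k * x ∈ D := by
  classical
  choose r hr using surjective_ideleClass K
  obtain ⟨C, hC0, hC⟩ := exists_unit_bound K
  set M : ℝ := ∑ c, |Real.log (finNorm K (r c))| with hM
  set B : ℝ := Real.exp (C + M) with hB
  set Q : Set (FiniteAdeleRing (𝓞 K) K) :=
    ⋃ c, (fun y => (r c : FiniteAdeleRing (𝓞 K) K) * y) '' finInt K with hQ
  set Q' : Set (FiniteAdeleRing (𝓞 K) K) :=
    ⋃ c, (fun y => (((r c)⁻¹ : (FiniteAdeleRing (𝓞 K) K)ˣ) : FiniteAdeleRing (𝓞 K) K) * y) ''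
      finInt K with hQ'
  have hQc : IsCompact Q := isCompact_iUnion fun c =>
    (isCompact_finInt K).image (continuous_const.mul continuous_id)
  have hQc' : IsCompact Q' := isCompact_iUnion fun c =>
    (isCompact_finInt K).image (continuous_const.mul continuous_id)
  refine ⟨_, isCompact_of_bounded B hQc hQc', fun x hx => ?_⟩
  -- the finite part
  set c := ideleClass K (finPart K x) with hc
  have h1 : ideleClass K (finPart K x * (r c)⁻¹) = 1 := by
    rw [map_mul, map_inv, hr, ← hc, mul_inv_cancel]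
  obtain ⟨k, u, hu, hk⟩ := ideleClass_eq_one_iff.mp h1
  set y : (AdeleRing (𝓞 K) K)ˣ := principalUnit K k⁻¹ * x with hy
  have hyf : finPart K y = r c * u := by
    have h2 : finPart K x = FiniteAdeleRing.unitEmbedding (𝓞 K) K k * u * r c := by
      rw [← hk, inv_mul_cancel_right]
    rw [hy, map_mul, finPart_principalUnit, h2, map_inv, mul_assoc, inv_mul_cancel_left]
    exact mul_comm _ _
  have hynorm : infNorm K y * finNorm K (r c) = 1 := by
    have h2 : ideleNorm K y = 1 := by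
      rw [hy, map_mul, ideleNorm_principal, one_mul]
      exact hx
    have h3 : ideleNorm K y = infNorm K y * finNorm K (finPart K y) := rfl
    have h4 : finNorm K (r c * u) = finNorm K (r c) := by
      rw [map_mul, finNorm_unit hu, mul_one]
    rw [h3, hyf, h4] at h2
    exact h2
  -- the infinite part
  have hpos : ∀ (z : (AdeleRing (𝓞 K) K)ˣ) (w : InfinitePlace K),
      ‖(z : AdeleRing (𝓞 K) K).1 w‖ * ‖((z⁻¹ : (AdeleRing (𝓞 K) K)ˣ) :
        AdeleRing (𝓞 K) K).1 w‖ = 1 := by
    intro z w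
    have h2 : (z : AdeleRing (𝓞 K) K).1 w *
        ((z⁻¹ : (AdeleRing (𝓞 K) K)ˣ) : AdeleRing (𝓞 K) K).1 w = 1 :=
      congrArg (fun t : AdeleRing (𝓞 K) K => t.1 w) (Units.mul_inv z)
    rw [← norm_mul, h2, norm_one]
  have hne : ∀ (z : (AdeleRing (𝓞 K) K)ˣ) (w : InfinitePlace K),
      0 < ‖(z : AdeleRing (𝓞 K) K).1 w‖ := by
    intro z w
    refine lt_of_le_of_ne (norm_nonneg _) fun h => ?_
    have h2 := hpos z w
    rw [← h, zero_mul] at h2
    exact zero_ne_one h2
  set L : ℝ := Real.log (finNorm K (r c)) with hL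
  set d : ℝ := (Module.finrank ℚ K : ℝ) with hd
  have hd1 : 1 ≤ d := by
    rw [hd]
    exact_mod_cast Module.finrank_pos (R := ℚ) (M := K)
  have hmult : ∑ w : InfinitePlace K, (w.mult : ℝ) = d := by
    rw [hd, ← InfinitePlace.sum_mult_eq (K := K)]
    push_cast
    rfl
  have hlog : ∑ w : InfinitePlace K, (w.mult : ℝ) * Real.log ‖(y : AdeleRing (𝓞 K) K).1 w‖ =
      -L := by
    have h2 : Real.log (infNorm K y * finNorm K (r c)) = 0 := by rw [hynorm, Real.log_one]
    have h3 : infNorm K y ≠ 0 := left_ne_zero_of_mul_eq_one hynorm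
    rw [Real.log_mul h3 (finNorm_pos _).ne'] at h2
    have h4 : Real.log (infNorm K y) =
        ∑ w : InfinitePlace K, (w.mult : ℝ) * Real.log ‖(y : AdeleRing (𝓞 K) K).1 w‖ := by
      change Real.log (∏ w : InfinitePlace K, ‖(y : AdeleRing (𝓞 K) K).1 w‖ ^ w.mult) = _
      rw [Real.log_prod fun w _ => pow_ne_zero _ (hne y w).ne']
      exact Finset.sum_congr rfl fun w _ => Real.log_pow _ _
    rw [← h4]
    linarith
  obtain ⟨ε, hε⟩ := hC (fun w => Real.log ‖(y : AdeleRing (𝓞 K) K).1 w‖ + L / d) (by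
    simp only [mul_add, Finset.sum_add_distrib]
    rw [hlog, ← Finset.sum_mul, hmult]
    field_simp
    ring)
  set e : Kˣ := Units.map (algebraMap (𝓞 K) K) ε with he
  refine ⟨e * k⁻¹, ?_⟩
  have hz : principalUnit K (e * k⁻¹) * x = principalUnit K e * y := by
    rw [map_mul, mul_assoc]
  rw [hz]
  set z : (AdeleRing (𝓞 K) K)ˣ := principalUnit K e * y with hz'
  have hzw : ∀ w : InfinitePlace K, |Real.log ‖(z : AdeleRing (𝓞 K) K).1 w‖| ≤ C + M := by
    intro w
    have h2 : ‖(z : AdeleRing (𝓞 K) K).1 w‖ =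
        w ((ε : 𝓞 K) : K) * ‖(y : AdeleRing (𝓞 K) K).1 w‖ := by
      have h3 : (z : AdeleRing (𝓞 K) K).1 w =
          ((principalUnit K e : (AdeleRing (𝓞 K) K)ˣ) : AdeleRing (𝓞 K) K).1 w *
            (y : AdeleRing (𝓞 K) K).1 w := rfl
      rw [h3, norm_mul, norm_principalUnit_fst]
      rfl
    have hε0 : w ((ε : 𝓞 K) : K) ≠ 0 := by
      rw [ne_eq, map_eq_zero]
      exact e.ne_zero
    rw [h2, Real.log_mul hε0 (hne y w).ne']
    have h4 := hε w
    have h5 : |L / d| ≤ M := by
      rw [abs_div, abs_of_pos (show (0 : ℝ) < d by linarith)]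
      refine (div_le_self (abs_nonneg _) hd1).trans ?_
      exact Finset.single_le_sum (f := fun c => |Real.log (finNorm K (r c))|)
        (fun _ _ => abs_nonneg _) (Finset.mem_univ c)
    have h6 : Real.log (w ((ε : 𝓞 K) : K)) + Real.log ‖(y : AdeleRing (𝓞 K) K).1 w‖ =
        (Real.log ‖(y : AdeleRing (𝓞 K) K).1 w‖ + L / d + Real.log (w ((ε : 𝓞 K) : K))) -
          L / d := by ring
    rw [h6]
    exact (abs_sub _ _).trans (add_le_add h4 h5)
  have hzf : finPart K z = r c * (FiniteAdeleRing.unitEmbedding (𝓞 K) K e * u) := by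
    rw [hz', map_mul, finPart_principalUnit, hyf]
    exact mul_left_comm _ _ _
  have hzu : FiniteAdeleRing.unitEmbedding (𝓞 K) K e * u ∈ unitIdeles K :=
    mul_mem (unit_mem_unitIdeles ε) hu
  refine ⟨⟨fun w => ?_, ?_⟩, ⟨fun w => ?_, ?_⟩⟩
  · rw [hB, ← Real.log_le_iff_le_exp (hne z w)]
    exact (le_abs_self _).trans (hzw w)
  · have h2 : (z : AdeleRing (𝓞 K) K).2 = ((finPart K z : (FiniteAdeleRing (𝓞 K) K)ˣ) :
        FiniteAdeleRing (𝓞 K) K) := rfl
    rw [h2, hzf, Set.mem_iUnion]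
    exact ⟨c, _, fun v => (hzu v).le, rfl⟩
  · rw [hB, ← Real.log_le_iff_le_exp (hne z⁻¹ w)]
    have h2 : Real.log ‖((z⁻¹ : (AdeleRing (𝓞 K) K)ˣ) : AdeleRing (𝓞 K) K).1 w‖ =
        -Real.log ‖(z : AdeleRing (𝓞 K) K).1 w‖ := by
      have h3 := congrArg Real.log (hpos z w)
      rw [Real.log_mul (hne z w).ne' (hne z⁻¹ w).ne', Real.log_one] at h3
      linarith
    rw [h2]
    exact (neg_le_abs _).trans (hzw w)
  · have h2 : ((z⁻¹ : (AdeleRing (𝓞 K) K)ˣ) : AdeleRing (𝓞 K) K).2 =
        (((finPart K z)⁻¹ : (FiniteAdeleRing (𝓞 K) K)ˣ) : FiniteAdeleRing (𝓞 K) K) := rfl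
    rw [h2, hzf, mul_inv, Set.mem_iUnion]
    exact ⟨c, _, fun v => ((inv_mem hzu : (_ * u)⁻¹ ∈ unitIdeles K) v).le, rfl⟩

variable (K) in
/-- **The norm one idele class group `𝔸ˣ¹ / Kˣ` of a number field is compact.** -/
theorem compactSpace_ideleOne_quotient :
    CompactSpace (ideleOne K ⧸ (principalUnits K).subgroupOf (ideleOne K)) := by
  obtain ⟨D, hD, h⟩ := exists_compact_ideles K
  have h1 : IsCompact ((Subtype.val : ideleOne K → (AdeleRing (𝓞 K) K)ˣ) ⁻¹' D) :=
    (isClosed_ideleOne K).isClosedEmbedding_subtypeVal.isCompact_preimage hD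
  refine compactSpace_quotient_group _ h1 fun x => ?_
  obtain ⟨k, hk⟩ := h x x.2
  exact ⟨⟨principalUnit K k, ideleNorm_principal k⟩, ⟨k, rfl⟩, hk⟩

end Fermat.Agent.Cor.Adele
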