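import Fermat.Agent.LT.SApprox

/-!
# Ostrowski's theorem for number fields

`K` a number field. `ostrowski` : every non-trivial absolute value `K → ℝ` is equivalent to exactly
one place of `K`: either to the absolute value of exactly one infinite place, or to the `v`-adic
absolute value for exactly one maximal ideal `v` of `𝓞_K` (and not both).
-/

set_option autoImplicit false

open NumberField IsDedekindDomain HeightOneSpectrum WithZero Filter Topology
open scoped WithZero

noncomputable section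

namespace Fermat.Agent.Cor.Adele

open Fermat.Agent.LT.Loc

variable {K : Type*} [Field K] [NumberField K]

/-! ### The non-archimedean case -/

omit [NumberField K] in
theorem abv_intCast_le_one {f : AbsoluteValue K ℝ} (hb : ∀ n : ℕ, f n ≤ 1) (n : ℤ) :
    f (n : K) ≤ 1 := by
  obtain ⟨m, rfl | rfl⟩ := n.eq_nat_or_neg
  · rw [Int.cast_natCast]
    exact hb m
  · rw [Int.cast_neg, f.map_neg, Int.cast_natCast]
    exact hb m

/-- An absolute value bounded on `ℕ` is at most `1` on the integers of `K`. -/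
theorem abv_integer_le_one {f : AbsoluteValue K ℝ} (hb : ∀ n : ℕ, f n ≤ 1) (x : 𝓞 K) :
    f (x : K) ≤ 1 := by
  classical
  set b := RingOfIntegers.basis K
  have h1 : ∀ y : 𝓞 K, f (y : K) ≤ ∑ i, f (b i : K) := by
    intro y
    have h2 : (y : K) = ∑ i, ((b.repr y i : ℤ) : K) * (b i : K) := by
      conv_lhs => rw [← b.sum_repr y]
      simp [zsmul_eq_mul]
    rw [h2]
    refine (f.sum_le _ _).trans (Finset.sum_le_sum fun i _ => ?_)
    rw [map_mul]
    exact mul_le_of_le_one_left (f.nonneg _) (abv_intCast_le_one hb _)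
  by_contra h
  push Not at h
  obtain ⟨n, hn⟩ := pow_unbounded_of_one_lt (∑ i, f (b i : K)) h
  have h3 := h1 (x ^ n)
  rw [RingOfIntegers.coe_eq_algebraMap, map_pow, map_pow] at h3
  exact absurd hn (not_lt.mpr h3)

omit [NumberField K] in
theorem abv_add_lt_one {f : AbsoluteValue K ℝ} (hb : ∀ n : ℕ, f n ≤ 1) {x y : K} (hx : f x < 1)
    (hy : f y < 1) : f (x + y) < 1 := by
  set r : ℝ := max (f x) (f y) with hr
  have hr0 : 0 ≤ r := (f.nonneg x).trans (le_max_left _ _)
  have hr1 : r < 1 := max_lt hx hy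
  have h1 : ∀ n : ℕ, f (x + y) ^ n ≤ n * r ^ n + r ^ n := by
    intro n
    rw [← map_pow, add_pow]
    refine (f.sum_le _ _).trans ?_
    have h2 : ∀ m ∈ Finset.range (n + 1), f (x ^ m * y ^ (n - m) * (n.choose m : K)) ≤ r ^ n := by
      intro m hm
      have hmn : m ≤ n := Nat.lt_succ_iff.mp (Finset.mem_range.mp hm)
      rw [map_mul, map_mul, map_pow, map_pow]
      refine (mul_le_of_le_one_right (by positivity) (hb _)).trans ?_
      have h3 : r ^ n = r ^ m * r ^ (n - m) := by rw [← pow_add, Nat.add_sub_cancel' hmn]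
      rw [h3]
      exact mul_le_mul (pow_le_pow_left₀ (f.nonneg _) (le_max_left _ _) _)
        (pow_le_pow_left₀ (f.nonneg _) (le_max_right _ _) _) (by positivity) (by positivity)
    refine (Finset.sum_le_sum h2).trans (le_of_eq ?_)
    rw [Finset.sum_const, Finset.card_range, nsmul_eq_mul]
    push_cast
    ring
  have h2 : Tendsto (fun n : ℕ => (n : ℝ) * r ^ n + r ^ n) atTop (𝓝 0) := by
    have h3 := (tendsto_self_mul_const_pow_of_lt_one hr0 hr1).add
      (tendsto_pow_atTop_nhds_zero_of_lt_one hr0 hr1)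
    rwa [add_zero] at h3
  obtain ⟨n, hn⟩ := (h2.eventually_lt_const one_pos).exists
  by_contra h
  push Not at h
  exact absurd (one_le_pow₀ h) (not_le.mpr ((h1 n).trans_lt hn))

/-- The ideal of all integers `x` with `f x < 1`. -/
def abvIdeal (f : AbsoluteValue K ℝ) (hb : ∀ n : ℕ, f n ≤ 1) : Ideal (𝓞 K) where
  carrier := {x | f (x : K) < 1}
  add_mem' {x y} hx hy := by
    have h := abv_add_lt_one hb hx hy
    exact h
  zero_mem' := by
    change f ((0 : 𝓞 K) : K) < 1
    simp
  smul_mem' c x hx := by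
    have hx' : f (x : K) < 1 := hx
    change f (((c * x : 𝓞 K)) : K) < 1
    rw [RingOfIntegers.coe_eq_algebraMap, map_mul, map_mul]
    exact lt_of_le_of_lt (mul_le_of_le_one_left (f.nonneg _) (abv_integer_le_one hb c)) hx'

theorem isEquiv_adicAbv {f : AbsoluteValue K ℝ} (hf : f.IsNontrivial) (hb : ∀ n : ℕ, f n ≤ 1) :
    ∃ v : HeightOneSpectrum (𝓞 K), f.IsEquiv (adicAbv K v) := by
  classical
  set P := abvIdeal f hb with hP
  have hmem : ∀ x : 𝓞 K, x ∈ P ↔ f (x : K) < 1 := fun x => Iff.rfl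
  have hone : ∀ x : 𝓞 K, x ∉ P → f (x : K) = 1 := fun x hx =>
    le_antisymm (abv_integer_le_one hb x) (not_lt.mp fun h => hx ((hmem x).mpr h))
  have hprime : P.IsPrime := by
    refine Ideal.isPrime_iff.mpr ⟨?_, fun {x y} hxy => ?_⟩
    · rw [Ideal.ne_top_iff_one, hmem]
      simp
    · by_contra h
      rw [not_or] at h
      rw [hmem, RingOfIntegers.coe_eq_algebraMap, map_mul, map_mul] at hxy
      have h1 := hone x h.1
      have h2 := hone y h.2
      rw [RingOfIntegers.coe_eq_algebraMap] at h1 h2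
      rw [h1, h2, mul_one] at hxy
      exact lt_irrefl _ hxy
  have hne : P ≠ ⊥ := by
    intro h
    have h1 : ∀ x : 𝓞 K, x ≠ 0 → f (x : K) = 1 := fun x hx => hone x fun hx' => by
      rw [h, Ideal.mem_bot] at hx'
      exact hx hx'
    obtain ⟨x, hx0, hx1⟩ := hf
    obtain ⟨a, b, hb', rfl⟩ := IsFractionRing.div_surjective (A := 𝓞 K) x
    have hb0 : b ≠ 0 := nonZeroDivisors.ne_zero hb'
    have ha0 : a ≠ 0 := by
      rintro rfl
      exact hx0 (by rw [map_zero, zero_div])
    refine hx1 ?_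
    rw [map_div₀]
    have h2 := h1 a ha0
    have h3 := h1 b hb0
    rw [RingOfIntegers.coe_eq_algebraMap] at h2 h3
    rw [h2, h3, div_one]
  set v : HeightOneSpectrum (𝓞 K) := ⟨P, hprime, hne⟩ with hv
  have hlt : ∀ x : K, adicAbv K v x < 1 ↔ v.valuation K x < 1 := by
    intro x
    rw [adicAbv_def]
    exact_mod_cast WithZeroMulInt.toNNReal_lt_one_iff (one_lt_absNorm_nnreal v)
  have hnt : (adicAbv K v).IsNontrivial := by
    obtain ⟨a, ha, ha0⟩ := Submodule.exists_mem_ne_zero_of_ne_bot hne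
    refine ⟨(a : K), by exact_mod_cast ha0, ne_of_lt ?_⟩
    rw [hlt]
    exact (HeightOneSpectrum.valuation_lt_one_iff_mem v a).mpr ha
  refine ⟨v, (AbsoluteValue.isEquiv_of_lt_one_imp hnt fun x hx => ?_).symm⟩
  rw [hlt] at hx
  have hfin : {w : HeightOneSpectrum (𝓞 K) |
      ¬ Valued.v ((algebraMap K (FiniteAdeleRing (𝓞 K) K) x) w) ≤ 1}.Finite :=
    (algebraMap K (FiniteAdeleRing (𝓞 K) K) x).2
  set T : Finset (HeightOneSpectrum (𝓞 K)) := hfin.toFinset.erase v with hT
  have hTv : v ∉ T := Finset.notMem_erase _ _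
  obtain ⟨u, -, hu1, hu2⟩ := exists_sunit T
  obtain ⟨n, hn⟩ := exists_pow_mul_le T u hu2 (fun w => ι w.1 x) one_ne_zero
  have hz : ∀ w : HeightOneSpectrum (𝓞 K), w.valuation K ((u : K) ^ n * x) ≤ 1 := by
    intro w
    by_cases hwT : w ∈ T
    · have h1 := hn ⟨w, hwT⟩
      rw [← map_pow, ← map_mul, v_ι] at h1
      exact h1
    · have h2 : w.valuation K x ≤ 1 := by
        by_cases hwv : w = v
        · rw [hwv]
          exact hx.le
        · by_contra hc
          refine hwT (Finset.mem_erase.mpr ⟨hwv, hfin.mem_toFinset.mpr ?_⟩)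
          intro h3
          refine hc ?_
          rw [← v_ι]
          exact h3
      rw [map_mul, map_pow, hu1 w hwT, one_pow, one_mul]
      exact h2
  obtain ⟨a, ha⟩ := HeightOneSpectrum.mem_integers_of_valuation_le_one K _ hz
  have hu : f (u : K) = 1 := by
    refine hone u fun h => ?_
    have h1 : v.valuation K (u : K) < 1 := (HeightOneSpectrum.valuation_lt_one_iff_mem v u).mpr h
    rw [hu1 v hTv] at h1
    exact lt_irrefl _ h1
  have haP : a ∈ P := by
    have h1 : v.valuation K (a : K) < 1 := by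
      rw [RingOfIntegers.coe_eq_algebraMap, ha, map_mul, map_pow, hu1 v hTv, one_pow, one_mul]
      exact hx
    exact (HeightOneSpectrum.valuation_lt_one_iff_mem v a).mp h1
  rw [hmem, RingOfIntegers.coe_eq_algebraMap, ha, map_mul, map_pow, hu, one_pow, one_mul] at haP
  exact haP

/-! ### The archimedean case -/

theorem isEquiv_infinitePlace {f : AbsoluteValue K ℝ} (hb : ¬ ∀ n : ℕ, f n ≤ 1) :
    ∃ w : InfinitePlace K, f.IsEquiv w.1 := by
  classical
  by_contra hcon
  push Not at hcon
  -- the restriction to `ℚ`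
  set g : AbsoluteValue ℚ ℝ := f.comp (algebraMap ℚ K).injective with hg
  have hgq : ∀ q : ℚ, g q = f (q : K) := fun q => by
    rw [← eq_ratCast (algebraMap ℚ K) q]
    rfl
  have hgb : ¬ ∀ n : ℕ, g n ≤ 1 := by
    intro h
    refine hb fun n => ?_
    have h1 := h n
    rw [hgq] at h1
    exact_mod_cast h1
  obtain ⟨c, hc, hgc⟩ := AbsoluteValue.isEquiv_iff_exists_rpow_eq.mp
    (Rat.AbsoluteValue.equiv_real_of_unbounded hgb)
  have hgc' : ∀ q : ℚ, f (q : K) = |(q : ℝ)| ^ c⁻¹ := by
    intro q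
    have h1 : g q ^ c = |(q : ℝ)| := by
      have h2 := congrFun hgc q
      rw [Rat.AbsoluteValue.real_eq_abs] at h2
      rw [← Rat.cast_abs]
      exact h2
    rw [← h1, ← Real.rpow_mul (g.nonneg q), mul_inv_cancel₀ hc.ne', Real.rpow_one, hgq]
  have hfn : f.IsNontrivial := by
    push Not at hb
    obtain ⟨n, hn⟩ := hb
    refine ⟨(n : K), ?_, hn.ne'⟩
    rintro h0
    rw [h0, map_zero] at hn
    linarith
  -- an element which is small at all infinite places and large for `f`
  obtain ⟨a, ha1, ha2⟩ : ∃ a : K, 1 < f a ∧ ∀ w : InfinitePlace K, w a < 1 := by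
    obtain ⟨a, h1, h2⟩ := AbsoluteValue.exists_one_lt_lt_one_pi_of_not_isEquiv
      (v := fun o : Option (InfinitePlace K) => o.elim f fun w => w.1)
      (fun o => by
        cases o with
        | none => exact hfn
        | some w => exact w.isNontrivial)
      (fun o o' hoo' => by
        cases o with
        | none =>
          cases o' with
          | none => exact absurd rfl hoo'
          | some w => exact hcon w
        | some w =>
          cases o' with
          | none => exact fun h => hcon w h.symm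
          | some w' => exact fun h => hoo' (congrArg some (InfinitePlace.eq_iff_isEquiv.mpr h))) none
    exact ⟨a, h1, fun w => h2 (some w) (Option.some_ne_none w)⟩
  -- `a ^ n → 0` in `K ⊗ ℝ`
  set r : ℝ := Finset.univ.sup' Finset.univ_nonempty fun w : InfinitePlace K => w a with hr
  have hr1 : r < 1 := (Finset.sup'_lt_iff _).mpr fun w _ => ha2 w
  have hr0 : 0 ≤ r := by
    obtain ⟨w⟩ : Nonempty (InfinitePlace K) := inferInstance
    exact (apply_nonneg w a).trans
      (Finset.le_sup' (fun w : InfinitePlace K => w a) (Finset.mem_univ w))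
  have h1 : Tendsto (fun n : ℕ => mixedEmbedding K (a ^ n)) atTop (𝓝 0) := by
    rw [tendsto_zero_iff_norm_tendsto_zero]
    refine squeeze_zero (fun n => norm_nonneg _) (fun n => ?_)
      (tendsto_pow_atTop_nhds_zero_of_lt_one hr0 hr1)
    rw [mixedEmbedding.norm_eq_sup'_normAtPlace]
    refine Finset.sup'_le _ _ fun w _ => ?_
    rw [mixedEmbedding.normAtPlace_apply, map_pow]
    exact pow_le_pow_left₀ (apply_nonneg w a)
      (Finset.le_sup' (fun w : InfinitePlace K => w a) (Finset.mem_univ w)) n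
  have h2 : ∀ i, Tendsto (fun n : ℕ => |(((integralBasis K).repr (a ^ n) i : ℚ) : ℝ)|) atTop
      (𝓝 0) := by
    intro i
    have h3 : Continuous fun x : mixedEmbedding.mixedSpace K =>
        (mixedEmbedding.latticeBasis K).repr x i :=
      LinearMap.continuous_of_finiteDimensional
        ((Finsupp.lapply i).comp (mixedEmbedding.latticeBasis K).repr.toLinearMap)
    have h4 := ((h3.tendsto 0).comp h1).abs
    simp only [map_zero, Finsupp.coe_zero, Pi.zero_apply, abs_zero] at h4
    refine h4.congr fun n => ?_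
    simp only [Function.comp_apply, mixedEmbedding.latticeBasis_repr_apply]
  have h3 : Tendsto (fun n : ℕ => ∑ i, |(((integralBasis K).repr (a ^ n) i : ℚ) : ℝ)| ^ c⁻¹ *
      f (integralBasis K i)) atTop (𝓝 0) := by
    have h4 : Tendsto (fun n : ℕ => ∑ i, |(((integralBasis K).repr (a ^ n) i : ℚ) : ℝ)| ^ c⁻¹ *
        f (integralBasis K i)) atTop (𝓝 (∑ i, (0 : ℝ) ^ c⁻¹ * f (integralBasis K i))) :=
      tendsto_finsetSum _ fun i _ => ((h2 i).rpow_const (Or.inr (inv_nonneg.mpr hc.le))).mul_const _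
    simpa [Real.zero_rpow (inv_ne_zero hc.ne')] using h4
  obtain ⟨n, hn⟩ := (h3.eventually_lt_const one_pos).exists
  have h4 : f (a ^ n) ≤ ∑ i, |(((integralBasis K).repr (a ^ n) i : ℚ) : ℝ)| ^ c⁻¹ *
      f (integralBasis K i) := by
    conv_lhs => rw [← (integralBasis K).sum_repr (a ^ n)]
    refine (f.sum_le _ _).trans (Finset.sum_le_sum fun i _ => ?_)
    rw [Algebra.smul_def, map_mul, eq_ratCast, hgc']
  rw [map_pow] at h4
  exact absurd (one_le_pow₀ ha1.le) (not_le.mpr (h4.trans_lt hn))

/-! ### Ostrowski's theorem -/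

/-- The absolute value of a place. -/
def placeAbv : InfinitePlace K ⊕ HeightOneSpectrum (𝓞 K) → AbsoluteValue K ℝ
  | Sum.inl w => w.1
  | Sum.inr v => adicAbv K v

theorem not_isEquiv_adicAbv (w : InfinitePlace K) (v : HeightOneSpectrum (𝓞 K)) :
    ¬ w.1.IsEquiv (adicAbv K v) := by
  intro h
  have h1 : w.1 ((2 : ℕ) : K) = 2 := by
    change w ((2 : ℕ) : K) = 2
    rw [← InfinitePlace.norm_embedding_eq, map_natCast, Complex.norm_natCast]
    norm_num
  have h2 : adicAbv K v ((2 : ℕ) : K) ≤ 1 := adicAbv_natCast_le_one K v 2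
  rw [← h.le_one_iff, h1] at h2
  norm_num at h2

theorem eq_of_isEquiv_adicAbv {v v' : HeightOneSpectrum (𝓞 K)}
    (h : (adicAbv K v).IsEquiv (adicAbv K v')) : v = v' := by
  refine HeightOneSpectrum.ext (Ideal.ext fun x => ?_)
  rw [← v.adicAbv_coe_lt_one_iff (K := K) (one_lt_absNorm_nnreal v),
    ← v'.adicAbv_coe_lt_one_iff (K := K) (one_lt_absNorm_nnreal v')]
  exact h.lt_one_iff

/-- Different places are not equivalent. -/
theorem eq_of_isEquiv_placeAbv {P Q : InfinitePlace K ⊕ HeightOneSpectrum (𝓞 K)}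
    (h : (placeAbv P).IsEquiv (placeAbv Q)) : P = Q := by
  rcases P with w | v <;> rcases Q with w' | v'
  · exact congrArg Sum.inl (InfinitePlace.eq_iff_isEquiv.mpr h)
  · exact absurd h (not_isEquiv_adicAbv w v')
  · exact absurd h.symm (not_isEquiv_adicAbv w' v)
  · exact congrArg Sum.inr (eq_of_isEquiv_adicAbv h)

/-- **Ostrowski's theorem for number fields**: every non-trivial absolute value `K → ℝ` is
equivalent to the absolute value of exactly one place of `K`, infinite or finite. -/
theorem ostrowski {f : AbsoluteValue K ℝ} (hf : f.IsNontrivial) :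
    ∃! P : InfinitePlace K ⊕ HeightOneSpectrum (𝓞 K), f.IsEquiv (placeAbv P) := by
  obtain ⟨P, hP⟩ : ∃ P : InfinitePlace K ⊕ HeightOneSpectrum (𝓞 K), f.IsEquiv (placeAbv P) := by
    by_cases hb : ∀ n : ℕ, f n ≤ 1
    · obtain ⟨v, hv⟩ := isEquiv_adicAbv hf hb
      exact ⟨Sum.inr v, hv⟩
    · obtain ⟨w, hw⟩ := isEquiv_infinitePlace hb
      exact ⟨Sum.inl w, hw⟩
  exact ⟨P, hP, fun Q hQ => eq_of_isEquiv_placeAbv (hQ.symm.trans hP)⟩

end Fermat.Agent.Cor.Adele
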