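import Fermat.Agent.LT.SUnitBound
import Fermat.Agent.LT.SApprox

/-!
# The product formula is the only relation between the absolute values of a number field

`K` a number field. `product_formula_unique` : if `c` is a family of real exponents, indexed by the
places of `K`, and if `∏_w |x|_w ^ (c_w m_w) · ∏_v |x|_v ^ c_v = 1` for all `x ≠ 0` in `K`, then all
exponents are equal.
-/

set_option autoImplicit false

open NumberField IsDedekindDomain HeightOneSpectrum WithZero Filter Topology
open scoped WithZero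

noncomputable section

namespace Fermat.Agent.Cor.Adele

open Fermat.Agent.LT.Loc

variable {K : Type*} [Field K] [NumberField K]

/-- A linear form which vanishes on the logarithms of all units is a multiple of the trace form. -/
theorem eq_of_forall_unit (c : InfinitePlace K → ℝ)
    (h : ∀ ε : (𝓞 K)ˣ, ∑ w : InfinitePlace K, c w * w.mult * Real.log (w ((ε : 𝓞 K) : K)) = 0)
    (w w' : InfinitePlace K) : c w = c w' := by
  classical
  obtain ⟨C, hC0, hC⟩ := exists_unit_bound K
  have h1 : ∀ x : InfinitePlace K → ℝ, ∑ u : InfinitePlace K, (u.mult : ℝ) * x u = 0 →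
      ∑ u : InfinitePlace K, c u * u.mult * x u = 0 := by
    intro x hx
    by_contra hne
    set φ : ℝ := ∑ u : InfinitePlace K, c u * u.mult * x u with hφ
    set M : ℝ := ∑ u : InfinitePlace K, |c u * u.mult| * C with hM
    have hbd : ∀ t : ℝ, |t * φ| ≤ M := by
      intro t
      obtain ⟨ε, hε⟩ := hC (fun u => t * x u) (by
        have h2 : ∀ u : InfinitePlace K, (u.mult : ℝ) * (t * x u) = t * ((u.mult : ℝ) * x u) :=
          fun u => by ring
        rw [Finset.sum_congr rfl fun u _ => h2 u, ← Finset.mul_sum, hx, mul_zero])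
      have h3 : t * φ = ∑ u : InfinitePlace K, c u * u.mult *
          (t * x u + Real.log (u ((ε : 𝓞 K) : K))) := by
        simp only [mul_add, Finset.sum_add_distrib]
        rw [h ε, add_zero, hφ, Finset.mul_sum]
        exact Finset.sum_congr rfl fun u _ => by ring
      rw [h3]
      refine (Finset.abs_sum_le_sum_abs _ _).trans (Finset.sum_le_sum fun u _ => ?_)
      rw [abs_mul]
      exact mul_le_mul_of_nonneg_left (hε u) (abs_nonneg _)
    have h4 := hbd ((M + 1) / φ)
    rw [div_mul_cancel₀ _ hne] at h4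
    linarith [le_abs_self (M + 1)]
  have h5 := h1 (fun u => (if u = w then ((w.mult : ℝ))⁻¹ else 0) -
    if u = w' then ((w'.mult : ℝ))⁻¹ else 0) (by
      simp only [mul_sub, mul_ite, mul_zero, Finset.sum_sub_distrib, Finset.sum_ite_eq',
        Finset.mem_univ, if_true]
      rw [mul_inv_cancel₀ (by exact_mod_cast w.mult_ne_zero),
        mul_inv_cancel₀ (by exact_mod_cast w'.mult_ne_zero), sub_self])
  simp only [mul_sub, mul_ite, mul_zero, Finset.sum_sub_distrib, Finset.sum_ite_eq',
    Finset.mem_univ, if_true] at h5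
  rw [mul_assoc, mul_inv_cancel₀ (by exact_mod_cast w.mult_ne_zero), mul_assoc,
    mul_inv_cancel₀ (by exact_mod_cast w'.mult_ne_zero), mul_one, mul_one] at h5
  linarith

theorem adicAbv_eq_one_iff (v : HeightOneSpectrum (𝓞 K)) (x : K) :
    adicAbv K v x = 1 ↔ v.valuation K x = 1 := by
  rw [adicAbv_def, NNReal.coe_eq_one]
  exact WithZeroMulInt.toNNReal_eq_one_iff _ _ (one_lt_absNorm_nnreal v).ne'

theorem adicAbv_unit (v : HeightOneSpectrum (𝓞 K)) (ε : (𝓞 K)ˣ) :
    adicAbv K v ((ε : 𝓞 K) : K) = 1 :=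
  (v.adicAbv_coe_eq_one_iff (K := K) (one_lt_absNorm_nnreal v) (ε : 𝓞 K)).mpr fun h =>
    v.isPrime.ne_top (Ideal.eq_top_of_isUnit_mem _ h ε.isUnit)

theorem log_prod_rpow (c : InfinitePlace K → ℝ) {x : K} (hx : x ≠ 0) :
    Real.log (∏ w : InfinitePlace K, w x ^ (c w * w.mult)) =
      ∑ w : InfinitePlace K, c w * w.mult * Real.log (w x) := by
  have h : ∀ w : InfinitePlace K, 0 < w x := fun w => w.pos_iff.mpr hx
  rw [Real.log_prod fun w _ => (Real.rpow_pos_of_pos (h w) _).ne']
  exact Finset.sum_congr rfl fun w _ => Real.log_rpow (h w) _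

/-- **The product formula is the only relation** between the absolute values of a number field:
if `∏_w |x|_w ^ (c_w m_w) · ∏_v |x|_v ^ c_v = 1` for all `x ≠ 0`, then all the exponents are
equal. -/
theorem product_formula_unique (c : InfinitePlace K ⊕ HeightOneSpectrum (𝓞 K) → ℝ)
    (h : ∀ x : K, x ≠ 0 → (∏ w : InfinitePlace K, w x ^ (c (Sum.inl w) * w.mult)) *
      ∏ᶠ v : HeightOneSpectrum (𝓞 K), adicAbv K v x ^ c (Sum.inr v) = 1) :
    ∃ a : ℝ, ∀ P, c P = a := by
  obtain ⟨w₀⟩ : Nonempty (InfinitePlace K) := inferInstance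
  have h1 : ∀ w : InfinitePlace K, c (Sum.inl w) = c (Sum.inl w₀) := fun w => by
    refine eq_of_forall_unit (fun w => c (Sum.inl w)) (fun ε => ?_) w w₀
    have hε : ((ε : 𝓞 K) : K) ≠ 0 := by exact_mod_cast ε.ne_zero
    have h2 := h _ hε
    simp only [adicAbv_unit, Real.one_rpow, finprod_one, mul_one] at h2
    rw [← log_prod_rpow (fun w => c (Sum.inl w)) hε, h2, Real.log_one]
  refine ⟨c (Sum.inl w₀), ?_⟩
  rintro (w | v)
  · exact h1 w
  obtain ⟨u, hu0, hu1, hu2⟩ := exists_sunit ({v} : Finset (HeightOneSpectrum (𝓞 K)))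
  have hu : (u : K) ≠ 0 := by exact_mod_cast hu0
  have hw : ∀ w : HeightOneSpectrum (𝓞 K), w ≠ v → adicAbv K w (u : K) = 1 := fun w hwv =>
    (adicAbv_eq_one_iff w _).mpr (hu1 w (by rwa [Finset.mem_singleton]))
  have hlog : Real.log (adicAbv K v (u : K)) ≠ 0 := by
    have h3 : 0 < adicAbv K v (u : K) := (adicAbv K v).pos hu
    refine Real.log_ne_zero_of_pos_of_ne_one h3 fun h4 => ?_
    rw [adicAbv_eq_one_iff] at h4
    exact (hu2 v (Finset.mem_singleton_self v)).ne h4
  have h5 : ∏ᶠ w : HeightOneSpectrum (𝓞 K), adicAbv K w (u : K) ^ c (Sum.inr w) =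
      adicAbv K v (u : K) ^ c (Sum.inr v) :=
    finprod_eq_single _ v fun w hwv => by rw [hw w hwv, Real.one_rpow]
  have h6 : ∏ᶠ w : FinitePlace K, w (u : K) = adicAbv K v (u : K) := by
    rw [← finprod_comp_equiv FinitePlace.equivHeightOneSpectrum.symm]
    have h7 : ∀ w : HeightOneSpectrum (𝓞 K),
        (FinitePlace.equivHeightOneSpectrum.symm w : FinitePlace K) (u : K) =
          adicAbv K w (u : K) := fun w => FinitePlace.norm_embedding w _
    rw [finprod_congr h7]
    exact finprod_eq_single _ v fun w hwv => hw w hwv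
  -- logarithms
  have h8 := congrArg Real.log (h _ hu)
  have h9 := congrArg Real.log (prod_abs_eq_one hu)
  have hpos : 0 < adicAbv K v (u : K) := (adicAbv K v).pos hu
  have hwpos : ∀ w : InfinitePlace K, 0 < w (u : K) := fun w => w.pos_iff.mpr hu
  rw [h5, Real.log_mul (Finset.prod_pos fun w _ => Real.rpow_pos_of_pos (hwpos w) _).ne'
    (Real.rpow_pos_of_pos hpos _).ne', log_prod_rpow (fun w => c (Sum.inl w)) hu,
    Real.log_rpow hpos, Real.log_one] at h8
  rw [h6, Real.log_mul (Finset.prod_pos fun w _ => pow_pos (hwpos w) _).ne' hpos.ne',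
    Real.log_prod fun w _ => (pow_pos (hwpos w) _).ne', Real.log_one] at h9
  have h10 : ∑ w : InfinitePlace K, c (Sum.inl w) * w.mult * Real.log (w (u : K)) =
      c (Sum.inl w₀) * ∑ w : InfinitePlace K, Real.log (w (u : K) ^ w.mult) := by
    rw [Finset.mul_sum]
    refine Finset.sum_congr rfl fun w _ => ?_
    rw [h1 w, Real.log_pow, mul_assoc]
  rw [h10] at h8
  have h11 : (c (Sum.inr v) - c (Sum.inl w₀)) * Real.log (adicAbv K v (u : K)) = 0 := by
    linear_combination h8 - c (Sum.inl w₀) * h9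
  exact sub_eq_zero.mp ((mul_eq_zero.mp h11).resolve_right hlog)

end Fermat.Agent.Cor.Adele
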