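import Fermat.Agent.LT.SAdele
import Fermat.Agent.Corollaries.Adele.Fin

/-!
# A number field is a cocompact discrete subgroup of its ring of adeles

`K` a number field, `𝔸 = AdeleRing (𝓞 K) K` its ring of adeles (Mathlib).

* `locallyCompactSpace_adele`, `t2Space_adele` : `𝔸` is locally compact and Hausdorff.
* `discreteTopology_principal` : `K` is discrete in `𝔸`.
* `isClosed_principal` : `K` is closed in `𝔸`.
* `compactSpace_adele_quotient` : `𝔸 / K` is compact.
* `exists_sub_mem_fundamental` : every adele is the sum of an element of `K` and of an adele which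
  is integral at the finite places and bounded by `C` at the infinite places.
-/

set_option autoImplicit false

open NumberField IsDedekindDomain HeightOneSpectrum WithZero Filter Topology RestrictedProduct
open NumberField.mixedEmbedding
open scoped WithZero

noncomputable section

namespace Fermat.Agent.Cor.Adele

open Fermat.Agent.LT.Loc

variable (K : Type*) [Field K] [NumberField K]

instance t2Space_finiteAdele : T2Space (FiniteAdeleRing (𝓞 K) K) :=
  inferInstanceAs (T2Space
    (Πʳ v : HeightOneSpectrum (𝓞 K), [v.adicCompletion K, v.adicCompletionIntegers K]))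

instance t2Space_infiniteAdele : T2Space (InfiniteAdeleRing K) :=
  inferInstanceAs (T2Space ((v : InfinitePlace K) → v.Completion))

/-- The ring of adeles of a number field is Hausdorff. -/
instance t2Space_adele : T2Space (AdeleRing (𝓞 K) K) :=
  inferInstanceAs (T2Space (InfiniteAdeleRing K × FiniteAdeleRing (𝓞 K) K))

/-- The ring of adeles of a number field is locally compact. -/
theorem locallyCompactSpace_adele : LocallyCompactSpace (AdeleRing (𝓞 K) K) := inferInstance

variable {K}

omit [NumberField K] in
theorem normAtPlace_ringEquiv (x : InfiniteAdeleRing K) (w : InfinitePlace K) :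
    normAtPlace w (InfiniteAdeleRing.ringEquiv_mixedSpace K x) = ‖x w‖ := by
  rw [InfiniteAdeleRing.ringEquiv_mixedSpace_apply]
  by_cases hw : w.IsReal
  · rw [normAtPlace_apply_of_isReal hw]
    have h := (InfinitePlace.Completion.isometry_extensionEmbeddingOfIsReal hw).norm_map_of_map_zero
      (map_zero _) (x w)
    exact h
  · have hw' : w.IsComplex := InfinitePlace.not_isReal_iff_isComplex.mp hw
    rw [normAtPlace_apply_of_isComplex hw']
    have h := (InfinitePlace.Completion.isometry_extensionEmbedding w).norm_map_of_map_zero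
      (map_zero _) (x w)
    exact h

variable (K) in
/-- The infinite adeles bounded by `C`. -/
def infBall (C : ℝ) : Set (InfiniteAdeleRing K) := {x | ∀ w, ‖x w‖ ≤ C}

variable (K) in
omit [NumberField K] in
theorem isCompact_infBall (C : ℝ) : IsCompact (infBall K C) := by
  have h1 : ∀ w : InfinitePlace K, IsCompact {y : w.Completion | ‖y‖ ≤ C} := by
    intro w
    have h2 := (InfinitePlace.Completion.isometry_extensionEmbedding w).isClosedEmbedding.isCompact_preimage
      (isCompact_closedBall (0 : ℂ) C)
    refine Eq.mp (congrArg IsCompact ?_) h2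
    ext y
    rw [Set.mem_preimage, mem_closedBall_zero_iff,
      (InfinitePlace.Completion.isometry_extensionEmbedding w).norm_map_of_map_zero (map_zero _) y]
    rfl
  have h3 := isCompact_univ_pi h1
  refine Eq.mp (congrArg IsCompact ?_) h3
  ext x
  exact ⟨fun h w => h w (Set.mem_univ w), fun h w _ => h w⟩

variable (K) in
/-- The integral finite adeles. -/
def finInt : Set (FiniteAdeleRing (𝓞 K) K) := {x | ∀ v, Valued.v (x v) ≤ 1}

variable (K) in
theorem isCompact_finInt : IsCompact (finInt K) := by
  have h1 : CompactSpace ((v : HeightOneSpectrum (𝓞 K)) → v.adicCompletionIntegers K) :=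
    inferInstance
  have h2 : Continuous (structureMap (fun v : HeightOneSpectrum (𝓞 K) => v.adicCompletion K)
      (fun v => (v.adicCompletionIntegers K : Set (v.adicCompletion K))) cofinite) :=
    isEmbedding_structureMap.continuous
  have h3 := isCompact_range (X := (v : HeightOneSpectrum (𝓞 K)) → v.adicCompletionIntegers K) h2
  rw [range_structureMap] at h3
  exact h3

variable (K) in
theorem isOpen_finInt : IsOpen (finInt K) := by
  have hopen : ∀ v : HeightOneSpectrum (𝓞 K),
      IsOpen (v.adicCompletionIntegers K : Set (v.adicCompletion K)) :=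
    fun _ ↦ Valued.isOpen_valuationSubring _
  exact isOpen_forall_mem (R := fun v : HeightOneSpectrum (𝓞 K) => v.adicCompletion K)
    (A := fun v => (v.adicCompletionIntegers K : Set (v.adicCompletion K))) hopen

variable (K) in
/-- Every adele is the sum of an element of `K` and of an adele which is integral at the finite
places and bounded by `C` at the infinite places. -/
theorem exists_sub_mem_fundamental : ∃ C : ℝ, ∀ x : AdeleRing (𝓞 K) K, ∃ k : K,
    (x - algebraMap K (AdeleRing (𝓞 K) K) k).1 ∈ infBall K C ∧
      (x - algebraMap K (AdeleRing (𝓞 K) K) k).2 ∈ finInt K := by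
  obtain ⟨C, hC0, hC⟩ := exists_bound_mixed K
  refine ⟨C, fun x => ?_⟩
  obtain ⟨k, hk, -⟩ := exists_approx x.2 ∅ 0
  obtain ⟨a, ha⟩ := hC (InfiniteAdeleRing.ringEquiv_mixedSpace K
    (x.1 - algebraMap K (InfiniteAdeleRing K) k))
  refine ⟨k + a, fun w => ?_, fun v => ?_⟩
  · have h1 := ha w
    rw [InfiniteAdeleRing.mixedEmbedding_eq_algebraMap_comp, ← map_sub, normAtPlace_ringEquiv] at h1
    refine le_trans (le_of_eq ?_) h1
    congr 1
    change x.1 w - algebraMap K (InfiniteAdeleRing K) (k + a) w =
      x.1 w - algebraMap K (InfiniteAdeleRing K) k w - algebraMap K (InfiniteAdeleRing K) a w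
    rw [map_add]
    change x.1 w - (algebraMap K (InfiniteAdeleRing K) k w +
      algebraMap K (InfiniteAdeleRing K) a w) = _
    ring
  · have h1 := hk v
    change Valued.v (ι v k - x.2 v) ≤ 1 at h1
    change Valued.v (x.2 v - ι v (k + a)) ≤ 1
    have h2 : x.2 v - ι v (k + a) = -(ι v k - x.2 v) - ι v a := by
      rw [map_add]; ring
    rw [h2]
    refine (Valued.v.map_sub _ _).trans (max_le ?_ ?_)
    · rw [Valuation.map_neg]
      exact h1
    · rw [v_ι]
      exact v.valuation_le_one a

/-- **`𝔸 / K` is compact.** -/
theorem compactSpace_adele_quotient :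
    CompactSpace (AdeleRing (𝓞 K) K ⧸ AdeleRing.principalSubgroup (𝓞 K) K) := by
  obtain ⟨C, hC⟩ := exists_sub_mem_fundamental K
  refine compactSpace_quotient_of_cover _
    (K := {x : AdeleRing (𝓞 K) K | x.1 ∈ infBall K C ∧ x.2 ∈ finInt K})
    ((isCompact_infBall K C).prod (isCompact_finInt K)) fun x => ?_
  obtain ⟨k, hk⟩ := hC x
  exact ⟨algebraMap K _ k, ⟨k, rfl⟩, hk⟩

/-- An element of `K` which is integral at the finite places and of absolute value `< 1` at the
infinite places vanishes. -/
theorem eq_zero_of_small {k : K} (h1 : ∀ w : InfinitePlace K, w k < 1)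
    (h2 : ∀ v : HeightOneSpectrum (𝓞 K), v.valuation K k ≤ 1) : k = 0 := by
  obtain ⟨a, rfl⟩ := HeightOneSpectrum.mem_integers_of_valuation_le_one K k h2
  by_contra h
  have ha : a ≠ 0 := by
    rintro rfl
    exact h (map_zero _)
  obtain ⟨w⟩ : Nonempty (InfinitePlace K) := inferInstance
  have h3 := InfinitePlace.one_le_of_lt_one (w := w) ha fun z _ => h1 z
  exact absurd (h1 w) (not_lt.mpr h3)

/-- **`K` is discrete in `𝔸`.** -/
instance discreteTopology_principal :
    DiscreteTopology (AdeleRing.principalSubgroup (𝓞 K) K) := by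
  refine discreteTopology_of_isOpen_singleton_zero ?_
  have h1 : IsOpen {x : AdeleRing (𝓞 K) K | (∀ w, ‖x.1 w‖ < 1) ∧ x.2 ∈ finInt K} := by
    have h2 : IsOpen {x : InfiniteAdeleRing K | ∀ w, ‖x w‖ < 1} := by
      have h3 : IsOpen ((Set.univ : Set (InfinitePlace K)).pi
          fun w => {y : w.Completion | ‖y‖ < 1}) :=
        isOpen_set_pi Set.finite_univ fun w _ => isOpen_lt continuous_norm continuous_const
      refine Eq.mp (congrArg IsOpen ?_) h3
      ext x
      exact ⟨fun h w => h w (Set.mem_univ w), fun h w _ => h w⟩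
    exact IsOpen.prod h2 (isOpen_finInt K)
  refine ⟨_, h1, ?_⟩
  ext ⟨x, hx⟩
  obtain ⟨k, rfl⟩ := hx
  rw [Set.mem_preimage, Set.mem_singleton_iff]
  constructor
  · rintro ⟨h2, h3⟩
    have h4 : k = 0 := by
      refine eq_zero_of_small (fun w => ?_) (fun v => ?_)
      · have h5 := h2 w
        change ‖algebraMap K (InfiniteAdeleRing K) k w‖ < 1 at h5
        rw [InfiniteAdeleRing.algebraMap_apply, InfinitePlace.Completion.norm_coe] at h5
        exact h5
      · have h5 := h3 v
        change Valued.v (ι v k) ≤ 1 at h5
        rw [v_ι] at h5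
        exact h5
    subst h4
    exact Subtype.ext (map_zero _)
  · intro h
    have h5 : algebraMap K (AdeleRing (𝓞 K) K) k = 0 := congrArg Subtype.val h
    change algebraMap K (AdeleRing (𝓞 K) K) k ∈ _
    rw [h5]
    refine ⟨fun w => ?_, fun v => ?_⟩
    · change ‖(0 : w.Completion)‖ < 1
      rw [norm_zero]
      exact one_pos
    · change Valued.v (0 : v.adicCompletion K) ≤ 1
      rw [map_zero]
      exact zero_le_one

/-- **`K` is closed in `𝔸`.** -/
theorem isClosed_principal :
    IsClosed (AdeleRing.principalSubgroup (𝓞 K) K : Set (AdeleRing (𝓞 K) K)) :=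
  AddSubgroup.isClosed_of_discrete

end Fermat.Agent.Cor.Adele
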