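import Fermat.Agent.Corollaries.Adele.ChevalleyFG

/-!
# Finitely generated subgroups of `Kˣ` are closed in the congruence topology

`K` a number field, `Γ` a finitely generated subgroup of `Kˣ`, `b ∈ Kˣ`, `B` a finite set of finite
places.

* `mem_of_forall_congruence` : if for every finite set `T` of finite places, disjoint from `B`, there
  is `γ ∈ Γ` with `γ ≡ b` modulo all `v ∈ T`, then `b ∈ Γ`.
* `exists_zpow_eq_of_forall_congruence` : the case of a cyclic group `Γ`, i.e. of the equation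
  `a ^ n = b`.
* `int_exists_pow_eq` : for integers `a`, `b`: if `a ^ n ≡ b` can be solved modulo every `m`, then
  `a ^ n = b` for some `n`.
-/

set_option autoImplicit false

open NumberField IsDedekindDomain

namespace Fermat.Agent.Cor.Adele

variable {K : Type*} [Field K] [NumberField K]

/-- The elements of a finitely generated subgroup of `Kˣ` are units at almost all places. -/
theorem exists_finset_valuation_eq_one {G : Subgroup Kˣ} (hG : G.FG) :
    ∃ S : Finset (HeightOneSpectrum (𝓞 K)), ∀ x ∈ G, ∀ v ∉ S, v.valuation K (x : K) = 1 := by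
  classical
  obtain ⟨s, hs⟩ := hG
  set S : Finset (HeightOneSpectrum (𝓞 K)) :=
    s.biUnion fun x => (Fermat.Agent.CFT.SUnits.finite_ord_ne_zero K x).toFinset with hS
  have h : G ≤ (S : Set (HeightOneSpectrum (𝓞 K))).unit K := by
    rw [← hs, Subgroup.closure_le]
    intro x hx v hv
    have h1 : Fermat.Agent.CFT.SUnits.ord v x = 0 := by
      by_contra h0
      refine hv (Finset.mem_coe.mpr (Finset.mem_biUnion.mpr ⟨x, hx, ?_⟩))
      rw [Set.Finite.mem_toFinset]
      exact h0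
    exact (Fermat.Agent.CFT.SUnits.ord_eq_zero_iff K v x).mp h1
  exact ⟨S, fun x hx v hv => h hx v fun h' => hv (Finset.mem_coe.mp h')⟩

/-- **Finitely generated subgroups of `Kˣ` are closed in the congruence topology** (Skolem,
Schinzel): if for every finite set `T` of finite places, disjoint from a given finite set `B`, there
is `γ ∈ Γ` with `γ ≡ b` modulo all `v ∈ T`, then `b ∈ Γ`. -/
theorem mem_of_forall_congruence {Γ : Subgroup Kˣ} (hΓ : Γ.FG) (b : Kˣ)
    (B : Finset (HeightOneSpectrum (𝓞 K)))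
    (h : ∀ T : Finset (HeightOneSpectrum (𝓞 K)), Disjoint T B →
      ∃ γ ∈ Γ, ∀ v ∈ T, v.valuation K ((γ : K) - b) < 1) : b ∈ Γ := by
  classical
  set G : Subgroup Kˣ := Γ ⊔ Subgroup.zpowers b with hGdef
  have hG : G.FG := hΓ.sup (Subgroup.fg_iff _ |>.mpr ⟨{b}, by
    rw [Subgroup.zpowers_eq_closure], Set.finite_singleton b⟩)
  have hbG : b ∈ G := (le_sup_right : Subgroup.zpowers b ≤ G) (Subgroup.mem_zpowers b)
  obtain ⟨S, hS⟩ := exists_finset_valuation_eq_one hG
  have key : ∀ n : ℕ, n ≠ 0 → ∃ k : ℤ, b * (b ^ (k * n))⁻¹ ∈ Γ := by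
    intro n hn
    set H : Subgroup Kˣ := Γ ⊔ G.map (powMonoidHom n) with hH
    have hrel : H.relIndex G ≠ 0 := by
      have h1 : ((G.map (powMonoidHom n)).relIndex G) ≠ 0 :=
        (Subgroup.isFiniteRelIndex_map_powMonoidHom_of_fg hG hn).relIndex_ne_zero
      intro h0
      have h2 : H.relIndex G ∣ (G.map (powMonoidHom n)).relIndex G :=
        Subgroup.relIndex_dvd_of_le_left G le_sup_right
      rw [h0, zero_dvd_iff] at h2
      exact h1 h2
    obtain ⟨T, hT, hTH⟩ := chevalley_fg hG hrel (S ∪ B)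
    obtain ⟨γ, hγ, hγT⟩ := h T (hT.mono_right Finset.subset_union_right)
    have hγG : γ ∈ G := (le_sup_left : Γ ≤ G) hγ
    have h1 : γ⁻¹ * b ∈ H := by
      refine hTH _ (mul_mem (inv_mem hγG) hbG) fun v hv => ?_
      have hvS : v ∉ S := fun h' =>
        Finset.disjoint_left.mp hT hv (Finset.mem_union_left _ h')
      have hvγ : v.valuation K (γ : K) = 1 := hS γ hγG v hvS
      have h2 : (((γ⁻¹ * b : Kˣ)) : K) - 1 = -((γ : K)⁻¹ * ((γ : K) - b)) := by
        have h3 : (γ : K) ≠ 0 := γ.ne_zero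
        rw [Units.val_mul, Units.val_inv_eq_inv_val]
        field_simp
        ring
      rw [h2, Valuation.map_neg, map_mul, map_inv₀, hvγ, inv_one, one_mul]
      exact hγT v hv
    have h2 : b ∈ H := by
      have h3 : b = γ * (γ⁻¹ * b) := by rw [mul_inv_cancel_left]
      rw [h3]
      exact mul_mem ((le_sup_left : Γ ≤ H) hγ) h1
    obtain ⟨γ₁, hγ₁, y, ⟨g, hg, rfl⟩, hy⟩ := Subgroup.mem_sup.mp h2
    obtain ⟨γ₂, hγ₂, z, hz, hgz⟩ := Subgroup.mem_sup.mp hg
    obtain ⟨k, rfl⟩ := Subgroup.mem_zpowers_iff.mp hz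
    refine ⟨k, ?_⟩
    have h3 : b * (b ^ (k * n))⁻¹ = γ₁ * γ₂ ^ n := by
      rw [mul_inv_eq_iff_eq_mul]
      refine hy.symm.trans ?_
      change γ₁ * g ^ n = _
      rw [← hgz, mul_pow, zpow_mul, zpow_natCast, mul_assoc]
    rw [h3]
    exact mul_mem hγ₁ (pow_mem hγ₂ n)
  -- an odd power of `b` is in `Γ`
  obtain ⟨k, hk⟩ := key 2 two_ne_zero
  have h1 : b ^ (1 - k * 2) ∈ Γ := by
    rw [zpow_sub, zpow_one]
    exact hk
  have hne : (1 - k * 2).natAbs ≠ 0 := by omega
  obtain ⟨l, hl⟩ := key (1 - k * 2).natAbs hne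
  have h2 : b ^ (l * ((1 - k * 2).natAbs : ℤ)) ∈ Γ := by
    obtain ⟨u, hu⟩ : (1 - k * 2) ∣ l * ((1 - k * 2).natAbs : ℤ) :=
      Dvd.dvd.mul_left (Int.dvd_natAbs.mpr dvd_rfl) l
    rw [hu, zpow_mul]
    exact zpow_mem h1 u
  have h3 := mul_mem hl h2
  rwa [inv_mul_cancel_right] at h3

/-- **The equation `a ^ n = b`** has an integer solution `n` if and only if it can be solved modulo
every product of distinct prime ideals outside a given finite set. -/
theorem exists_zpow_eq_of_forall_congruence (a b : Kˣ) (B : Finset (HeightOneSpectrum (𝓞 K)))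
    (h : ∀ T : Finset (HeightOneSpectrum (𝓞 K)), Disjoint T B →
      ∃ n : ℤ, ∀ v ∈ T, v.valuation K ((((a ^ n : Kˣ)) : K) - b) < 1) : ∃ n : ℤ, a ^ n = b := by
  have h1 : b ∈ Subgroup.zpowers a := by
    refine mem_of_forall_congruence (Subgroup.fg_iff _ |>.mpr ⟨{a}, by
      rw [Subgroup.zpowers_eq_closure], Set.finite_singleton a⟩) b B fun T hT => ?_
    obtain ⟨n, hn⟩ := h T hT
    exact ⟨a ^ n, ⟨n, rfl⟩, hn⟩
  exact Subgroup.mem_zpowers_iff.mp h1

/-- **`a ^ n = b` in integers**: if the congruence `a ^ n ≡ b` modulo `m` has a solution `n` for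
every `m`, then `b` is a power of `a`. -/
theorem int_exists_pow_eq {a b : ℤ} (h : ∀ m : ℕ, 0 < m → ∃ n : ℕ, a ^ n ≡ b [ZMOD m]) :
    ∃ n : ℕ, a ^ n = b := by
  by_cases ha : a = 0
  · subst ha
    obtain ⟨n, hn⟩ := h (b.natAbs + 2) (by omega)
    have hdvd := Int.ModEq.dvd hn
    rcases n with _ | n
    · refine ⟨0, ?_⟩
      rw [pow_zero] at hdvd ⊢
      have h1 : b - 1 = 0 :=
        Int.eq_zero_of_abs_lt_dvd hdvd (abs_lt.mpr ⟨by omega, by omega⟩)
      omega
    · refine ⟨1, ?_⟩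
      rw [zero_pow (Nat.succ_ne_zero n), sub_zero] at hdvd
      have h1 : b = 0 := Int.eq_zero_of_abs_lt_dvd hdvd (abs_lt.mpr ⟨by omega, by omega⟩)
      rw [h1, pow_one]
  by_cases hb : b = 0
  · subst hb
    exfalso
    obtain ⟨p, hp, hpp⟩ := Nat.exists_infinite_primes (a.natAbs + 1)
    obtain ⟨n, hn⟩ := h p hpp.pos
    have h1 : (p : ℤ) ∣ a ^ n := by
      have h2 := (Int.ModEq.dvd hn)
      rw [zero_sub, dvd_neg] at h2
      exact h2
    have h2 : (p : ℤ) ∣ a := (Nat.prime_iff_prime_int.mp hpp).dvd_of_dvd_pow h1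
    exact ha (Int.eq_zero_of_abs_lt_dvd h2 (abs_lt.mpr ⟨by omega, by omega⟩))
  · set a' : ℚˣ := Units.mk0 (a : ℚ) (by exact_mod_cast ha) with ha'
    set b' : ℚˣ := Units.mk0 (b : ℚ) (by exact_mod_cast hb) with hb'
    obtain ⟨n, hn⟩ := exists_zpow_eq_of_forall_congruence (K := ℚ) a' b' ∅ (fun T _ => by
      have hm : ∀ v ∈ T, Ideal.absNorm v.asIdeal ≠ 0 := fun v _ =>
        Ideal.absNorm_ne_zero_iff_mem_nonZeroDivisors.mpr
          (mem_nonZeroDivisors_of_ne_zero v.ne_bot)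
      obtain ⟨n, hn⟩ := h (∏ v ∈ T, Ideal.absNorm v.asIdeal)
        (Nat.pos_of_ne_zero (Finset.prod_ne_zero_iff.mpr hm))
      refine ⟨n, fun v hv => ?_⟩
      have h1 : ((Ideal.absNorm v.asIdeal : ℕ) : ℤ) ∣ a ^ n - b := by
        have h2 := Int.ModEq.dvd hn.symm
        refine dvd_trans ?_ h2
        exact_mod_cast Finset.dvd_prod_of_mem (fun v => Ideal.absNorm v.asIdeal) hv
      obtain ⟨c, hc⟩ := h1
      have h3 : ((a ^ n - b : ℤ) : 𝓞 ℚ) ∈ v.asIdeal := by
        rw [hc]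
        push_cast
        exact Ideal.mul_mem_right _ _ (Ideal.absNorm_mem v.asIdeal)
      have h4 := (HeightOneSpectrum.valuation_lt_one_iff_mem (K := ℚ) v _).mpr h3
      have h5 : ((((a ^ n - b : ℤ) : 𝓞 ℚ)) : ℚ) = (((a' ^ (n : ℤ) : ℚˣ)) : ℚ) - b' := by
        rw [RingOfIntegers.coe_eq_algebraMap, map_intCast, zpow_natCast, Units.val_pow_eq_pow_val]
        push_cast
        rfl
      exact (congrArg (v.valuation ℚ) h5).symm.trans_lt h4)
    rcases n with n | n
    · refine ⟨n, ?_⟩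
      have h1 := congrArg (fun x : ℚˣ => (x : ℚ)) hn
      simp only [Int.ofNat_eq_natCast, zpow_natCast, Units.val_pow_eq_pow_val] at h1
      have h2 : (a : ℚ) ^ n = b := h1
      exact_mod_cast h2
    · refine ⟨n + 1, ?_⟩
      have h1 : b' * a' ^ (n + 1) = 1 := by
        rw [← hn, zpow_negSucc, inv_mul_cancel]
      have h2 := congrArg (fun x : ℚˣ => (x : ℚ)) h1
      simp only [Units.val_mul, Units.val_pow_eq_pow_val, Units.val_one] at h2
      have h3 : (b : ℚ) * (a : ℚ) ^ (n + 1) = 1 := h2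
      have h4 : b * a ^ (n + 1) = 1 := by exact_mod_cast h3
      have h5 := Int.isUnit_iff.mp (IsUnit.of_mul_eq_one_right _ h4)
      rcases h5 with h5 | h5 <;> rw [h5] at h4 ⊢ <;> omega

end Fermat.Agent.Cor.Adele
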