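import Fermat.Agent.Corollaries.Adele.Quot

/-!
# Strong approximation over a number field with one arbitrary place removed

`K` a number field, `𝔸 = AdeleRing (𝓞 K) K` its ring of adeles, `P` any place of `K` (infinite or
finite).

* `dense_agreeAway` : **`K + K_P` is dense in `𝔸`**, i.e. `K` is dense in the adeles away from `P`.
* `exists_small` : there is `b ≠ 0` in `K` which is integral at all finite places other than `P` and
  small at all infinite places other than `P`.
* `stableOne_adele` : `𝔸` has stable range one.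
* `dense_SL_agreeAway` : **`SL_n(K) SL_n(K_P)` is dense in `SL_n(𝔸)`**.
* `denseRange_SInteger`, `denseRange_SL_SInteger` : if `S` is a non-empty set of finite places, then
  the ring `𝓞_{K,S}` is dense in `K ⊗ ℝ` and `SL_n(𝓞_{K,S})` is dense in `SL_n(K ⊗ ℝ)`.
-/

set_option autoImplicit false

open NumberField IsDedekindDomain HeightOneSpectrum WithZero Filter Topology RestrictedProduct
open scoped WithZero

noncomputable section

namespace Fermat.Agent.Cor.Adele

open Fermat.Agent.LT.SL2 (StableOne stableOne_of_field)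
open Fermat.Agent.LT.Loc

variable {K : Type*} [Field K] [NumberField K]

/-! ### Adeles which agree away from a place -/

/-- `x` and `y` have the same components at all places other than `P`. -/
def AgreeAway (P : InfinitePlace K ⊕ HeightOneSpectrum (𝓞 K)) (x y : AdeleRing (𝓞 K) K) : Prop :=
  (∀ w : InfinitePlace K, Sum.inl w ≠ P → x.1 w = y.1 w) ∧
    ∀ v : HeightOneSpectrum (𝓞 K), Sum.inr v ≠ P → x.2 v = y.2 v

open Classical in
/-- The adele with the component of `x` at `P` and the components of `z` elsewhere. -/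
def glue (P : InfinitePlace K ⊕ HeightOneSpectrum (𝓞 K)) (x z : AdeleRing (𝓞 K) K) :
    AdeleRing (𝓞 K) K :=
  ((fun w => if Sum.inl w = P then x.1 w else z.1 w : InfiniteAdeleRing K),
    (⟨fun v => if Sum.inr v = P then x.2 v else z.2 v, by
      filter_upwards [x.2.2, z.2.2] with v h1 h2
      split_ifs
      · exact h1
      · exact h2⟩ : FiniteAdeleRing (𝓞 K) K))

theorem glue_fst_same {P : InfinitePlace K ⊕ HeightOneSpectrum (𝓞 K)} (x z : AdeleRing (𝓞 K) K)
    {w : InfinitePlace K} (h : Sum.inl w = P) : (glue P x z).1 w = x.1 w := if_pos h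

theorem glue_snd_same {P : InfinitePlace K ⊕ HeightOneSpectrum (𝓞 K)} (x z : AdeleRing (𝓞 K) K)
    {v : HeightOneSpectrum (𝓞 K)} (h : Sum.inr v = P) : (glue P x z).2 v = x.2 v := if_pos h

theorem agreeAway_glue (P : InfinitePlace K ⊕ HeightOneSpectrum (𝓞 K)) (x z : AdeleRing (𝓞 K) K) :
    AgreeAway P (glue P x z) z :=
  ⟨fun _ h => if_neg h, fun _ h => if_neg h⟩

/-- The embedding of `K` in its completion at an infinite place. -/
def κ (w : InfinitePlace K) : K →+* w.Completion :=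
  (Pi.evalRingHom (fun w : InfinitePlace K => w.Completion) w).comp
    (algebraMap K (InfiniteAdeleRing K))

omit [NumberField K] in
theorem norm_κ (w : InfinitePlace K) (k : K) : ‖κ w k‖ = w k := by
  change ‖algebraMap K (InfiniteAdeleRing K) k w‖ = _
  rw [InfiniteAdeleRing.algebraMap_apply]
  exact InfinitePlace.Completion.norm_coe w _

/-! ### Small elements -/

theorem isOpen_box (x : InfiniteAdeleRing K) (δ : ℝ) :
    IsOpen {z : InfiniteAdeleRing K | ∀ w, ‖z w - x w‖ < δ} := by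
  have h3 : IsOpen ((Set.univ : Set (InfinitePlace K)).pi
      fun w => {y : w.Completion | ‖y - x w‖ < δ}) :=
    isOpen_set_pi Set.finite_univ fun w _ =>
      isOpen_lt (continuous_norm.comp (continuous_id.sub continuous_const)) continuous_const
  refine Eq.mp (congrArg IsOpen ?_) h3
  ext z
  exact ⟨fun h w => h w (Set.mem_univ w), fun h w _ => h w⟩

/-- Pigeonhole principle in the compact set `𝔸 / K`. -/
theorem exists_small_of_seq (P : InfinitePlace K ⊕ HeightOneSpectrum (𝓞 K)) {ε : ℝ} (hε : 0 < ε)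
    (y : ℕ → AdeleRing (𝓞 K) K) (hy : ∀ j, AgreeAway P (y j) 0)
    (hne : ∀ i j, i ≠ j → (∀ w, ‖(y i).1 w - (y j).1 w‖ < ε) →
      ¬ ∀ v, Valued.v ((y i).2 v - (y j).2 v) ≤ 1) :
    ∃ b : K, b ≠ 0 ∧ (∀ w : InfinitePlace K, Sum.inl w ≠ P → w b < ε) ∧
      ∀ v : HeightOneSpectrum (𝓞 K), Sum.inr v ≠ P → v.valuation K b ≤ 1 := by
  obtain ⟨C, hC⟩ := exists_sub_mem_fundamental K
  choose k hk1 hk2 using fun j => hC (y j)
  obtain ⟨t, -, hcov⟩ := (isCompact_infBall K C).elim_nhds_subcover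
    (fun x => {z : InfiniteAdeleRing K | ∀ w, ‖z w - x w‖ < ε / 2})
    (fun x _ => (isOpen_box x (ε / 2)).mem_nhds fun w => by
      rw [sub_self, norm_zero]; exact half_pos hε)
  have hj : ∀ j, ∃ x : t, ∀ w,
      ‖((y j).1 w - κ w (k j)) - (x : InfiniteAdeleRing K) w‖ < ε / 2 := by
    intro j
    obtain ⟨x, hx, h⟩ := Set.mem_iUnion₂.mp (hcov (hk1 j))
    exact ⟨⟨x, hx⟩, h⟩
  choose f hf using hj
  obtain ⟨i, j, hij, hfij⟩ := Finite.exists_ne_map_eq_of_infinite f
  have hinf : ∀ w, ‖((y i).1 w - κ w (k i)) - ((y j).1 w - κ w (k j))‖ < ε := by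
    intro w
    have h1 := hf i w
    have h2 := hf j w
    rw [← hfij, norm_sub_rev] at h2
    have h3 : ((y i).1 w - κ w (k i)) - ((y j).1 w - κ w (k j)) =
        (((y i).1 w - κ w (k i)) - (f i : InfiniteAdeleRing K) w) +
          ((f i : InfiniteAdeleRing K) w - ((y j).1 w - κ w (k j))) := by ring
    rw [h3]
    refine (norm_add_le _ _).trans_lt ?_
    linarith
  have hfin : ∀ v, Valued.v (((y i).2 v - ι v (k i)) - ((y j).2 v - ι v (k j))) ≤ 1 := fun v =>
    (Valued.v.map_sub _ _).trans (max_le (hk2 i v) (hk2 j v))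
  refine ⟨k j - k i, fun h0 => ?_, fun w hw => ?_, fun v hv => ?_⟩
  · rw [sub_eq_zero] at h0
    refine hne i j hij (fun w => ?_) (fun v => ?_)
    · have h1 := hinf w
      rwa [h0, sub_sub_sub_cancel_right] at h1
    · have h1 := hfin v
      rwa [h0, sub_sub_sub_cancel_right] at h1
  · have h1 := hinf w
    have h2 : (y i).1 w = 0 := (hy i).1 w hw
    have h3 : (y j).1 w = 0 := (hy j).1 w hw
    rw [h2, h3, zero_sub, zero_sub, neg_sub_neg, ← map_sub, norm_κ] at h1
    exact h1
  · have h1 := hfin v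
    have h2 : (y i).2 v = 0 := (hy i).2 v hv
    have h3 : (y j).2 v = 0 := (hy j).2 v hv
    rw [h2, h3, zero_sub, zero_sub, neg_sub_neg, ← map_sub, v_ι] at h1
    exact h1

/-- There is `b ≠ 0` in `K` which is integral at all finite places other than `P` and small at all
infinite places other than `P`. -/
theorem exists_small (P : InfinitePlace K ⊕ HeightOneSpectrum (𝓞 K)) {ε : ℝ} (hε : 0 < ε) :
    ∃ b : K, b ≠ 0 ∧ (∀ w : InfinitePlace K, Sum.inl w ≠ P → w b < ε) ∧
      ∀ v : HeightOneSpectrum (𝓞 K), Sum.inr v ≠ P → v.valuation K b ≤ 1 := by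
  rcases P with w₀ | v₀
  · obtain ⟨M, hM⟩ := exists_nat_ge ε
    refine exists_small_of_seq _ hε
      (fun j => glue (Sum.inl w₀) (algebraMap K _ ((j : K) * M)) 0)
      (fun j => agreeAway_glue _ _ _) fun i j hij h1 => ?_
    exfalso
    have h2 := h1 w₀
    simp only [glue_fst_same _ _ (rfl : Sum.inl w₀ = Sum.inl w₀)] at h2
    have h3 : ‖κ w₀ ((i : K) * M) - κ w₀ ((j : K) * M)‖ < ε := h2
    have h4 : κ w₀ ((i : K) * M) - κ w₀ ((j : K) * M) = κ w₀ (((((i : ℤ) - j) * M : ℤ)) : K) := by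
      rw [← map_sub]
      congr 1
      push_cast
      ring
    rw [h4, norm_κ, ← InfinitePlace.norm_embedding_eq, map_intCast, Complex.norm_intCast] at h3
    have h5 : 1 ≤ |(i : ℤ) - j| := Int.one_le_abs (sub_ne_zero.mpr (by exact_mod_cast hij))
    have h6 : (1 : ℝ) ≤ |((((i : ℤ) - j : ℤ)) : ℝ)| := by exact_mod_cast h5
    have h7 : |((((i : ℤ) - j) * M : ℤ) : ℝ)| = |((((i : ℤ) - j : ℤ)) : ℝ)| * M := by
      push_cast
      rw [abs_mul, Nat.abs_cast]
    rw [h7] at h3
    have h8 : (0 : ℝ) ≤ M := Nat.cast_nonneg M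
    nlinarith
  · obtain ⟨π, hπ⟩ := v₀.valuation_exists_uniformizer K
    refine exists_small_of_seq _ hε
      (fun j => glue (Sum.inr v₀) (algebraMap K _ (π⁻¹ ^ j)) 0)
      (fun j => agreeAway_glue _ _ _) fun i j hij _ h1 => ?_
    have h2 := h1 v₀
    simp only [glue_snd_same _ _ (rfl : Sum.inr v₀ = Sum.inr v₀)] at h2
    have h3 : Valued.v (ι v₀ (π⁻¹ ^ i) - ι v₀ (π⁻¹ ^ j)) ≤ 1 := h2
    have h4 : ∀ n : ℕ, Valued.v (ι v₀ (π⁻¹ ^ n)) = exp (n : ℤ) := by
      intro n
      rw [v_ι, map_pow, map_inv₀, hπ, ← exp_neg, neg_neg, ← exp_nsmul]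
      simp
    rcases lt_or_gt_of_ne hij with h | h
    · rw [Valued.v.map_sub_eq_of_lt_right (by rw [h4, h4, exp_lt_exp]; exact_mod_cast h), h4,
        ← exp_zero, exp_le_exp] at h3
      omega
    · rw [Valued.v.map_sub_eq_of_lt_left (by rw [h4, h4, exp_lt_exp]; exact_mod_cast h), h4,
        ← exp_zero, exp_le_exp] at h3
      omega

/-! ### Strong approximation for the additive group -/

/-- **Strong approximation**: an adele can be approximated by elements of `K` at finitely many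
places, with control of the denominators everywhere, except at one given place `P`. -/
theorem exists_approx_away (P : InfinitePlace K ⊕ HeightOneSpectrum (𝓞 K))
    (x : AdeleRing (𝓞 K) K) {δ : ℝ} (hδ : 0 < δ) (T : Finset (HeightOneSpectrum (𝓞 K))) (n : ℕ) :
    ∃ k : K, (∀ w : InfinitePlace K, Sum.inl w ≠ P → ‖κ w k - x.1 w‖ < δ) ∧
      (∀ v : HeightOneSpectrum (𝓞 K), Sum.inr v ≠ P → Valued.v (ι v k - x.2 v) ≤ 1) ∧
      ∀ v ∈ T, Sum.inr v ≠ P → Valued.v (ι v k - x.2 v) < exp (-(n : ℤ)) := by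
  obtain ⟨C, hC⟩ := exists_sub_mem_fundamental K
  obtain ⟨u, hu0, -, hu⟩ := exists_sunit T
  set N : 𝓞 K := u ^ (n + 1) with hN
  have hN0 : (N : K) ≠ 0 := by
    rw [hN]
    exact_mod_cast pow_ne_zero _ hu0
  have hNT : ∀ v ∈ T, v.valuation K (N : K) < exp (-(n : ℤ)) := by
    intro v hv
    have h1 := hu v hv
    rw [HeightOneSpectrum.valuation_lt_one_iff_mem] at h1
    have h2 : v.intValuation N ≤ exp (-((n + 1 : ℕ) : ℤ)) :=
      (v.intValuation_le_pow_iff_mem N (n + 1)).mpr (Ideal.pow_mem_pow h1 _)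
    refine lt_of_le_of_lt ((v.valuation_of_algebraMap N).trans_le h2) ?_
    rw [exp_lt_exp]
    push_cast
    omega
  set B : ℝ := 1 + ∑ w : InfinitePlace K, w (N : K) with hB
  have hB1 : ∀ w : InfinitePlace K, w (N : K) ≤ B := fun w => by
    have h1 := Finset.single_le_sum (f := fun w : InfinitePlace K => w (N : K))
      (fun w _ => apply_nonneg w _) (Finset.mem_univ w)
    linarith
  have hB0 : 0 < B := by
    have h1 : 0 ≤ ∑ w : InfinitePlace K, w (N : K) := Finset.sum_nonneg fun w _ => apply_nonneg w _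
    linarith
  have hC1 : 0 < |C| + 1 := by positivity
  obtain ⟨b, hb0, hb1, hb2⟩ := exists_small P (ε := δ / ((|C| + 1) * B)) (by positivity)
  set l : K := b * N with hl
  have hl0 : l ≠ 0 := mul_ne_zero hb0 hN0
  obtain ⟨k, hk1, hk2⟩ := hC (algebraMap K (AdeleRing (𝓞 K) K) l⁻¹ * x)
  have hlw : ∀ w : InfinitePlace K, Sum.inl w ≠ P → w l * (|C| + 1) < δ := by
    intro w hw
    have h1 := hb1 w hw
    rw [lt_div_iff₀ (by positivity)] at h1
    rw [hl, map_mul]
    have h2 : w b * w (N : K) ≤ w b * B := mul_le_mul_of_nonneg_left (hB1 w) (apply_nonneg w _)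
    nlinarith
  have hlv : ∀ v : HeightOneSpectrum (𝓞 K), Sum.inr v ≠ P →
      v.valuation K l ≤ v.valuation K (N : K) := by
    intro v hv
    rw [hl, map_mul]
    exact mul_le_of_le_one_left' (hb2 v hv)
  have hkey : ∀ v : HeightOneSpectrum (𝓞 K),
      Valued.v (ι v (l * k) - x.2 v) ≤ v.valuation K l := by
    intro v
    have h1 : Valued.v (ι v l⁻¹ * x.2 v - ι v k) ≤ 1 := hk2 v
    have h2 : ι v (l * k) - x.2 v = -(ι v l * (ι v l⁻¹ * x.2 v - ι v k)) := by
      rw [mul_sub, ← mul_assoc, ← map_mul, mul_inv_cancel₀ hl0, map_one, one_mul, map_mul]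
      ring
    rw [h2, Valuation.map_neg, map_mul, v_ι]
    exact mul_le_of_le_one_right' h1
  refine ⟨l * k, fun w hw => ?_, fun v hv => ?_, fun v hvT hv => ?_⟩
  · have h1 : ‖κ w l⁻¹ * x.1 w - κ w k‖ ≤ C := hk1 w
    have h2 : κ w (l * k) - x.1 w = -(κ w l * (κ w l⁻¹ * x.1 w - κ w k)) := by
      rw [mul_sub, ← mul_assoc, ← map_mul, mul_inv_cancel₀ hl0, map_one, one_mul, map_mul]
      ring
    rw [h2, norm_neg, norm_mul, norm_κ]
    refine lt_of_le_of_lt (mul_le_mul_of_nonneg_left ?_ (apply_nonneg w _)) (hlw w hw)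
    linarith [le_abs_self C]
  · exact (hkey v).trans ((hlv v hv).trans (v.valuation_le_one N))
  · exact (hkey v).trans_lt ((hlv v hv).trans_lt (hNT v hvT))

/-- **`K + K_P` is dense in the ring of adeles** `𝔸` of a number field `K`, for every place `P`
(infinite or finite). -/
theorem dense_agreeAway (P : InfinitePlace K ⊕ HeightOneSpectrum (𝓞 K)) :
    Dense {x : AdeleRing (𝓞 K) K |
      ∃ k : K, AgreeAway P x (algebraMap K (AdeleRing (𝓞 K) K) k)} := by
  intro x
  rw [mem_closure_iff_nhds]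
  intro U hU
  have h1 : (fun y => x + y) ⁻¹' U ∈ 𝓝 (0 : AdeleRing (𝓞 K) K) := by
    refine (continuous_const.add continuous_id).continuousAt.preimage_mem_nhds ?_
    simpa using hU
  obtain ⟨U₁, hU₁, U₂, hU₂, hsub⟩ := mem_nhds_prod_iff.mp
    (show _ ∈ 𝓝 ((0 : InfiniteAdeleRing K), (0 : FiniteAdeleRing (𝓞 K) K)) from h1)
  obtain ⟨δ, hδ, h3⟩ : ∃ δ > 0, ∀ z : InfiniteAdeleRing K, (∀ w, ‖z w‖ < δ) → z ∈ U₁ := by
    obtain ⟨δ, hδ, h⟩ :=
      (Metric.mem_nhds_iff (α := (w : InfinitePlace K) → w.Completion) (x := 0)).mp hU₁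
    exact ⟨δ, hδ, fun z hz => h (mem_ball_zero_iff.mpr ((pi_norm_lt_iff hδ).mpr hz))⟩
  obtain ⟨T, n, h4⟩ := exists_of_mem_nhds_zero hU₂
  obtain ⟨k, hk1, hk2, hk3⟩ := exists_approx_away P x hδ T n
  set y := glue P x (algebraMap K _ k) with hy
  have h5 : ((y - x).1, (y - x).2) ∈ U₁ ×ˢ U₂ := by
    refine ⟨h3 _ fun w => ?_, h4 _ (fun v => ?_) fun v hv => ?_⟩
    · change ‖y.1 w - x.1 w‖ < δ
      by_cases hw : Sum.inl w = P
      · rw [hy, glue_fst_same _ _ hw, sub_self, norm_zero]
        exact hδ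
      · rw [hy, (agreeAway_glue P _ _).1 w hw]
        exact hk1 w hw
    · change Valued.v (y.2 v - x.2 v) ≤ 1
      by_cases hw : Sum.inr v = P
      · rw [hy, glue_snd_same _ _ hw, sub_self, map_zero]
        exact zero_le_one
      · rw [hy, (agreeAway_glue P _ _).2 v hw]
        exact hk2 v hw
    · change Valued.v (y.2 v - x.2 v) < _
      by_cases hw : Sum.inr v = P
      · rw [hy, glue_snd_same _ _ hw, sub_self, map_zero]
        exact exp_pos
      · rw [hy, (agreeAway_glue P _ _).2 v hw]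
        exact hk3 v hv hw
  have h6 : x + (y - x) ∈ U := hsub h5
  rw [add_sub_cancel] at h6
  exact ⟨y, h6, k, agreeAway_glue _ _ _⟩

/-! ### Stable range one -/

theorem stableOne_prod {A B : Type*} [CommRing A] [CommRing B] (hA : StableOne A)
    (hB : StableOne B) : StableOne (A × B) := by
  intro c d h
  obtain ⟨x, hx⟩ := hA c.1 d.1 (h.map (RingHom.fst A B))
  obtain ⟨y, hy⟩ := hB c.2 d.2 (h.map (RingHom.snd A B))
  exact ⟨(x, y), Prod.isUnit_iff.mpr ⟨hx, hy⟩⟩

theorem stableOne_pi {ι' : Type*} {A : ι' → Type*} [∀ i, CommRing (A i)]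
    (hA : ∀ i, StableOne (A i)) : StableOne (∀ i, A i) := by
  intro c d h
  choose x hx using fun i => hA i (c i) (d i) (h.map (Pi.evalRingHom A i))
  exact ⟨x, Pi.isUnit_iff.mpr hx⟩

omit [NumberField K] in
theorem stableOne_infiniteAdele : StableOne (InfiniteAdeleRing K) :=
  stableOne_pi (A := fun w : InfinitePlace K => w.Completion) fun w =>
    stableOne_of_field w.Completion

/-- **The ring of adeles of a number field has stable range one.** -/
theorem stableOne_adele : StableOne (AdeleRing (𝓞 K) K) :=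
  stableOne_prod (A := InfiniteAdeleRing K) (B := FiniteAdeleRing (𝓞 K) K)
    stableOne_infiniteAdele stableOne_finiteAdele

/-! ### Strong approximation for `SL_n` -/

/-- The components away from `P`. -/
def awayHom (P : InfinitePlace K ⊕ HeightOneSpectrum (𝓞 K)) : AdeleRing (𝓞 K) K →+*
    ((w : {w : InfinitePlace K // Sum.inl w ≠ P}) → w.1.Completion) ×
      ((v : {v : HeightOneSpectrum (𝓞 K) // Sum.inr v ≠ P}) → v.1.adicCompletion K) where
  toFun x := (fun w => x.1 w.1, fun v => x.2 v.1)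
  map_one' := rfl
  map_mul' _ _ := rfl
  map_zero' := rfl
  map_add' _ _ := rfl

theorem awayHom_eq_iff {P : InfinitePlace K ⊕ HeightOneSpectrum (𝓞 K)} {x y : AdeleRing (𝓞 K) K} :
    awayHom P x = awayHom P y ↔ AgreeAway P x y := by
  constructor
  · intro h
    exact ⟨fun w hw => congrFun (congrArg Prod.fst h) ⟨w, hw⟩,
      fun v hv => congrFun (congrArg Prod.snd h) ⟨v, hv⟩⟩
  · rintro ⟨h1, h2⟩
    exact Prod.ext (funext fun w => h1 w.1 w.2) (funext fun v => h2 v.1 v.2)

variable {ι' : Type*} [Fintype ι'] [DecidableEq ι']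

/-- The group of all `g ∈ SL_n(𝔸)` which agree with an element of `SL_n(K)` at all places other than
`P`. -/
def slAway (ι' : Type*) [Fintype ι'] [DecidableEq ι']
    (P : InfinitePlace K ⊕ HeightOneSpectrum (𝓞 K)) :
    Subgroup (Matrix.SpecialLinearGroup ι' (AdeleRing (𝓞 K) K)) :=
  (Matrix.SpecialLinearGroup.map (n := ι')
    ((awayHom P).comp (algebraMap K (AdeleRing (𝓞 K) K)))).range.comap
      (Matrix.SpecialLinearGroup.map (n := ι') (awayHom P))

theorem mem_slAway {P : InfinitePlace K ⊕ HeightOneSpectrum (𝓞 K)}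
    {g : Matrix.SpecialLinearGroup ι' (AdeleRing (𝓞 K) K)} :
    g ∈ slAway ι' P ↔ ∃ γ : Matrix.SpecialLinearGroup ι' K, ∀ i j,
      AgreeAway P (g i j) (algebraMap K (AdeleRing (𝓞 K) K) (γ i j)) := by
  constructor
  · rintro ⟨γ, hγ⟩
    refine ⟨γ, fun i j => ?_⟩
    rw [← awayHom_eq_iff]
    have h1 := congrArg (fun h : Matrix.SpecialLinearGroup ι' _ => h i j) hγ
    exact h1.symm
  · rintro ⟨γ, hγ⟩
    refine ⟨γ, ?_⟩
    ext i j : 1
    exact (awayHom_eq_iff.mpr (hγ i j)).symm

/-- **Strong approximation for `SL_n`**: `SL_n(K) SL_n(K_P)` is dense in `SL_n(𝔸)`, for every place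
`P` (infinite or finite) of the number field `K`. -/
theorem dense_SL_agreeAway (P : InfinitePlace K ⊕ HeightOneSpectrum (𝓞 K)) :
    Dense {g : Matrix.SpecialLinearGroup ι' (AdeleRing (𝓞 K) K) |
      ∃ γ : Matrix.SpecialLinearGroup ι' K, ∀ i j,
        AgreeAway P (g i j) (algebraMap K (AdeleRing (𝓞 K) K) (γ i j))} := by
  have h : (slAway ι' P).topologicalClosure = ⊤ := by
    rw [eq_top_iff, ← closure_transvection_eq_top stableOne_adele, Subgroup.closure_le]
    rintro g ⟨i, j, hij, c, rfl⟩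
    have h2 := image_closure_subset_closure_image (continuous_transvection (ι := ι') hij)
      (Set.mem_image_of_mem _ (dense_agreeAway P c))
    refine closure_mono ?_ h2
    rintro _ ⟨x, ⟨k, hk⟩, rfl⟩
    refine ⟨Matrix.SpecialLinearGroup.transvection hij k, ?_⟩
    rw [map_transvection, map_transvection, RingHom.comp_apply, ← awayHom_eq_iff.mpr hk]
  intro g
  have h3 : g ∈ (slAway ι' P).topologicalClosure := by
    rw [h]; exact Subgroup.mem_top g
  refine closure_mono ?_ h3
  intro g hg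
  exact mem_slAway.mp hg

/-! ### `S`-integers -/

/-- **The ring of `S`-integers of `K` is dense in `K ⊗ ℝ`** if `S` is not empty. -/
theorem denseRange_SInteger {S : Set (HeightOneSpectrum (𝓞 K))} (hS : S.Nonempty) :
    DenseRange ((algebraMap K (InfiniteAdeleRing K)).comp (S.integer K).toSubring.subtype) := by
  obtain ⟨v₀, hv₀⟩ := hS
  intro x
  rw [mem_closure_iff_nhds]
  intro U hU
  have h := dense_agreeAway (Sum.inr v₀ : InfinitePlace K ⊕ HeightOneSpectrum (𝓞 K))
    ((x, 0) : AdeleRing (𝓞 K) K)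
  have h1 : U ×ˢ finInt K ∈ 𝓝 (x, (0 : FiniteAdeleRing (𝓞 K) K)) :=
    prod_mem_nhds hU ((isOpen_finInt K).mem_nhds fun v => by
      change Valued.v (0 : v.adicCompletion K) ≤ 1
      rw [map_zero]
      exact zero_le_one)
  obtain ⟨y, ⟨hy1, hy2⟩, k, hk⟩ := mem_closure_iff_nhds.mp h _ h1
  refine ⟨algebraMap K (InfiniteAdeleRing K) k, ?_, ⟨k, fun v hv => ?_⟩, rfl⟩
  · have h2 : y.1 = algebraMap K (InfiniteAdeleRing K) k :=
      funext fun w => hk.1 w Sum.inl_ne_inr
    rw [← h2]
    exact hy1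
  · have h2 : y.2 v = ι v k := hk.2 v fun h => hv (Sum.inr_injective h ▸ hv₀)
    have h3 := hy2 v
    rw [h2, v_ι] at h3
    exact h3

/-- **`SL_n(𝓞_{K,S})` is dense in `SL_n(K ⊗ ℝ)`** if the set `S` of finite places is not empty. -/
theorem denseRange_SL_SInteger {S : Set (HeightOneSpectrum (𝓞 K))} (hS : S.Nonempty) :
    DenseRange (Matrix.SpecialLinearGroup.map (n := ι')
      ((algebraMap K (InfiniteAdeleRing K)).comp (S.integer K).toSubring.subtype)) :=
  denseRange_map (denseRange_SInteger hS) stableOne_infiniteAdele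

end Fermat.Agent.Cor.Adele
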